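import Fermat.Agent.Mod2.Dihedral.Residual

/-!
# The eigensystems of theta series at level `2m`

The theta series of a ring valued class character of `ℚ(√(-2m))` in characteristic two is a
homomorphism from the Hecke algebra of level `2m` (`exists_hom`). The cubic character matching
`ρ̄` takes values in the field of four elements (`exists_four`); its theta series is the residual
eigensystem `θ` with `θ(T_l) = tr ρ̄(Frob_l)` and `θ(U_v) = 1` (`exists_theta`).
-/

set_option autoImplicit false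
set_option linter.style.haveILetI false

noncomputable section

open NumberField Module
open scoped nonZeroDivisors

namespace FLTAgent.Mod2.Dih

local notation "ℚ̄" => AlgebraicClosure ℚ

variable (D : Setup) {B : Type} [CommRing B]

/-- The Hecke algebra of level `2m`. -/
abbrev Hecke2 : Type := CuspForm.heckeAlgebra (2 * D.m) 2 ∅

theorem exists_hom_of_level {K : Type} [Field K] [NumberField K] (hK : finrank ℚ K = 2)
    (hd : NumberField.discr K < 0) (h2 : (2 : ℤ) ∣ NumberField.discr K)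
    (h4 : NumberField.discr K ≠ -4) (hB : (2 : B) = 0) (χ : ClassGroup (𝓞 K) →* Bˣ)
    (E : ClassGroup (𝓞 K)) (hE : IsUnit (((χ (E ^ 2) : Bˣ) : B) - 1)) (n : ℕ) [NeZero (2 * n)]
    (hn : oddPart (NumberField.discr K) = n) :
    ∃ f : CuspForm.heckeAlgebra (2 * n) 2 ∅ →+* B,
      (∀ (l : ℕ) (hl : l.Prime) (hlN : ¬ l ∣ 2 * n),
        f (CuspForm.heckeAlgebra.T hl hlN (Set.notMem_empty l)) = ringCoeff χ l) ∧
      ∀ (v : ℕ) (hv : v.Prime) (hvN : v ∣ 2 * n),
        f (CuspForm.heckeAlgebra.U hv hvN (Set.notMem_empty v)) = ringCoeff χ v := by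
  subst hn
  exact exists_hom_theta hK hd h2 h4 hB χ E hE

/-- The theta series of a ring valued character of level `2m`. -/
theorem exists_hom (hB : (2 : B) = 0) (χ : ClassGroup (𝓞 (field D)) →* Bˣ)
    (E : ClassGroup (𝓞 (field D))) (hE : IsUnit (((χ (E ^ 2) : Bˣ) : B) - 1)) :
    ∃ f : Hecke2 D →+* B,
      (∀ (l : ℕ) (hl : l.Prime) (hlN : ¬ l ∣ 2 * D.m),
        f (CuspForm.heckeAlgebra.T hl hlN (Set.notMem_empty l)) = ringCoeff χ l) ∧
      ∀ (v : ℕ) (hv : v.Prime) (hvN : v ∣ 2 * D.m),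
        f (CuspForm.heckeAlgebra.U hv hvN (Set.notMem_empty v)) = ringCoeff χ v :=
  exists_hom_of_level (finrank_field D) (discr_neg D) (two_dvd_discr D) (discr_ne D) hB χ E hE
    D.m (oddPart_discr D)

/-- Values of a hom on the Hecke algebra lie in a subring containing the values at generators. -/
theorem hom_mem_subring (f : Hecke2 D →+* B) (S : Subring B)
    (hT : ∀ (l : ℕ) (hl : l.Prime) (hlN : ¬ l ∣ 2 * D.m),
      f (CuspForm.heckeAlgebra.T hl hlN (Set.notMem_empty l)) ∈ S)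
    (hU : ∀ (v : ℕ) (hv : v.Prime) (hvN : v ∣ 2 * D.m),
      f (CuspForm.heckeAlgebra.U hv hvN (Set.notMem_empty v)) ∈ S) (x : Hecke2 D) : f x ∈ S := by
  obtain ⟨t, ht⟩ := x
  induction ht using Algebra.adjoin_induction with
  | mem t ht =>
    rcases ht with ⟨l, hl, hlN, -, rfl⟩ | ⟨v, hvN, hv, -, rfl⟩
    · exact hT l hl hlN
    · exact hU v hv hvN
  | algebraMap z =>
    rw [show (⟨algebraMap ℤ _ z, Subalgebra.algebraMap_mem _ z⟩ : Hecke2 D) =
      ((z : ℤ) : Hecke2 D) from rfl, map_intCast]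
    exact intCast_mem S z
  | add a b ha hb iha ihb =>
    rw [show (⟨a + b, add_mem ha hb⟩ : Hecke2 D) = ⟨a, ha⟩ + ⟨b, hb⟩ from rfl, map_add]
    exact add_mem iha ihb
  | mul a b ha hb iha ihb =>
    rw [show (⟨a * b, mul_mem ha hb⟩ : Hecke2 D) = ⟨a, ha⟩ * ⟨b, hb⟩ from rfl, map_mul]
    exact mul_mem iha ihb

/-- The cubic character with values in the field of four elements. -/
theorem exists_four :
    ∃ (ψ : ClassGroup (𝓞 (field D)) →* Char2.Fourˣ) (E : ClassGroup (𝓞 (field D))),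
      ψ ^ 3 = 1 ∧ ψ (E ^ 2) ≠ 1 ∧
      ∀ (l : ℕ) (A : ValuationSubring ℚ̄), l.Prime → ¬ l ∣ 2 * D.m → A.LiesOverPrime l →
        ∀ φ : Gal2, A.IsFrobeniusAt φ l → D.InK φ → (ψ (classOf D A) = 1 ↔ D.rho φ = 1) := by
  obtain ⟨ψ, h3, h1, hiff⟩ := exists_cubic_iff D
  obtain ⟨E, hE⟩ : ∃ E, ψ E ≠ 1 := by
    by_contra h
    simp only [not_exists, not_not] at h
    exact h1 (MonoidHom.ext h)
  have hord : orderOf (ψ E) = 3 :=
    orderOf_eq_prime (by rw [← MonoidHom.pow_apply, h3, MonoidHom.one_apply]) hE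
  have hgen : ∀ x : ψ.range, x ∈ Subgroup.zpowers (ψ.rangeRestrict E) := by
    rintro ⟨_, C, rfl⟩
    have hprim : IsPrimitiveRoot ((ψ E : ℂˣ) : ℂ) 3 :=
      (IsPrimitiveRoot.iff_orderOf.2 hord).map_of_injective Units.val_injective
        (f := Units.coeHom ℂ)
    obtain ⟨i, -, hi⟩ := hprim.eq_pow_of_pow_eq_one (ξ := ((ψ C : ℂˣ) : ℂ)) (by
      rw [← Units.val_pow_eq_pow_val, ← MonoidHom.pow_apply, h3, MonoidHom.one_apply,
        Units.val_one])
    refine ⟨i, Subtype.ext (Units.ext ?_)⟩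
    simpa using hi
  let w : Char2.Fourˣ := Units.mk0 Char2.omega fun h => one_ne_zero (α := Char2.Four) (by
    rw [← Char2.omega_cube, h, zero_pow three_ne_zero])
  have hw : orderOf w = 3 := orderOf_eq_prime (Units.ext Char2.omega_cube)
    (fun h => Char2.omega_ne_one (congrArg Units.val h))
  have hg' : orderOf w ∣ orderOf (ψ.rangeRestrict E) := by
    rw [hw, ← Subgroup.orderOf_coe, MonoidHom.coe_rangeRestrict, hord]
  let e : ψ.range →* Char2.Fourˣ := monoidHomOfForallMemZpowers hgen hg'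
  have hinj : ∀ x : ψ.range, e x = 1 → x = 1 := by
    intro x hx
    obtain ⟨i, rfl⟩ := Subgroup.mem_zpowers_iff.1 (hgen x)
    rw [map_zpow, monoidHomOfForallMemZpowers_apply_gen hgen hg',
      ← orderOf_dvd_iff_zpow_eq_one, hw] at hx
    rw [← orderOf_dvd_iff_zpow_eq_one, ← Subgroup.orderOf_coe, MonoidHom.coe_rangeRestrict, hord]
    exact hx
  have hiff' : ∀ C, e.comp ψ.rangeRestrict C = 1 ↔ ψ C = 1 := fun C =>
    ⟨fun h => by simpa using congrArg Subtype.val (hinj _ h),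
      fun h => by rw [MonoidHom.comp_apply, show ψ.rangeRestrict C = 1 from Subtype.ext h, map_one]⟩
  refine ⟨e.comp ψ.rangeRestrict, E, MonoidHom.ext fun C => ?_, fun h => hE ?_,
    fun l A hl hl2 hA φ hφ hK => (hiff' _).trans (hiff l A hl hl2 hA φ hφ hK)⟩
  · rw [MonoidHom.pow_apply, ← map_pow, MonoidHom.one_apply]
    refine (hiff' _).2 ?_
    rw [map_pow, ← MonoidHom.pow_apply, h3, MonoidHom.one_apply]
  · rw [hiff', map_pow] at h
    have h3' : ψ E ^ 3 = 1 := hord ▸ pow_orderOf_eq_one _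
    rwa [pow_succ, h, one_mul] at h3'

theorem four_add_inv {z : Char2.Fourˣ} (hz : z ^ 3 = 1) (h1 : z ≠ 1) :
    (z : Char2.Four) + ((z⁻¹ : Char2.Fourˣ) : Char2.Four) = 1 := by
  have h : ((z : Char2.Four) - 1) * ((z : Char2.Four) ^ 2 + z + 1) = 0 := by
    have : (z : Char2.Four) ^ 3 = 1 := by rw [← Units.val_pow_eq_pow_val, hz, Units.val_one]
    linear_combination this
  rcases mul_eq_zero.1 h with h | h
  · exact absurd (Units.ext (sub_eq_zero.1 h)) h1
  · rw [show z⁻¹ = z ^ 2 from inv_eq_of_mul_eq_one_right (by rw [← pow_succ', hz]),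
      Units.val_pow_eq_pow_val]
    linear_combination h - Char2.two_four

theorem four_eq_one_of_sq {z : Char2.Fourˣ} (hz : z ^ 3 = 1) (h2 : z ^ 2 = 1) : z = 1 := by
  rwa [pow_succ, h2, one_mul] at hz

/-- The theta series of the cubic character reduces to `ρ̄`. -/
theorem exists_theta : ∃ θ : Hecke2 D →+* ZMod 2,
    (∀ (l : ℕ) (hl : l.Prime) (hlN : ¬ l ∣ 2 * D.m) (A : ValuationSubring ℚ̄),
      A.LiesOverPrime l → ∀ φ : Gal2, A.IsFrobeniusAt φ l →
        θ (CuspForm.heckeAlgebra.T hl hlN (Set.notMem_empty l)) = (D.rho φ).trace) ∧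
    ∀ (v : ℕ) (hv : v.Prime) (hvN : v ∣ 2 * D.m),
      θ (CuspForm.heckeAlgebra.U hv hvN (Set.notMem_empty v)) = 1 := by
  obtain ⟨ψ, E, h3, hE, hiff⟩ := exists_four D
  obtain ⟨f, hfT, hfU⟩ := exists_hom D Char2.two_four ψ E
    (isUnit_iff_ne_zero.2 (sub_ne_zero.2 fun h => hE (Units.ext h)))
  let ι : ZMod 2 →+* Char2.Four := AdjoinRoot.of Char2.fourPoly
  have hι : Function.Injective ι := RingHom.injective _
  have hT : ∀ (l : ℕ) (hl : l.Prime) (hlN : ¬ l ∣ 2 * D.m) (A : ValuationSubring ℚ̄),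
      A.LiesOverPrime l → ∀ φ : Gal2, A.IsFrobeniusAt φ l →
        f (CuspForm.heckeAlgebra.T hl hlN (Set.notMem_empty l)) = ι (D.rho φ).trace := by
    intro l hl hlN A hA φ hφ
    rw [hfT]
    have h3' : ψ (classOf D A) ^ 3 = 1 := by rw [← MonoidHom.pow_apply, h3, MonoidHom.one_apply]
    by_cases hK : D.InK φ
    · rw [ringCoeff_of_inK ψ hl hA hlN hφ hK]
      by_cases h1 : D.rho φ = 1
      · rw [(hiff l A hl hlN hA φ hφ hK).2 h1, inv_one, Units.val_one, ← two_mul,
          Char2.two_four, zero_mul, h1, Matrix.trace_one, Fintype.card_fin,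
          show ((2 : ℕ) : ZMod 2) = 0 by decide, map_zero]
      · rw [four_add_inv h3' (mt (hiff l A hl hlN hA φ hφ hK).1 h1),
          mat_trace_one _ (det_rho D φ) hK h1, map_one]
    · rw [ringCoeff_of_not_inK ψ hl hA hlN hφ hK,
        (mat_trace_zero _ (det_rho D φ)).2 (mat_sq_of_cube_ne _ (det_rho D φ) hK), map_zero]
  have hU : ∀ (v : ℕ) (hv : v.Prime) (hvN : v ∣ 2 * D.m),
      f (CuspForm.heckeAlgebra.U hv hvN (Set.notMem_empty v)) = ι 1 := by
    intro v hv hvN
    obtain ⟨A, hA⟩ := GalCommon.exists_liesOverPrime (ℓ := v) hv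
    have h1 : ψ (classOf D A) = 1 :=
      four_eq_one_of_sq (by rw [← MonoidHom.pow_apply, h3, MonoidHom.one_apply])
        (by rw [← map_pow, classOf_sq hv hA hvN, map_one])
    rw [hfU, ringCoeff_of_dvd ψ hv hA hvN, map_one, h1, Units.val_one]
  have hmem : ∀ x, ∃ a, ι a = f x := fun x => RingHom.mem_range.1
    (hom_mem_subring D f ι.range (fun l hl hlN => by
      obtain ⟨A, hA, φ, hφ⟩ := GalCommon.exists_place_frobenius hl
      exact ⟨_, (hT l hl hlN A hA φ hφ).symm⟩)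
      (fun v hv hvN => ⟨_, (hU v hv hvN).symm⟩) x)
  choose θ hθ using hmem
  refine ⟨{ toFun := θ, map_one' := hι (by rw [hθ, map_one, map_one])
            map_mul' := fun x y => hι (by rw [hθ, map_mul, map_mul, hθ, hθ])
            map_zero' := hι (by rw [hθ, map_zero, map_zero])
            map_add' := fun x y => hι (by rw [hθ, map_add, map_add, hθ, hθ]) },
    fun l hl hlN A hA φ hφ => hι ((hθ _).trans (hT l hl hlN A hA φ hφ)),
    fun v hv hvN => hι ((hθ _).trans (hU v hv hvN))⟩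

end FLTAgent.Mod2.Dih
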