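import Fermat.Agent.Mod2.Dihedral.Genus

/-!
# Dihedral systems in characteristic two are specialisations of the universal one

The diagonal character of a dihedral system over a finite local ring of characteristic two
(`diagChar`) is anti-invariant and everywhere unramified, so by genus theory it factors through
the universal system and gives a homomorphism from the Hecke algebra of level `2m`
(`exists_hom_of_universal`). Hence `ThetaProp` follows from a `Tower` (`thetaProp_of_tower`).
-/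

set_option autoImplicit false
set_option linter.style.haveILetI false

noncomputable section

open NumberField Module Matrix
open scoped nonZeroDivisors

namespace FLTAgent.Mod2.Dih

local notation "ℚ̄" => AlgebraicClosure ℚ

variable {D : Setup} {B : Type} [CommRing B]

/-- The diagonal character of a dihedral system. -/
def diagChar (r : Gal2 →* Mat2 B) (hdih : D.IsDihedral r) : kgrp D →* B where
  toFun σ := r (σ : Gal2) 0 0
  map_one' := by simp
  map_mul' σ τ := by
    rw [Subgroup.coe_mul, map_mul, Matrix.mul_apply, Fin.sum_univ_two, ((hdih σ).1 σ.2).1,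
      zero_mul, add_zero]

theorem diagChar_inv (r : Gal2 →* Mat2 B) (hdih : D.IsDihedral r) (hdet : ∀ σ, (r σ).det = 1)
    (σ : kgrp D) : (((diagChar r hdih).toHomUnits σ)⁻¹ : Bˣ).val = r (σ : Gal2) 1 1 := by
  refine Units.inv_eq_of_mul_eq_one_right ?_
  have h := hdet (σ : Gal2)
  rw [det_fin_two, ((hdih σ).1 σ.2).1, zero_mul, sub_zero] at h
  exact h

theorem diagChar_anti (r : Gal2 →* Mat2 B) (hdih : D.IsDihedral r) (hdet : ∀ σ, (r σ).det = 1)
    (c : Gal2) (hc : ¬ D.InK c) (σ τ : kgrp D) (h : (τ : Gal2) = c * σ * c⁻¹) :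
    (diagChar r hdih).toHomUnits τ = ((diagChar r hdih).toHomUnits σ)⁻¹ := by
  refine Units.ext ?_
  rw [diagChar_inv r hdih hdet]
  show r (τ : Gal2) 0 0 = _
  have hc' : ¬ D.InK c⁻¹ := fun hK => hc (inv_inv c ▸ (kgrp D).inv_mem hK)
  have e : r c 0 1 * r c⁻¹ 1 0 = 1 := by
    have e0 : r c * r c⁻¹ = 1 := by rw [← map_mul, mul_inv_cancel, map_one]
    have := congrFun (congrFun e0 0) 0
    rwa [Matrix.mul_apply, Fin.sum_univ_two, ((hdih c).2 hc).1, zero_mul, zero_add,
      Matrix.one_apply_eq] at this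
  rw [h, map_mul, map_mul, Matrix.mul_apply, Fin.sum_univ_two, Matrix.mul_apply,
    Matrix.mul_apply, Fin.sum_univ_two, Fin.sum_univ_two, ((hdih c).2 hc).1,
    ((hdih σ).1 σ.2).1, ((hdih σ).1 σ.2).2, ((hdih c⁻¹).2 hc').1]
  linear_combination r (σ : Gal2) 1 1 * e

theorem exists_pow_maximalIdeal (B : Type) [CommRing B] [IsLocalRing B] [Finite B] :
    ∃ n : ℕ, ∀ x ∈ IsLocalRing.maximalIdeal B, x ^ n = 0 := by
  haveI : IsArtinianRing B := inferInstance
  obtain ⟨n, hn⟩ := IsArtinianRing.isNilpotent_jacobson_bot (R := B)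
  rw [IsLocalRing.jacobson_eq_maximalIdeal ⊥ bot_ne_top] at hn
  refine ⟨n, fun x hx => ?_⟩
  have := Ideal.pow_mem_pow hx n
  rw [hn, Submodule.zero_eq_bot, Submodule.mem_bot] at this
  exact this

theorem exists_xi_omega (U : Universal D) : ∃ g : kgrp D, U.ξ g = Units.mk0 Char2.omega
    (fun h => one_ne_zero (α := Char2.Four) (by
      rw [← Char2.omega_cube, h, zero_pow three_ne_zero])) := by
  obtain ⟨h0, h0K, h0ne⟩ := exists_order_three D
  set g : kgrp D := ⟨h0, h0K⟩
  have h3 : U.ξ g ^ 3 = 1 := by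
    rw [← map_pow, U.ξ_eq_one, SubmonoidClass.coe_pow, map_pow]
    exact h0K
  have hne : U.ξ g ≠ 1 := mt (U.ξ_eq_one g).1 h0ne
  have he := four_add_inv h3 hne
  rcases Char2.eq_omega_or (U.ξ g : Char2.Four) (by
    have := congrArg (fun z => z * (U.ξ g : Char2.Four)) he
    rw [add_mul, one_mul, Units.inv_mul] at this
    linear_combination this + (U.ξ g : Char2.Four) * Char2.two_four) with h | h
  · exact ⟨g, Units.ext h⟩
  · refine ⟨g * g, Units.ext ?_⟩
    rw [map_mul, Units.val_mul, h, Units.val_mk0]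
    linear_combination Char2.omega * Char2.omega_cube

/-- Dihedral systems over finite local rings of characteristic two come from the universal one. -/
theorem exists_hom_of_universal (U : Universal D) (B : Type) [CommRing B] [IsLocalRing B]
    [Finite B] (h2 : (2 : B) = 0) (r : Gal2 →* Mat2 B) (hfin : FinLevel r)
    (hdih : D.IsDihedral r) (hdet : ∀ σ, (r σ).det = 1)
    (hunr : ∀ q : ℕ, q.Prime → ∀ A : ValuationSubring ℚ̄, A.LiesOverPrime q →
      ∀ σ ∈ A.inertiaSubgroupIn ℚ, D.InK σ → r σ = 1)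
    (hres : ∀ σ, (r σ).trace - ((D.rho σ).trace.val : B) ∈ IsLocalRing.maximalIdeal B)
    (u : ℕ → B) (hu : ∀ v : ℕ, v.Prime → v ∣ 2 * D.m → ∀ A : ValuationSubring ℚ̄,
      A.LiesOverPrime v → ∀ φ : Gal2, A.IsFrobeniusAt φ v → D.InK φ →
        r φ 0 0 = u v ∧ r φ 1 1 = u v) :
    ∃ f : Hecke2 D →+* B,
      (∀ (l : ℕ) (hl : l.Prime) (hlN : ¬ l ∣ 2 * D.m) (A : ValuationSubring ℚ̄),
        A.LiesOverPrime l → ∀ φ : Gal2, A.IsFrobeniusAt φ l →
          f (CuspForm.heckeAlgebra.T hl hlN (Set.notMem_empty l)) = (r φ).trace) ∧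
      ∀ (v : ℕ) (hv : v.Prime) (hvN : v ∣ 2 * D.m),
        f (CuspForm.heckeAlgebra.U hv hvN (Set.notMem_empty v)) = u v := by
  classical
  set χ := (diagChar r hdih).toHomUnits with hχ
  have hχv : ∀ σ : kgrp D, (χ σ : B) = r (σ : Gal2) 0 0 := fun σ => rfl
  have htr : ∀ σ : kgrp D, (χ σ : B) + ((χ σ)⁻¹ : Bˣ) = (r (σ : Gal2)).trace := fun σ => by
    rw [trace_fin_two, hχ, diagChar_inv r hdih hdet]
    rfl
  obtain ⟨n, hn⟩ := exists_pow_maximalIdeal B
  obtain ⟨g, hg⟩ := exists_xi_omega U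
  have hgne : D.rho g ≠ 1 := fun h => by
    have := (U.ξ_eq_one g).2 h
    rw [hg] at this
    exact Char2.omega_ne_one (congrArg Units.val this)
  set a : B := (χ g : B)
  have hε : a ^ 2 + a + 1 ∈ IsLocalRing.maximalIdeal B := by
    have h := hres g
    rw [← htr, mat_trace_one _ (det_rho D g) g.2 hgne, ZMod.val_one, Nat.cast_one] at h
    have e : a ^ 2 + a + 1 = a * (a + (((χ g)⁻¹ : Bˣ) : B) - 1) := by
      linear_combination -Units.mul_inv (χ g) + a * h2
    rw [e]
    exact Ideal.mul_mem_left _ _ h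
  obtain ⟨e, he, henil⟩ := Char2.exists_artinSchreier h2 (ε := a ^ 2 + a + 1) ⟨n, hn _ hε⟩
  have hωB : (a + e) ^ 2 + (a + e) + 1 = 0 := by
    linear_combination he + (a * e + a ^ 2 + a + 1) * h2
  let ev4 : Char2.Four →+* B := Char2.fourLift h2 (a + e) hωB
  let ξB : kgrp D →* Bˣ := (Units.map ev4.toMonoidHom).comp U.ξ
  let π : B →+* IsLocalRing.ResidueField B := IsLocalRing.residue B
  have hπ0 : ∀ x, π x = 0 ↔ x ∈ IsLocalRing.maximalIdeal B := fun x =>
    IsLocalRing.residue_eq_zero_iff x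
  have hclose : ∀ σ : kgrp D, π (χ σ : B) = π (ξB σ : B) := by
    have hker : ∀ σ : kgrp D, D.rho σ = 1 → π (χ σ : B) = π (ξB σ : B) := by
      intro σ h1
      have hξ : ξB σ = 1 := by
        show Units.map _ (U.ξ σ) = 1
        rw [(U.ξ_eq_one σ).2 h1, map_one]
      have h := hres σ
      rw [← htr, h1, Matrix.trace_one, Fintype.card_fin, show ((2 : ℕ) : ZMod 2) = 0 by decide,
        ZMod.val_zero, Nat.cast_zero, sub_zero, ← hπ0, map_add] at h
      have hm : π (χ σ : B) * π (((χ σ)⁻¹ : Bˣ) : B) = 1 := by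
        rw [← map_mul, Units.mul_inv, map_one]
      have h2' : (2 : IsLocalRing.ResidueField B) = 0 := by rw [← map_ofNat π 2, h2, map_zero]
      rw [hξ, Units.val_one, map_one]
      have : (π (χ σ : B) + 1) ^ 2 = 0 := by linear_combination π (χ σ : B) * h - hm + π (χ σ : B) * h2'
      linear_combination (pow_eq_zero_iff two_ne_zero).1 this - h2'
    have hgC : π (χ g : B) = π (ξB g : B) := by
      show π a = π (ev4 (U.ξ g : Char2.Four))
      rw [hg, Units.val_mk0, Char2.fourLift_omega, map_add, (henil.map π).eq_zero, add_zero]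
    intro σ
    obtain ⟨i, hi⟩ : ∃ i : ℕ, D.rho σ = D.rho g ^ i := by
      rcases mat_order_three _ _ (det_rho D g) (det_rho D σ) g.2 hgne σ.2 with h | h | h
      · exact ⟨0, by rw [h, pow_zero]⟩
      · exact ⟨1, by rw [h, pow_one]⟩
      · exact ⟨2, by rw [h, sq]⟩
    have hk := hker ((g ^ i)⁻¹ * σ) (by
      rw [Subgroup.coe_mul, InvMemClass.coe_inv, SubmonoidClass.coe_pow, map_mul, hi, ← map_pow,
        ← map_mul, inv_mul_cancel, map_one])
    have e1 : ∀ κ : kgrp D →* Bˣ,
        π (κ σ : B) = π (κ g : B) ^ i * π (κ ((g ^ i)⁻¹ * σ) : B) := fun κ => by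
      rw [← map_pow, ← map_mul, ← Units.val_pow_eq_pow_val, ← Units.val_mul, ← map_pow κ,
        ← map_mul κ, mul_inv_cancel_left]
    rw [e1 χ, e1 ξB, hk, hgC]
  let χ₂ : kgrp D →* Bˣ := χ / ξB
  have hpow : ∀ σ, χ₂ σ ^ 2 ^ n = 1 := fun σ => Units.ext (by
    rw [Units.val_pow_eq_pow_val, Units.val_one]
    refine Char2.pow_two_pow_eq_one h2 (hn _ ?_)
    show ((χ / ξB) σ : B) - 1 ∈ _
    rw [← hπ0, MonoidHom.div_apply, div_eq_mul_inv, Units.val_mul, map_sub, map_mul, map_one,
      hclose, ← map_mul, Units.mul_inv, map_one, sub_self])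
  have hgood : Good χ₂ := by
    refine Good.div ⟨?_, fun q hq A hA σ hσ => ?_, diagChar_anti r hdih hdet⟩ ⟨?_, ?_, ?_⟩
    · obtain ⟨L, hL, h⟩ := hfin
      exact ⟨L, hL, fun σ hσ => Units.ext (by rw [hχv, h _ hσ, Matrix.one_apply_eq, Units.val_one])⟩
    · exact Units.ext (by rw [hχv, hunr q hq A hA _ hσ σ.2, Matrix.one_apply_eq, Units.val_one])
    · obtain ⟨L, hL, h⟩ := U.cont
      exact ⟨L, hL, fun σ hσ => by rw [MonoidHom.comp_apply, (h σ hσ).1, map_one]⟩
    · exact fun q hq A hA σ hσ => by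
        rw [MonoidHom.comp_apply, (U.unram q hq A hA σ hσ).1, map_one]
    · exact fun c hc σ τ h => by
        rw [MonoidHom.comp_apply, MonoidHom.comp_apply, (U.anti c hc σ τ h).1, map_inv]
  obtain ⟨hI, hhI⟩ := exists_lift U χ₂ hgood n hpow
  letI : Algebra Char2.Four B := ev4.toAlgebra
  let ev : MonoidAlgebra Char2.Four (Img U) →+* B :=
    (MonoidAlgebra.lift Char2.Four B (Img U) ((Units.coeHom B).comp hI)).toRingHom
  have hev : ∀ σ : kgrp D,
      ev (MonoidAlgebra.single (U.π.rangeRestrict σ) (U.ξ σ : Char2.Four)) = (χ σ : B) := fun σ => by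
    show MonoidAlgebra.lift Char2.Four B (Img U) _ _ = _
    rw [MonoidAlgebra.lift_single, Algebra.smul_def, MonoidHom.comp_apply,
      ← MonoidHom.comp_apply hI, ← hhI, Units.coeHom_apply]
    show ev4 (U.ξ σ : Char2.Four) * ((χ / ξB) σ : B) = _
    rw [MonoidHom.div_apply, show ev4 (U.ξ σ : Char2.Four) = (ξB σ : B) from rfl, ← Units.val_mul,
      mul_div_cancel]
  let incl : MonoidAlgebra Char2.Four (Img U) →+* MonoidAlgebra Char2.Four U.G :=
    (MonoidAlgebra.lift Char2.Four _ (Img U)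
      ((MonoidAlgebra.of Char2.Four U.G).comp (Img U).subtype)).toRingHom
  have hincl : ∀ (x : Img U) (c : Char2.Four),
      incl (MonoidAlgebra.single x c) = MonoidAlgebra.single (x : U.G) c := fun x c => by
    show MonoidAlgebra.lift Char2.Four _ (Img U) _ _ = _
    rw [MonoidAlgebra.lift_single, MonoidHom.comp_apply, Subgroup.coe_subtype,
      MonoidAlgebra.smul_of]
  have hinj : Function.Injective incl := by
    have e : ∀ y, incl y = MonoidAlgebra.mapDomain (Subtype.val : Img U → U.G) y := by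
      intro y
      induction y using MonoidAlgebra.induction_linear with
      | zero => simp
      | add y z hy hz => rw [map_add, hy, hz, MonoidAlgebra.mapDomain_add]
      | single x c => rw [hincl, MonoidAlgebra.mapDomain_single]
    intro y z h
    rw [e, e] at h
    exact MonoidAlgebra.mapDomain_injective Subtype.val_injective h
  have hmem : ∀ x, ∃ y, incl y = U.f x := fun x => RingHom.mem_range.1
    (hom_mem_subring D U.f incl.range (fun l hl hlN => by
      obtain ⟨A, hA, φ, hφ⟩ := GalCommon.exists_place_frobenius hl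
      by_cases hK : D.InK φ
      · rw [U.f_T_in l hl hlN A hA ⟨φ, hK⟩ hφ, ← map_inv U.π]
        exact add_mem ⟨_, hincl (U.π.rangeRestrict ⟨φ, hK⟩) _⟩
          ⟨_, hincl (U.π.rangeRestrict ⟨φ, hK⟩⁻¹) _⟩
      · rw [U.f_T_out l hl hlN A hA φ hφ hK]
        exact zero_mem _)
      (fun v hv hvN => by
        obtain ⟨A, hA⟩ := GalCommon.exists_liesOverPrime (ℓ := v) hv
        obtain ⟨φ, hφ⟩ := exists_frobenius_inK D hv hvN hA
        rw [U.f_U v hv hvN A hA φ hφ]
        exact ⟨_, hincl (U.π.rangeRestrict φ) 1⟩) x)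
  choose f' hf' using hmem
  let F : Hecke2 D →+* MonoidAlgebra Char2.Four (Img U) :=
    { toFun := f'
      map_one' := hinj (by rw [hf', map_one, map_one])
      map_mul' := fun x y => hinj (by rw [hf', map_mul, map_mul, hf', hf'])
      map_zero' := hinj (by rw [hf', map_zero, map_zero])
      map_add' := fun x y => hinj (by rw [hf', map_add, map_add, hf', hf']) }
  refine ⟨ev.comp F, fun l hl hlN A hA φ hφ => ?_, fun v hv hvN => ?_⟩
  · by_cases hK : D.InK φ
    · have e : F (CuspForm.heckeAlgebra.T hl hlN (Set.notMem_empty l)) =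
          MonoidAlgebra.single (U.π.rangeRestrict ⟨φ, hK⟩) (U.ξ ⟨φ, hK⟩ : Char2.Four) +
            MonoidAlgebra.single (U.π.rangeRestrict ⟨φ, hK⟩⁻¹)
              (U.ξ ⟨φ, hK⟩⁻¹ : Char2.Four) := by
        refine hinj ((hf' _).trans ?_)
        rw [map_add, hincl, hincl, U.f_T_in l hl hlN A hA ⟨φ, hK⟩ hφ, map_inv U.ξ,
          MonoidHom.coe_rangeRestrict, MonoidHom.coe_rangeRestrict, map_inv U.π]
      show ev (F _) = _
      rw [e, map_add, hev, hev, map_inv χ]
      exact htr ⟨φ, hK⟩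
    · have e : F (CuspForm.heckeAlgebra.T hl hlN (Set.notMem_empty l)) = 0 :=
        hinj ((hf' _).trans (by rw [U.f_T_out l hl hlN A hA φ hφ hK, map_zero]))
      show ev (F _) = _
      rw [e, map_zero, trace_fin_two, ((hdih φ).2 hK).1, ((hdih φ).2 hK).2, add_zero]
  · obtain ⟨A, hA⟩ := GalCommon.exists_liesOverPrime (ℓ := v) hv
    obtain ⟨φ, hφ⟩ := exists_frobenius_inK D hv hvN hA
    have e : F (CuspForm.heckeAlgebra.U hv hvN (Set.notMem_empty v)) =
        MonoidAlgebra.single (U.π.rangeRestrict φ) (U.ξ φ : Char2.Four) := by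
      refine hinj ((hf' _).trans ?_)
      rw [hincl, MonoidHom.coe_rangeRestrict, U.f_U v hv hvN A hA φ hφ,
        (U.frob v hv hvN A hA φ hφ).1, Units.val_one]
    show ev (F _) = _
    rw [e, hev, hχv]
    exact (hu v hv hvN A hA _ hφ φ.2).1

/-- Dihedral systems in characteristic two are modular of level `2m`. -/
theorem thetaProp_of_tower (D : Setup) (W : Tower D) : D.ThetaProp := by
  obtain ⟨U⟩ := nonempty_universal D W
  intro B _ _ _ h2 r hfin hdih hdet hunr _ hres u hu
  exact exists_hom_of_universal U B h2 r hfin hdih hdet hunr hres u hu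

end FLTAgent.Mod2.Dih
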