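import Fermat.Agent.Mod2.RT.Basic

/-!
# Two by two matrices and group algebras in characteristic two

The projection onto the line of an element of trace `≡ 1`, the character cut out by it, the roots
of `X² + X + s`, and the local ring `F[G]` for a `2`-group `G`.
-/

set_option autoImplicit false
set_option linter.unusedSectionVars false

noncomputable section

namespace FLTAgent.Mod2.Char2

open Matrix

section Scalars

variable {A : Type} [CommRing A] (h2 : (2 : A) = 0)
include h2

theorem add_self (x : A) : x + x = 0 := by rw [← two_mul, h2, zero_mul]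

theorem neg_self (x : A) : -x = x := by linear_combination (-x) * h2

theorem add_pow_two_pow (x y : A) (k : ℕ) : (x + y) ^ 2 ^ k = x ^ 2 ^ k + y ^ 2 ^ k := by
  induction k with
  | zero => simp
  | succ k ih =>
    rw [pow_succ, pow_mul, ih, pow_mul, pow_mul]
    linear_combination x ^ 2 ^ k * y ^ 2 ^ k * h2

/-- The Artin–Schreier equation is solvable at nilpotent elements. -/
theorem exists_artinSchreier {ε : A} (hε : IsNilpotent ε) :
    ∃ e : A, e ^ 2 + e = ε ∧ IsNilpotent e := by
  obtain ⟨n, hn⟩ := hε
  have hk : ∀ k : ℕ, (∑ i ∈ Finset.range k, ε ^ 2 ^ i) ^ 2 + ∑ i ∈ Finset.range k, ε ^ 2 ^ i =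
      ε + ε ^ 2 ^ k := by
    intro k
    induction k with
    | zero =>
      simp only [Finset.range_zero, Finset.sum_empty, pow_zero, pow_one]
      linear_combination (-ε) * h2
    | succ k ih =>
      rw [Finset.sum_range_succ, pow_succ 2 k, pow_mul]
      linear_combination ih + ((∑ i ∈ Finset.range k, ε ^ 2 ^ i) * ε ^ 2 ^ k + ε ^ 2 ^ k) * h2
  refine ⟨∑ i ∈ Finset.range n, ε ^ 2 ^ i, ?_,
    isNilpotent_sum fun i _ => IsNilpotent.pow_of_pos ⟨n, hn⟩ (by positivity)⟩
  rw [hk n, pow_eq_zero_of_le (Nat.lt_two_pow_self).le hn, add_zero]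

/-- A nilpotent element plus one has `2`-power order. -/
theorem pow_two_pow_eq_one {x : A} {n : ℕ} (hx : (x - 1) ^ n = 0) : x ^ 2 ^ n = 1 := by
  have h := add_pow_two_pow h2 (x - 1) 1 n
  rwa [sub_add_cancel, pow_eq_zero_of_le (Nat.lt_two_pow_self).le hx, zero_add, one_pow] at h

end Scalars

section Mat

variable {A : Type} [CommRing A]

theorem trace_commutator (x u : Mat2 A) :
    (x * u * x.adjugate * u.adjugate).trace = x.trace ^ 2 * u.det + u.trace ^ 2 * x.det +
      (x * u).trace ^ 2 - x.trace * u.trace * (x * u).trace - 2 * x.det * u.det := by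
  simp only [adjugate_fin_two, trace_fin_two, det_fin_two, mul_apply, Fin.sum_univ_two]
  simp
  ring

theorem mul_mul_self_of_det_zero (P X : Mat2 A) (hP : P.det = 0) :
    P * X * P = (P * X).trace • P := by
  rw [det_fin_two] at hP
  ext i j
  fin_cases i <;> fin_cases j <;>
    simp [trace_fin_two, mul_apply, Fin.sum_univ_two] <;> ring_nf
  · linear_combination (-X 1 1) * hP
  · linear_combination X 0 1 * hP
  · linear_combination X 1 0 * hP
  · linear_combination (-X 0 0) * hP

theorem adjugate_eq (M : Mat2 A) : M.adjugate = M.trace • (1 : Mat2 A) - M := by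
  ext i j
  fin_cases i <;> fin_cases j <;> simp [adjugate_fin_two, trace_fin_two]

/-- The value of a group element of determinant one at the inverse. -/
theorem map_inv_eq_adjugate {H : Type*} [Group H] (r : H →* Mat2 A) (σ : H)
    (hd : (r σ).det = 1) : r σ⁻¹ = (r σ).adjugate := by
  have h1 : r σ * (r σ).adjugate = 1 := by rw [mul_adjugate, hd, one_smul]
  calc r σ⁻¹ = r σ⁻¹ * (r σ * (r σ).adjugate) := by rw [h1, mul_one]
    _ = (r σ).adjugate := by rw [← mul_assoc, ← map_mul, inv_mul_cancel, map_one, one_mul]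

variable (h2 : (2 : A) = 0)
include h2

theorem mul_self_of_det {M : Mat2 A} (hd : M.det = 1) : M * M = M.trace • M + 1 := by
  rw [Mat2.mul_self_eq, hd, one_smul, sub_eq_add_neg]
  congr 1
  ext i j
  simp [neg_self h2]

theorem mul_self_eq_one {M : Mat2 A} (hd : M.det = 1) (ht : M.trace = 0) : M * M = 1 := by
  rw [mul_self_of_det h2 hd, ht, zero_smul, zero_add]

theorem trace_eq_zero_of_mul_self {M : Mat2 A} (hd : M.det = 1) (h : M * M = 1) :
    M.trace = 0 := by
  rw [mul_self_of_det h2 hd, add_eq_right] at h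
  have e : ∀ i j, M.trace * M i j = 0 := fun i j => congrFun (congrFun h i) j
  rw [← mul_one M.trace, ← hd, det_fin_two]
  linear_combination M 1 1 * e 0 0 - M 1 0 * e 0 1

variable {P : Mat2 A} (hPP : P * P = P) (hPt : P.trace = 1) (hPd : P.det = 0)
include hPP hPt hPd

/-- A matrix commuting with the projection acts on its line by `tr (R P)`. -/
theorem mul_proj {R : Mat2 A} (hR : R * P = P * R) : R * P = (R * P).trace • P := by
  have : R * P = P * R * P := by rw [← hR, mul_assoc, hPP]
  rw [this, mul_mul_self_of_det_zero P R hPd, Matrix.trace_smul, hPt, smul_eq_mul, mul_one]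

theorem trace_mul_proj {R S : Mat2 A} (hR : R * P = P * R) (hS : S * P = P * S) :
    (R * S * P).trace = (R * P).trace * (S * P).trace := by
  rw [mul_assoc]
  conv_lhs => rw [mul_proj h2 hPP hPt hPd hS]
  rw [Matrix.mul_smul, Matrix.trace_smul, smul_eq_mul, mul_comm]

theorem trace_proj_add_adjugate (R : Mat2 A) :
    (R * P).trace + (R.adjugate * P).trace = R.trace := by
  rw [adjugate_eq, sub_mul, Matrix.trace_sub, smul_mul_assoc, one_mul, Matrix.trace_smul, hPt,
    smul_eq_mul, mul_one, add_sub_cancel]

theorem trace_conj_proj {C : Mat2 A} (hC : C * P * C = 1 + P) (R : Mat2 A) :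
    (C * R * C * P).trace = (R.adjugate * P).trace := by
  have hs := trace_proj_add_adjugate h2 hPP hPt hPd R
  rw [mul_assoc (C * R), mul_assoc C, Matrix.trace_mul_comm, mul_assoc R, hC, mul_add, mul_one,
    Matrix.trace_add]
  linear_combination -hs + (R * P).trace * h2

/-- An element killing the moved line acts by the given scalar. -/
theorem trace_proj_eq_of_kill {C R : Mat2 A} (hCC : C * C = 1) (hC : C * P * C = 1 + P)
    (hR : R * P = P * R) {u : A} (h : (R - u • 1) * (C - 1) = 0) : (R * P).trace = u := by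
  set a := (R * P).trace with ha
  have h1 : P * (R - u • 1) = (a - u) • P := by
    rw [mul_sub, ← hR, mul_proj h2 hPP hPt hPd hR, ← ha, Matrix.mul_smul, mul_one, sub_smul]
  have hPC : P * C = C + C * P := by
    calc P * C = C * (C * P * C) := by rw [← mul_assoc, ← mul_assoc, hCC, one_mul]
      _ = C + C * P := by rw [hC, mul_add, mul_one]
  have hPCP : P * C * P = 0 := by
    rw [hPC, add_mul, mul_assoc, hPP]
    ext i j
    simp [add_self h2]
  have h3 : P * ((R - u • 1) * (C - 1)) * P = 0 := by rw [h, mul_zero, zero_mul]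
  rw [← mul_assoc, h1, smul_mul_assoc, smul_mul_assoc, mul_sub, sub_mul, hPCP, mul_one, hPP,
    zero_sub, smul_neg] at h3
  have h4 := congrArg Matrix.trace h3
  rw [Matrix.trace_neg, Matrix.trace_smul, hPt, smul_eq_mul, mul_one, Matrix.trace_zero] at h4
  linear_combination -h4

end Mat

section Proj

variable {A : Type} [CommRing A]

/-- The projection attached to a root `z` of `X² + t X + 1`. -/
theorem exists_proj (h2 : (2 : A) = 0) {M : Mat2 A} (hd : M.det = 1) {w z : A}
    (hw : M.trace * w = 1) (hz : z ^ 2 + M.trace * z + 1 = 0) :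
    ∃ P : Mat2 A, P * P = P ∧ P.trace = 1 ∧ P.det = 0 ∧ (M * P).trace = z ∧
      (∀ R : Mat2 A, R * M = M * R → R * P = P * R) ∧
      ∀ C : Mat2 A, C * C = 1 → C * M * C = M.adjugate → C * P * C = 1 + P := by
  have hd' := hd
  rw [det_fin_two] at hd'
  have ht : M 0 0 + M 1 1 = M.trace := (trace_fin_two M).symm
  refine ⟨w • (M + (z + M.trace) • 1), ?_, ?_, ?_, ?_, ?_, ?_⟩
  · rw [Matrix.smul_mul, Matrix.mul_smul, add_mul, mul_add, mul_add, mul_self_of_det h2 hd]
    ext i j
    simp [Matrix.one_apply]
    split_ifs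
    · linear_combination (w * M i j + w * (z + M.trace)) * hw + w ^ 2 * hz +
        (w ^ 2 * M i j * (z + M.trace) - w ^ 2 * M.trace * M i j * 0) * h2
    · linear_combination (w * M i j) * hw + (w ^ 2 * M i j * (z + M.trace)) * h2
  · simp [trace_fin_two]
    linear_combination hw + w * ht + (w * (z + M.trace) + w * M 0 0 + w * M 1 1 - w * M.trace) * h2
  · simp [det_fin_two]
    linear_combination w ^ 2 * hd' + w ^ 2 * (z + M.trace) * ht + w ^ 2 * hz +
      (w ^ 2 * M.trace * (M.trace + z)) * h2
  · rw [Matrix.mul_smul, mul_add, mul_self_of_det h2 hd, Matrix.mul_smul, mul_one]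
    simp [trace_fin_two]
    linear_combination z * hw + (w * (2 * M.trace + z)) * ht + (w * M.trace ^ 2 + w + w * (2 * M 0 0 * M 1 1 - M 0 0 * M.trace + M 0 0 ^ 2 - M 1 1 * M.trace + M 1 1 ^ 2)) * h2
  · intro R hR
    simp only [Matrix.mul_smul, Matrix.smul_mul, mul_add, add_mul, mul_one, one_mul, hR]
  · intro C hCC hC
    simp only [Matrix.mul_smul, Matrix.smul_mul, mul_add, add_mul, mul_one, hC, hCC,
      adjugate_eq M]
    ext i j
    simp [Matrix.one_apply]
    split_ifs
    · linear_combination hw + (-w * M i j) * h2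
    · linear_combination (-w * M i j) * h2

end Proj

section GroupAlgebra

variable {F G : Type} [Field F] [CommGroup G] {k : ℕ}

variable (F G) in
/-- The augmentation. -/
def aug : MonoidAlgebra F G →ₐ[F] F := MonoidAlgebra.lift F F G 1

theorem aug_of (g : G) : aug F G (MonoidAlgebra.of F G g) = 1 := by simp [aug]

theorem aug_algebraMap (a : F) : aug F G (algebraMap F _ a) = a := (aug F G).commutes a

variable (h2 : (2 : F) = 0) (hG : ∀ g : G, g ^ 2 ^ k = 1)
include h2 hG

theorem pow_two_pow_eq_aug (x : MonoidAlgebra F G) :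
    x ^ 2 ^ k = algebraMap F _ (aug F G x ^ 2 ^ k) := by
  have h2' : (2 : MonoidAlgebra F G) = 0 := by
    rw [← map_ofNat (algebraMap F (MonoidAlgebra F G)) 2, h2, map_zero]
  induction x using MonoidAlgebra.induction_on with
  | of g => rw [aug_of, one_pow, map_one, ← map_pow, hG, map_one]
  | add x y hx hy =>
    rw [add_pow_two_pow h2', hx, hy, map_add, add_pow_two_pow h2, map_add]
  | smul a x hx => rw [smul_pow, hx, map_smul, smul_eq_mul, mul_pow, map_mul, Algebra.smul_def]

theorem isUnit_iff_aug (x : MonoidAlgebra F G) : IsUnit x ↔ aug F G x ≠ 0 := by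
  refine ⟨fun h => (h.map (aug F G)).ne_zero, fun h => ?_⟩
  refine (isUnit_pow_iff (Nat.two_pow_pos k).ne').1 ?_
  rw [pow_two_pow_eq_aug h2 hG]
  exact (isUnit_iff_ne_zero.2 (pow_ne_zero _ h)).map _

theorem isLocalRing_groupAlgebra : IsLocalRing (MonoidAlgebra F G) := by
  have : Nontrivial (MonoidAlgebra F G) := (aug F G).toRingHom.domain_nontrivial
  refine IsLocalRing.of_nonunits_add fun a b ha hb => ?_
  simp only [mem_nonunits_iff, isUnit_iff_aug h2 hG, not_not] at ha hb ⊢
  rw [map_add, ha, hb, add_zero]

theorem isNilpotent_iff_aug (x : MonoidAlgebra F G) : IsNilpotent x ↔ aug F G x = 0 :=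
  ⟨fun h => (h.map (aug F G)).eq_zero, fun h => ⟨2 ^ k, by
    rw [pow_two_pow_eq_aug h2 hG, h, zero_pow (Nat.two_pow_pos k).ne', map_zero]⟩⟩

end GroupAlgebra

section Four

open Polynomial

/-- `X² + X + 1` over the field with two elements. -/
def fourPoly : (ZMod 2)[X] := X ^ 2 + X + 1

theorem fourPoly_monic : fourPoly.Monic := by unfold fourPoly; monicity!

theorem irreducible_fourPoly : Irreducible fourPoly := by
  refine (irreducible_iff_roots_eq_zero_of_degree_le_three (p := fourPoly) ?_ ?_).2 ?_
  · rw [show fourPoly.natDegree = 2 by unfold fourPoly; compute_degree!]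
  · rw [show fourPoly.natDegree = 2 by unfold fourPoly; compute_degree!]; norm_num
  · refine Multiset.eq_zero_of_forall_notMem fun a ha => ?_
    rw [mem_roots fourPoly_monic.ne_zero] at ha
    revert ha
    simp only [fourPoly, IsRoot.def, eval_add, eval_pow, eval_X, eval_one]
    revert a
    decide

instance fact_irreducible_fourPoly : Fact (Irreducible fourPoly) := ⟨irreducible_fourPoly⟩

/-- The field with four elements. -/
abbrev Four : Type := AdjoinRoot fourPoly

/-- A primitive cube root of unity. -/
def omega : Four := AdjoinRoot.root fourPoly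

theorem omega_eq : omega ^ 2 + omega + 1 = 0 := by
  have h := AdjoinRoot.eval₂_root fourPoly
  simp only [fourPoly, Polynomial.eval₂_add, Polynomial.eval₂_X_pow, Polynomial.eval₂_X,
    Polynomial.eval₂_one] at h
  exact h

theorem two_four : (2 : Four) = 0 := by
  rw [← map_ofNat (AdjoinRoot.of fourPoly) 2, show (2 : ZMod 2) = 0 from by decide, map_zero]

theorem omega_cube : omega ^ 3 = 1 := by linear_combination (omega - 1) * omega_eq

theorem omega_ne_one : omega ≠ 1 := fun h => by
  have := omega_eq
  rw [h] at this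
  exact one_ne_zero (show (1 : Four) = 0 by linear_combination this - two_four)

instance finite_four : Finite Four :=
  haveI : Module.Finite (ZMod 2) Four := (AdjoinRoot.powerBasis' fourPoly_monic).finite
  Module.finite_of_finite (ZMod 2)

/-- The map to a ring of characteristic two with a root of `X² + X + 1`. -/
def fourLift {B : Type} [CommRing B] (h2 : (2 : B) = 0) (b : B) (hb : b ^ 2 + b + 1 = 0) :
    Four →+* B :=
  AdjoinRoot.lift (ZMod.castHom (ringChar.dvd (by exact_mod_cast h2)) B) b
    (by simp [fourPoly, hb])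

theorem fourLift_omega {B : Type} [CommRing B] (h2 : (2 : B) = 0) (b : B)
    (hb : b ^ 2 + b + 1 = 0) : fourLift h2 b hb omega = b := by
  simp [fourLift, omega]

/-- In the field with four elements the roots of `X² + X + 1` are `ω` and `ω²`. -/
theorem eq_omega_or (x : Four) (hx : x ^ 2 + x + 1 = 0) : x = omega ∨ x = omega ^ 2 := by
  have h : (x - omega) * (x - omega ^ 2) = 0 := by
    linear_combination hx + omega_cube - x * omega_eq
  rcases mul_eq_zero.1 h with h | h
  · exact Or.inl (sub_eq_zero.1 h)
  · exact Or.inr (sub_eq_zero.1 h)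

end Four

end FLTAgent.Mod2.Char2
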