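import Fermat.Agent.Mod2.Dihedral.QuadField
import Fermat.Agent.Mod2.CubicClass
import Fermat.Agent.EllP.Unramified

/-!
# The unramified cyclic cubic extension cut out by `ρ̄` and its class character

`splitField D` is the field cut out by `ρ̄`, of degree three over `field D = ℚ(√(-2m))` and
without inertia over it (`noInertia`). By `CubicClass` some nontrivial cubic class character of
`field D` is trivial on the classes of the primes that split completely in it (`exists_cubic`).
-/

set_option autoImplicit false
set_option linter.style.haveILetI false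

noncomputable section

open NumberField Module IntermediateField
open scoped Pointwise nonZeroDivisors

namespace FLTAgent.Mod2.Dih

local notation "ℚ̄" => AlgebraicClosure ℚ

attribute [local instance] GalCommon.normal_Qbar GalCommon.isGalois_Qbar

variable (D : Setup)

theorem isOpen_ker_rho : IsOpen (D.rho.ker : Set Gal2) := by
  obtain ⟨L, hL, h⟩ := D.cont
  exact Subgroup.isOpen_mono (fun σ hσ => MonoidHom.mem_ker.2
    (h σ fun x hx => (IntermediateField.mem_fixingSubgroup_iff L σ).1 hσ x hx)) L.fixingSubgroup_isOpen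

/-- The kernel of `ρ̄` as a closed subgroup. -/
def kerClosed : ClosedSubgroup Gal2 :=
  { toSubgroup := D.rho.ker
    isClosed' := Subgroup.isClosed_of_isOpen _ (isOpen_ker_rho D) }

/-- The field cut out by `ρ̄`. -/
def splitField : IntermediateField ℚ ℚ̄ := fixedField (kerClosed D).toSubgroup

theorem fixingSubgroup_splitField : (splitField D).fixingSubgroup = D.rho.ker :=
  InfiniteGalois.fixingSubgroup_fixedField (kerClosed D)

theorem fixes_splitField_iff {σ : Gal2} :
    (∀ x ∈ splitField D, σ x = x) ↔ D.rho σ = 1 := by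
  rw [← MonoidHom.mem_ker, ← fixingSubgroup_splitField, IntermediateField.mem_fixingSubgroup_iff]

theorem field_le_splitField : field D ≤ splitField D := by
  intro x hx g
  exact fixes_field D (by rw [Setup.InK, MonoidHom.mem_ker.1 g.2, one_pow]) hx

instance finite_splitField : FiniteDimensional ℚ (splitField D) := by
  rw [← InfiniteGalois.isOpen_iff_finite, fixingSubgroup_splitField]
  exact isOpen_ker_rho D

instance galois_splitField : IsGalois ℚ (splitField D) :=
  (InfiniteGalois.normal_iff_isGalois _).1
    ((fixingSubgroup_splitField D).symm ▸ MonoidHom.normal_ker _)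

instance numberField_splitField : NumberField (splitField D) := ⟨⟩

instance algebraSplit : Algebra (field D) (splitField D) :=
  (inclusion (field_le_splitField D)).toAlgebra

instance towerSplit : IsScalarTower ℚ (field D) (splitField D) :=
  IsScalarTower.of_algebraMap_eq fun _ => rfl

instance galoisSplit : IsGalois (field D) (splitField D) :=
  IsGalois.tower_top_of_isGalois ℚ (field D) (splitField D)

instance finiteSplit : FiniteDimensional (field D) (splitField D) :=
  FiniteDimensional.right ℚ (field D) (splitField D)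

theorem card_det_one : (Finset.univ.filter fun M : Mat2 (ZMod 2) => M.det = 1).card = 6 := by
  decide

theorem finrank_splitField : finrank ℚ (splitField D) = 6 := by
  rw [← IsGalois.card_aut_eq_finrank]
  let ρu : Gal2 →* (Mat2 (ZMod 2))ˣ := D.rho.toHomUnits
  have hker : ρu.ker = (AlgEquiv.restrictNormalHom (F := ℚ) (K₁ := ℚ̄) (splitField D)).ker := by
    refine Eq.trans ?_ (@IntermediateField.restrictNormalHom_ker _ _ _ _ _ (splitField D)
      (galois_splitField D).to_normal).symm
    rw [fixingSubgroup_splitField]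
    ext σ
    simp [ρu, MonoidHom.mem_ker]
  have h1 : Nat.card (splitField D ≃ₐ[ℚ] splitField D) =
      (AlgEquiv.restrictNormalHom (F := ℚ) (K₁ := ℚ̄) (splitField D)).ker.index := by
    rw [Subgroup.index_ker, MonoidHom.range_eq_top.2 (AlgEquiv.restrictNormalHom_surjective ℚ̄),
      Subgroup.card_top]
  have h2 : Function.Surjective ρu := fun M => by
    obtain ⟨σ, hσ⟩ := D.surj M ((Matrix.isUnit_iff_isUnit_det _).1 M.isUnit).ne_zero
    exact ⟨σ, Units.ext hσ⟩
  rw [h1, ← hker, Subgroup.index_ker, MonoidHom.range_eq_top.2 h2, Subgroup.card_top,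
    ← card_det_one, ← Fintype.card_subtype, ← Nat.card_eq_fintype_card]
  refine Nat.card_eq_of_bijective (fun M => ⟨M, ?_⟩) ⟨fun M N h => Units.ext ?_, fun M => ?_⟩
  · exact (eq_one_or_of_zmod_two _).resolve_left
      ((Matrix.isUnit_iff_isUnit_det _).1 M.isUnit).ne_zero
  · exact congrArg Subtype.val h
  · exact ⟨((Matrix.isUnit_iff_isUnit_det _).2 (by rw [M.2]; exact isUnit_one)).unit, rfl⟩

theorem card_gal_split : Nat.card (splitField D ≃ₐ[field D] splitField D) = 3 := by
  rw [IsGalois.card_aut_eq_finrank]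
  have := Module.finrank_mul_finrank ℚ (field D) (splitField D)
  rw [finrank_field, finrank_splitField] at this
  omega

theorem mem_placePrime_iff_centre (L : IntermediateField ℚ ℚ̄) (A : ValuationSubring ℚ̄) :
    (EllP.centre A).under (𝓞 L) = Density.placePrime L A := by
  ext y
  rw [Density.mem_placePrime_iff, Ideal.under_def, Ideal.mem_comap, EllP.mem_centre]
  rfl

theorem exists_place_split {Q : Ideal (𝓞 (splitField D))} (hQ : Q.IsMaximal) :
    ∃ l : ℕ, l.Prime ∧ ∃ A : ValuationSubring ℚ̄, A.LiesOverPrime l ∧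
      Density.placePrime (splitField D) A = Q := by
  haveI := hQ
  haveI : (Q.under ℤ).IsMaximal := Ideal.IsMaximal.under ℤ Q
  obtain ⟨l, hl, hQl⟩ : ∃ l : ℕ, l.Prime ∧ Q.under ℤ = Ideal.span {(l : ℤ)} := by
    obtain ⟨z, hz⟩ := (inferInstance : (Q.under ℤ).IsPrincipal).principal
    have hz0 : z ≠ 0 := fun h => Ideal.IsMaximal.ne_bot_of_isIntegral_int (Q.under ℤ) (by
      rw [hz, h]; simp)
    have hp : Prime z := (Ideal.span_singleton_prime hz0).1 (by rw [← Ideal.submodule_span_eq, ← hz]; infer_instance)
    exact ⟨z.natAbs, Int.prime_iff_natAbs_prime.1 hp, by rw [hz, Int.span_natAbs]⟩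
  obtain ⟨A, hA⟩ := GalCommon.exists_liesOverPrime (ℓ := l) hl
  haveI := Density.placePrime_isMaximal (splitField D) hl hA
  haveI : (Q.under ℤ).IsMaximal := Ideal.IsMaximal.under ℤ Q
  haveI : (Density.placePrime (splitField D) A).LiesOver (Q.under ℤ) := by
    refine ⟨((inferInstance : (Q.under ℤ).IsMaximal).eq_of_le ?_ ?_)⟩
    · exact (Ideal.IsMaximal.under ℤ (Density.placePrime (splitField D) A)).ne_top
    · rw [hQl, Ideal.span_singleton_le_iff_mem, Ideal.under_def, Ideal.mem_comap, map_natCast]
      exact Density.natCast_mem_placePrime hA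
  haveI : IsGaloisGroup (splitField D ≃ₐ[ℚ] splitField D) ℤ (𝓞 (splitField D)) :=
    .of_isFractionRing _ _ _ ℚ (splitField D)
  obtain ⟨g, hg⟩ := Ideal.exists_smul_eq_of_isGaloisGroup (Q.under ℤ)
    (Density.placePrime (splitField D) A) Q (splitField D ≃ₐ[ℚ] splitField D)
  obtain ⟨x, rfl⟩ := AlgEquiv.restrictNormalHom_surjective ℚ̄ g
  refine ⟨l, hl, x • A, GalCommon.liesOverPrime_smul hA, ?_⟩
  rw [← hg]
  ext y
  rw [Density.mem_placePrime_iff, Ideal.mem_pointwise_smul_iff_inv_smul_mem,
    Density.mem_placePrime_iff, ← map_inv, Density.coe_restrictNormalHom_smul]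
  constructor
  · intro h
    rw [← GalCommon.map_mem_nonunits_iff (σ := x), ← AlgEquiv.mul_apply, mul_inv_cancel,
      AlgEquiv.one_apply]
    exact h
  · intro h
    have := GalCommon.map_mem_nonunits_iff (σ := x).2 h
    rwa [← AlgEquiv.mul_apply, mul_inv_cancel, AlgEquiv.one_apply] at this

theorem noInertia : CubicClass.NoInertia (field D) (splitField D) := by
  intro Q hQ τ hτ
  obtain ⟨l, hl, A, hA, rfl⟩ := exists_place_split D hQ
  have hτ' : τ.restrictScalars ℚ ∈ ((EllP.centre A).under (𝓞 (splitField D))).inertia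
      (splitField D ≃ₐ[ℚ] splitField D) := by
    rw [mem_placePrime_iff_centre]
    exact fun x => hτ x
  obtain ⟨σ, hσI, hσ⟩ := EllP.inertia_under_le_map (splitField D) hl hA
    (A.inertiaSubgroupIn ℚ) le_rfl hτ'
  have hσx : ∀ x : splitField D, σ (x : ℚ̄) = ((τ x : splitField D) : ℚ̄) := fun x => by
    have := congrArg Subtype.val (DFunLike.congr_fun hσ x)
    rw [← AlgEquiv.restrictScalars_apply ℚ τ x, ← this]
    exact (AlgEquiv.restrictNormal_commutes σ (splitField D) x).symm
  have hK : D.InK σ := by
    rw [inK_iff]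
    have := hσx (inclusion (field_le_splitField D) ⟨root D, root_mem D⟩)
    rwa [show inclusion (field_le_splitField D) ⟨root D, root_mem D⟩ =
      algebraMap (field D) (splitField D) ⟨root D, root_mem D⟩ from rfl, AlgEquiv.commutes] at this
  have h1 : D.rho σ = 1 := by
    by_cases hl2 : l ∣ 2 * D.m
    · exact mat_eq_one _ hK ((D.ram l hl hl2 A hA).1 σ hσI)
    · exact D.unram l hl hl2 A hA σ hσI
  refine AlgEquiv.ext fun x => Subtype.ext ?_
  rw [← hσx x, AlgEquiv.one_apply]
  exact (fixes_splitField_iff D).2 h1 x x.2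

theorem unit_field (u : (𝓞 (field D))ˣ) :
    (u : 𝓞 (field D)) = 1 ∨ (u : 𝓞 (field D)) = -1 :=
  unit_eq_one_or_neg_one (finrank_field D) (discr_neg D) (two_dvd_discr D) (discr_ne D) u

theorem rank_splitField : Units.rank (splitField D) ≠ 0 := by
  have h := InfinitePlace.card_add_two_mul_card_eq_rank (splitField D)
  rw [finrank_splitField] at h
  rw [Units.rank, InfinitePlace.card_eq_nrRealPlaces_add_nrComplexPlaces]
  omega

/-- A cubic class character of the quadratic field killing the split primes of `L`. -/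
theorem exists_cubic :
    ∃ ψ : ClassGroup (𝓞 (field D)) →* ℂˣ, ψ ^ 3 = 1 ∧ ψ ≠ 1 ∧
      ∀ (l : ℕ) (A : ValuationSubring ℚ̄), l.Prime → ¬ l ∣ 2 * D.m → A.LiesOverPrime l →
        ∀ φ : Gal2, A.IsFrobeniusAt φ l → D.rho φ = 1 → ψ (classOf D A) = 1 := by
  obtain ⟨ψ, h3, h1, hker⟩ := CubicClass.exists_character (card_gal_split D) (noInertia D)
    (fun u => (CommGroup.mem_torsion _).2 (isOfFinOrder_iff_pow_eq_one.2 ⟨2, two_pos, Units.ext (by
      rcases unit_field D u with h | h <;> simp [h])⟩))
    (fun u hu => Units.ext (by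
      rcases unit_field D u with h | h
      · exact h
      · have := congrArg (fun w : (𝓞 (field D))ˣ => (w : 𝓞 (field D))) hu
        simp only [Units.val_pow_eq_pow_val, h, Units.val_one] at this ⊢
        norm_num at this))
    (rank_splitField D)
  refine ⟨ψ, h3, h1, fun l A hl hl2 hA φ hφ hrho => ?_⟩
  have hK : D.InK φ := by rw [Setup.InK, hrho, one_pow]
  have hP := primeOf_isMaximal (D := D) hl hA
  have hPn := absNorm_of_inK hl hA hφ hK
  set Q := Density.placePrime (splitField D) A with hQdef
  haveI hQ := Density.placePrime_isMaximal (splitField D) hl hA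
  have hcomap : Q.comap (algebraMap (𝓞 (field D)) (𝓞 (splitField D))) = primeOf D A := by
    ext y
    rw [Ideal.mem_comap, hQdef, Density.mem_placePrime_iff, mem_primeOf]
    rfl
  have hQ0 : Q ≠ ⊥ := fun h => hl.ne_zero (by
    have := Density.natCast_mem_placePrime (L := splitField D) hA
    rw [← hQdef, h, Ideal.mem_bot] at this
    exact_mod_cast this)
  have hQn : Ideal.absNorm Q = l := by
    haveI : Finite (𝓞 (splitField D) ⧸ Q) := Ring.HasFiniteQuotients.finiteQuotient hQ0
    letI := Fintype.ofFinite (𝓞 (splitField D) ⧸ Q)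
    letI := Ideal.Quotient.field Q
    haveI : Fact l.Prime := ⟨hl⟩
    haveI : CharP (𝓞 (splitField D) ⧸ Q) l := by
      refine (CharP.charP_iff_prime_eq_zero hl).2 ?_
      rw [← map_natCast (Ideal.Quotient.mk Q), Ideal.Quotient.eq_zero_iff_mem]
      exact Density.natCast_mem_placePrime hA
    have key : ∀ z : 𝓞 (splitField D) ⧸ Q, z ^ l = z := by
      intro z
      obtain ⟨y, rfl⟩ := Ideal.Quotient.mk_surjective z
      rw [← map_pow, eq_comm, Ideal.Quotient.eq, hQdef, Density.mem_placePrime_iff]
      have := (GalCommon.isFrobeniusAt_iff.1 hφ).2 _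
        (GalCommon.mem_of_isIntegral A (Density.isIntegral_coe (splitField D) y))
      rw [(fixes_splitField_iff D).2 hrho _ (SetLike.coe_mem _)] at this
      simpa using this
    obtain ⟨n, -, hn⟩ := FiniteField.card (𝓞 (splitField D) ⧸ Q) l
    classical
    open Polynomial in
    have hle := Finset.card_le_card (s := Finset.univ)
      (t := (X ^ l - X : (𝓞 (splitField D) ⧸ Q)[X]).roots.toFinset) (fun z _ => by
        rw [Multiset.mem_toFinset, mem_roots (FiniteField.X_pow_card_sub_X_ne_zero _ hl.one_lt)]
        simp [key z])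
    rw [Finset.card_univ, hn] at hle
    have h2 := (hle.trans (Multiset.toFinset_card_le _)).trans
      ((Polynomial.card_roots' _).trans (FiniteField.X_pow_card_sub_X_natDegree_eq _ hl.one_lt).le)
    have : (n : ℕ) = 1 := by
      by_contra hne
      have h3 : 2 ≤ (n : ℕ) := by have := n.pos; omega
      have := Nat.pow_lt_pow_right hl.one_lt h3
      have := pow_one l ▸ this
      nlinarith
    show Nat.card (𝓞 (splitField D) ⧸ Q) = l
    rw [Nat.card_eq_fintype_card, hn, this, pow_one]
  have hrel : Ideal.relNorm (𝓞 (field D)) Q = primeOf D A := by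
    have hn : Ideal.absNorm (Ideal.relNorm (𝓞 (field D)) Q) = l := by
      rw [Ideal.absNorm_relNorm, hQn]
    have hmax := (Ideal.isPrime_of_irreducible_absNorm (hn ▸ hl)).isMaximal
      (ne_bot_of_absNorm hn hl.ne_zero)
    exact hmax.eq_of_le hP.ne_top ((Ideal.relNorm_le_comap _ Q).trans hcomap.le)
  have := hker ⟨Q, mem_nonZeroDivisors_of_ne_zero hQ0⟩
    ⟨primeOf D A, mem_nonZeroDivisors_of_ne_zero (ne_bot_of_absNorm hPn hl.ne_zero)⟩ hrel
  rwa [classOf, ← idealClass_mk0 ⟨primeOf D A, _⟩] at *

end FLTAgent.Mod2.Dih
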