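import Fermat.Agent.Mod2.Dihedral.Universal

/-!
# Genus theory without class field theory

Every everywhere unramified anti-invariant character of `2`-power order of `G_K` factors through
the map `π : G_K → Cl₂` of the universal dihedral system: the quadratic ones are counted from above
by Minkowski and from below by the ramified classes.

Main declarations: `genus`, `exists_lift`.
-/

set_option autoImplicit false
set_option linter.style.haveILetI false
set_option linter.unusedSectionVars false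

noncomputable section

open NumberField Module
open scoped nonZeroDivisors Pointwise

namespace FLTAgent.Mod2.Dih

local notation "ℚ̄" => AlgebraicClosure ℚ

variable {D : Setup}

/-- Finite level, everywhere unramified and anti-invariant characters of `G_K`. -/
structure Good {M : Type} [CommGroup M] (χ : kgrp D →* M) : Prop where
  fin : ∃ L : IntermediateField ℚ ℚ̄, FiniteDimensional ℚ L ∧
    ∀ σ : kgrp D, (∀ x ∈ L, (σ : Gal2) x = x) → χ σ = 1
  unram : ∀ q : ℕ, q.Prime → ∀ A : ValuationSubring ℚ̄, A.LiesOverPrime q → ∀ σ : kgrp D,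
    (σ : Gal2) ∈ A.inertiaSubgroupIn ℚ → χ σ = 1
  anti : ∀ c : Gal2, ¬ D.InK c → ∀ σ τ : kgrp D, (τ : Gal2) = c * σ * c⁻¹ → χ τ = (χ σ)⁻¹

theorem Good.div {M : Type} [CommGroup M] {χ χ' : kgrp D →* M} (h : Good χ) (h' : Good χ') :
    Good (χ / χ') := by
  refine ⟨?_, fun q hq A hA σ hσ => ?_, fun c hc σ τ e => ?_⟩
  · obtain ⟨L, hL, hl⟩ := h.fin
    obtain ⟨L', hL', hl'⟩ := h'.fin
    refine ⟨L ⊔ L', inferInstance, fun σ hσ => ?_⟩
    rw [MonoidHom.div_apply, hl σ fun x hx => hσ x ((le_sup_left : L ≤ L ⊔ L') hx),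
      hl' σ fun x hx => hσ x ((le_sup_right : L' ≤ L ⊔ L') hx), div_one]
  · rw [MonoidHom.div_apply, h.unram q hq A hA σ hσ, h'.unram q hq A hA σ hσ, div_one]
  · rw [MonoidHom.div_apply, MonoidHom.div_apply, h.anti c hc σ τ e, h'.anti c hc σ τ e, inv_div,
      inv_div_inv]

theorem Good.comp {M M' : Type} [CommGroup M] [CommGroup M'] {χ : kgrp D →* M} (h : Good χ)
    (κ : M →* M') : Good (κ.comp χ) := by
  obtain ⟨L, hL, hl⟩ := h.fin
  exact ⟨⟨L, hL, fun σ hσ => by rw [MonoidHom.comp_apply, hl σ hσ, map_one]⟩,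
    fun q hq A hA σ hσ => by rw [MonoidHom.comp_apply, h.unram q hq A hA σ hσ, map_one],
    fun c hc σ τ e => by rw [MonoidHom.comp_apply, MonoidHom.comp_apply, h.anti c hc σ τ e,
      map_inv]⟩

section Quadratic

variable {M : Type} [CommGroup M] (χ : kgrp D →* M) (c₀ : {c : Gal2 // ¬ D.InK c})

open Classical in
/-- The extension of an invariant character of `G_K` sending `c₀` to one. -/
def extendFun (σ : Gal2) : M :=
  if h : D.InK σ then χ ⟨σ, h⟩ else χ ⟨σ * c₀.1, inK_mul_of_not D h c₀.2⟩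

theorem extendFun_inK {σ : Gal2} (h : D.InK σ) : extendFun χ c₀ σ = χ ⟨σ, h⟩ := dif_pos h

theorem extendFun_not {σ : Gal2} (h : ¬ D.InK σ) :
    extendFun χ c₀ σ = χ ⟨σ * c₀.1, inK_mul_of_not D h c₀.2⟩ := dif_neg h

theorem not_inK_mul {σ τ : Gal2} (hσ : D.InK σ) (hτ : ¬ D.InK τ) :
    ¬ D.InK (σ * τ) ∧ ¬ D.InK (τ * σ) := by
  refine ⟨fun h => hτ ?_, fun h => hτ ?_⟩
  · have := (kgrp D).mul_mem ((kgrp D).inv_mem hσ) h
    rwa [mem_kgrp, inv_mul_cancel_left] at this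
  · have := (kgrp D).mul_mem h ((kgrp D).inv_mem hσ)
    rwa [mem_kgrp, mul_inv_cancel_right] at this

theorem extendFun_mul (hanti : ∀ c : Gal2, ¬ D.InK c → ∀ σ τ : kgrp D,
      (τ : Gal2) = c * σ * c⁻¹ → χ τ = (χ σ)⁻¹) (hsq : ∀ σ, χ σ ^ 2 = 1)
    (hc2 : χ ⟨c₀.1 * c₀.1, inK_mul_of_not D c₀.2 c₀.2⟩ = 1) (σ τ : Gal2) :
    extendFun χ c₀ (σ * τ) = extendFun χ c₀ σ * extendFun χ c₀ τ := by
  have hinv : ∀ x : kgrp D, (χ x)⁻¹ = χ x := fun x =>
    inv_eq_of_mul_eq_one_right (by rw [← sq]; exact hsq x)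
  have hcK : ¬ D.InK c₀.1⁻¹ := fun h => c₀.2 (inv_inv c₀.1 ▸ (kgrp D).inv_mem h)
  by_cases hσ : D.InK σ <;> by_cases hτ : D.InK τ
  · rw [extendFun_inK χ c₀ hσ, extendFun_inK χ c₀ hτ,
      extendFun_inK χ c₀ ((kgrp D).mul_mem hσ hτ), ← map_mul]
    rfl
  · rw [extendFun_inK χ c₀ hσ, extendFun_not χ c₀ hτ,
      extendFun_not χ c₀ (not_inK_mul hσ hτ).1, ← map_mul]
    exact congrArg χ (Subtype.ext (mul_assoc _ _ _))
  · have e : χ ⟨c₀.1⁻¹ * τ * c₀.1⁻¹⁻¹, inK_conj D hτ _⟩ = χ ⟨τ, hτ⟩ := by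
      rw [hanti _ hcK ⟨τ, hτ⟩ _ rfl, hinv]
    rw [extendFun_not χ c₀ hσ, extendFun_inK χ c₀ hτ,
      extendFun_not χ c₀ (not_inK_mul hτ hσ).2, ← e, ← map_mul]
    refine congrArg χ (Subtype.ext ?_)
    show σ * τ * c₀.1 = σ * c₀.1 * (c₀.1⁻¹ * τ * c₀.1⁻¹⁻¹)
    rw [inv_inv]
    group
  · have hτc : D.InK (τ * c₀.1⁻¹) := inK_mul_of_not D hτ hcK
    have e : χ ⟨c₀.1⁻¹ * (τ * c₀.1⁻¹) * c₀.1⁻¹⁻¹, inK_conj D hτc _⟩ =
        χ ⟨τ * c₀.1, inK_mul_of_not D hτ c₀.2⟩ := by
      rw [hanti _ hcK ⟨τ * c₀.1⁻¹, hτc⟩ _ rfl, hinv, ← mul_one (χ ⟨τ * c₀.1⁻¹, hτc⟩), ← hc2,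
        ← map_mul]
      refine congrArg χ (Subtype.ext ?_)
      show τ * c₀.1⁻¹ * (c₀.1 * c₀.1) = τ * c₀.1
      group
    rw [extendFun_not χ c₀ hσ, extendFun_not χ c₀ hτ, extendFun_inK χ c₀ (inK_mul_of_not D hσ hτ),
      ← e, ← map_mul]
    refine congrArg χ (Subtype.ext ?_)
    show σ * τ = σ * c₀.1 * (c₀.1⁻¹ * (τ * c₀.1⁻¹) * c₀.1⁻¹⁻¹)
    group

end Quadratic

variable (D)

/-- A place above each prime. -/
def place (q : ℕ) : ValuationSubring ℚ̄ :=
  if h : q.Prime then (GalCommon.exists_liesOverPrime (ℓ := q) h).choose else ⊤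

theorem place_spec {q : ℕ} (hq : q.Prime) : (place q).LiesOverPrime q := by
  rw [place, dif_pos hq]
  exact (GalCommon.exists_liesOverPrime (ℓ := q) hq).choose_spec

/-- The chosen inertia element moving the field. -/
def tau {v : ℕ} (hv : v.Prime) (hvN : v ∣ 2 * D.m) : {c : Gal2 // ¬ D.InK c} :=
  ⟨(exists_inertia_not_inK D hv hvN (place_spec hv)).choose,
    (exists_inertia_not_inK D hv hvN (place_spec hv)).choose_spec.2⟩

theorem tau_mem {v : ℕ} (hv : v.Prime) (hvN : v ∣ 2 * D.m) :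
    (tau D hv hvN).1 ∈ (place v).inertiaSubgroupIn ℚ :=
  (exists_inertia_not_inK D hv hvN (place_spec hv)).choose_spec.1

/-- The element at two. -/
def cTwo : {c : Gal2 // ¬ D.InK c} := tau D Nat.prime_two (dvd_mul_right 2 D.m)

/-- The signs of a quadratic character at the odd primes of the level. -/
def signs {M : Type} [CommGroup M] (χ : kgrp D →* M) (v : D.m.primeFactors) : M :=
  χ ⟨(tau D (Nat.prime_of_mem_primeFactors v.2)
      (dvd_mul_of_dvd_right (Nat.dvd_of_mem_primeFactors v.2) 2)).1 * (cTwo D).1,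
    inK_mul_of_not D (tau D _ _).2 (cTwo D).2⟩

/-- An unramified invariant character with trivial signs is trivial. -/
theorem eq_one_of_signs {M : Type} [CommGroup M] {χ : kgrp D →* M} (hχ : Good χ)
    (hsq : ∀ σ, χ σ ^ 2 = 1) (hs : ∀ v, signs D χ v = 1) : χ = 1 := by
  have hc2 : χ ⟨(cTwo D).1 * (cTwo D).1, inK_mul_of_not D (cTwo D).2 (cTwo D).2⟩ = 1 :=
    hχ.unram 2 Nat.prime_two _ (place_spec Nat.prime_two) _
      (mul_mem (tau_mem D _ _) (tau_mem D _ _))
  let Λ : Gal2 →* M := MonoidHom.mk' (extendFun χ (cTwo D))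
    (extendFun_mul χ (cTwo D) hχ.anti hsq hc2)
  obtain ⟨L, hL, hl⟩ := hχ.fin
  have htop : Λ.ker = ⊤ := by
    refine EllP.eq_top_of_inertia_le Λ.ker (L ⊔ field D) (fun σ hσ => ?_) fun q hq A hA σ hσ => ?_
    · rw [IntermediateField.mem_fixingSubgroup_iff] at hσ
      have hK : D.InK σ := (inK_iff D σ).2 (hσ _ ((le_sup_right : field D ≤ _) (root_mem D)))
      rw [MonoidHom.mem_ker]
      show extendFun χ (cTwo D) σ = 1
      rw [extendFun_inK χ _ hK]
      exact hl ⟨σ, hK⟩ fun x hx => hσ x ((le_sup_left : L ≤ _) hx)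
    · by_cases hK : D.InK σ
      · rw [MonoidHom.mem_ker]
        show extendFun χ (cTwo D) σ = 1
        rw [extendFun_inK χ _ hK]
        exact hχ.unram q hq A hA ⟨σ, hK⟩ hσ
      have hqN : q ∣ 2 * D.m := by
        by_contra h
        refine hK ?_
        rw [Setup.InK, D.unram q hq h A hA σ hσ, one_pow]
      obtain ⟨x, hx⟩ := GalCommon.exists_smul_eq_of_liesOverPrime hq hA (place_spec hq)
      have hσ' : x * σ * x⁻¹ ∈ (place q).inertiaSubgroupIn ℚ := hx ▸ GalCommon.mem_inertia_conj hσ x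
      have hτ := tau_mem D hq hqN
      have hK' : ¬ D.InK (x * σ * x⁻¹) := fun h => hK (by
        have := inK_conj D h x⁻¹
        rwa [inv_inv, show x⁻¹ * (x * σ * x⁻¹) * x = σ by group] at this)
      have hKτ : D.InK (x * σ * x⁻¹ * (tau D hq hqN).1⁻¹) :=
        inK_mul_of_not D hK' fun h => (tau D hq hqN).2 (inv_inv (tau D hq hqN).1 ▸
          (kgrp D).inv_mem h)
      have h1 : Λ (x * σ * x⁻¹ * (tau D hq hqN).1⁻¹) = 1 := by
        show extendFun χ (cTwo D) _ = 1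
        rw [extendFun_inK χ _ hKτ]
        exact hχ.unram q hq _ (place_spec hq) _ (mul_mem hσ' (inv_mem hτ))
      have h2 : Λ (tau D hq hqN).1 = 1 := by
        show extendFun χ (cTwo D) _ = 1
        rw [extendFun_not χ _ (tau D hq hqN).2]
        rcases hq.eq_two_or_odd' with rfl | hodd
        · exact hc2
        · have hqm : q ∣ D.m := (hq.dvd_mul.1 hqN).resolve_left fun h =>
            absurd ((Nat.prime_dvd_prime_iff_eq hq Nat.prime_two).1 h) (by
              rintro rfl; exact absurd hodd (by decide))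
          exact hs ⟨q, Nat.mem_primeFactors.2 ⟨hq, hqm, D.odd_m.pos.ne'⟩⟩
      rw [map_mul, map_inv, h2, inv_one, mul_one, map_mul, map_mul, map_inv,
        mul_inv_cancel_comm] at h1
      exact MonoidHom.mem_ker.2 h1
  refine MonoidHom.ext fun σ => ?_
  have h : Λ (σ : Gal2) = 1 := MonoidHom.mem_ker.1 (htop ▸ Subgroup.mem_top _)
  rw [MonoidHom.one_apply, ← h]
  exact (extendFun_inK χ _ σ.2).symm

/-! ### The ramified classes -/

/-- The ideal product over a set of primes. -/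
def ideals (Δ : Finset ℕ) : Ideal (𝓞 (field D)) := ∏ v ∈ Δ, primeOf D (place v)

theorem ideals_spec {Δ : Finset ℕ} (hΔ : Δ ⊆ D.m.primeFactors) :
    ideals D Δ ≠ ⊥ ∧ ideals D Δ * ideals D Δ = Ideal.span {((∏ v ∈ Δ, v : ℕ) : 𝓞 (field D))} ∧
      idealClass (ideals D Δ) = ∏ v ∈ Δ, classOf D (place v) := by
  induction Δ using Finset.induction with
  | empty =>
    refine ⟨by simp [ideals], by simp [ideals, Ideal.one_eq_top], ?_⟩
    rw [ideals, Finset.prod_empty, Finset.prod_empty, Ideal.one_eq_top,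
      ← Ideal.span_singleton_one, idealClass_principal]
  | insert v Δ hv ih =>
    obtain ⟨h0, hsq, hcl⟩ := ih ((Finset.subset_insert v Δ).trans hΔ)
    have hvm := hΔ (Finset.mem_insert_self v Δ)
    have hvp := Nat.prime_of_mem_primeFactors hvm
    obtain ⟨hn, hP⟩ := exists_ramified (D := D) hvp (place_spec hvp)
      (dvd_mul_of_dvd_right (Nat.dvd_of_mem_primeFactors hvm) 2)
    have hP0 := ne_bot_of_absNorm hn hvp.ne_zero
    have e : ideals D (insert v Δ) = primeOf D (place v) * ideals D Δ := Finset.prod_insert hv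
    refine ⟨by rw [e]; exact mul_ne_zero hP0 h0, ?_, ?_⟩
    · rw [e, mul_mul_mul_comm, hsq, ← hP, Ideal.span_singleton_mul_span_singleton,
        Finset.prod_insert hv, Nat.cast_mul]
    · rw [e, idealClass_mul hP0 h0, hcl, Finset.prod_insert hv]
      rfl

theorem prod_classOf_ne_one {Δ : Finset ℕ} (hΔ : Δ ⊆ D.m.primeFactors) (hne : Δ.Nonempty) :
    ∏ v ∈ Δ, classOf D (place v) ≠ 1 := by
  intro h
  obtain ⟨h0, hsq, hcl⟩ := ideals_spec D hΔ
  rw [h, idealClass, dif_pos (mem_nonZeroDivisors_of_ne_zero h0), ClassGroup.mk0_eq_one_iff] at hcl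
  obtain ⟨x, hx⟩ := hcl.principal
  rw [Ideal.submodule_span_eq] at hx
  change ideals D Δ = Ideal.span {x} at hx
  rw [hx, Ideal.span_singleton_mul_span_singleton, Ideal.span_singleton_eq_span_singleton] at hsq
  obtain ⟨u, hu⟩ := hsq
  set d := ∏ v ∈ Δ, v with hd
  obtain ⟨a, b, hab⟩ := exists_int_coords D x
  obtain ⟨c, hc⟩ := exists_not_inK D
  obtain ⟨s, hs, hs'⟩ : ∃ s : ℤ, (s = 1 ∨ s = -1) ∧
      ((x : field D) : ℚ̄) * ((x : field D) : ℚ̄) = (s : ℚ̄) * d := by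
    rcases unit_field D u with e | e
    · refine ⟨1, Or.inl rfl, ?_⟩
      rw [e, mul_one] at hu
      rw [Int.cast_one, one_mul]
      simpa using congrArg (fun z : 𝓞 (field D) => ((z : field D) : ℚ̄)) hu
    · refine ⟨-1, Or.inr rfl, ?_⟩
      rw [e, mul_neg_one, neg_eq_iff_eq_neg] at hu
      rw [Int.cast_neg, Int.cast_one, neg_one_mul]
      simpa using congrArg (fun z : 𝓞 (field D) => ((z : field D) : ℚ̄)) hu
  rw [hab] at hs'
  have hs'' := congrArg c hs'
  simp only [map_mul, map_add, map_intCast, map_natCast, map_root_of_not D hc] at hs''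
  have hab0 : ((a * b : ℤ) : ℚ̄) * root D = 0 := by
    push_cast
    linear_combination (hs' - hs'') / 4
  rw [mul_eq_zero, or_iff_left (root_ne_zero D), Int.cast_eq_zero, mul_eq_zero] at hab0
  have hd0 : 0 < d := Finset.prod_pos fun v hv => (Nat.prime_of_mem_primeFactors (hΔ hv)).pos
  have hdm : d ∣ D.m := (Finset.prod_dvd_prod_of_subset _ _ _ hΔ).trans
    (dvd_of_eq (Nat.prod_primeFactors_of_squarefree D.sqf_m))
  have key : (a : ℤ) ^ 2 - 2 * D.m * b ^ 2 = s * d := by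
    have : ((a ^ 2 - 2 * D.m * b ^ 2 : ℤ) : ℚ̄) = ((s * d : ℤ) : ℚ̄) := by
      have h2 := root_sq D
      push_cast at h2 ⊢
      have e : (a : ℚ̄) * (b : ℚ̄) = 0 := by
        rcases hab0 with h | h <;> simp [h]
      linear_combination hs' - (b : ℚ̄) ^ 2 * h2 - 2 * root D * e
    exact_mod_cast this
  rcases hab0 with h | h
  · rw [h] at key
    have : 2 ∣ d := by
      have h2 : (2 : ℤ) ∣ s * d := ⟨-(D.m * b ^ 2), by linarith⟩
      rcases hs with rfl | rfl <;> omega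
    exact (Nat.not_even_iff_odd.2 D.odd_m) (even_iff_two_dvd.2 (this.trans hdm))
  · rw [h] at key
    obtain rfl : s = 1 := hs.resolve_right (by rintro rfl; nlinarith)
    have hsquare : a.natAbs * a.natAbs = d := by
      have : ((a.natAbs * a.natAbs : ℕ) : ℤ) = (d : ℤ) := by
        push_cast
        rw [abs_mul_abs_self]
        linarith
      exact_mod_cast this
    have h1 : a.natAbs = 1 := Nat.isUnit_iff.1
      (D.sqf_m a.natAbs ((dvd_of_eq hsquare).trans hdm))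
    rw [h1, one_mul] at hsquare
    obtain ⟨v, hv⟩ := hne
    have hvd : v ∣ d := Finset.dvd_prod_of_mem _ hv
    rw [← hsquare] at hvd
    exact (Nat.prime_of_mem_primeFactors (hΔ hv)).ne_one (Nat.dvd_one.1 hvd)

theorem prod_classOf_injective {Δ Δ' : Finset ℕ} (hΔ : Δ ⊆ D.m.primeFactors)
    (hΔ' : Δ' ⊆ D.m.primeFactors)
    (h : ∏ v ∈ Δ, classOf D (place v) = ∏ v ∈ Δ', classOf D (place v)) : Δ = Δ' := by
  classical
  have hsq : ∀ s : Finset ℕ, s ⊆ D.m.primeFactors →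
      (∏ v ∈ s, classOf D (place v)) * ∏ v ∈ s, classOf D (place v) = 1 := fun s hs => by
    rw [← Finset.prod_mul_distrib]
    exact Finset.prod_eq_one fun v hv => by
      rw [← sq]
      exact classOf_sq (Nat.prime_of_mem_primeFactors (hs hv))
        (place_spec (Nat.prime_of_mem_primeFactors (hs hv)))
        (dvd_mul_of_dvd_right (Nat.dvd_of_mem_primeFactors (hs hv)) 2)
  by_contra hne
  refine prod_classOf_ne_one D (Δ := (Δ ∪ Δ') \ (Δ ∩ Δ'))
    (Finset.sdiff_subset.trans (Finset.union_subset hΔ hΔ')) ?_ ?_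
  · rw [Finset.sdiff_nonempty]
    intro hsub
    exact hne (le_antisymm
      (fun v hv => (Finset.mem_inter.1 (hsub (Finset.mem_union_left _ hv))).2)
      (fun v hv => (Finset.mem_inter.1 (hsub (Finset.mem_union_right _ hv))).1))
  · have e1 := Finset.prod_sdiff (s₁ := Δ ∩ Δ') (s₂ := Δ ∪ Δ')
      (f := fun v => classOf D (place v))
      (Finset.inter_subset_left.trans Finset.subset_union_left)
    have e2 := Finset.prod_union_inter (s₁ := Δ) (s₂ := Δ') (f := fun v => classOf D (place v))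
    rw [← e1, h, hsq Δ' hΔ', mul_assoc, hsq _ (Finset.inter_subset_left.trans hΔ), mul_one] at e2
    exact e2

/-! ### The main theorem -/

variable {D} (U : Universal D)

/-- The image of `π`. -/
abbrev Img : Subgroup U.G := U.π.range

theorem good_π : Good U.π :=
  ⟨U.cont.imp fun _ h => ⟨h.1, fun σ hσ => (h.2 σ hσ).2⟩,
    fun q hq A hA σ hσ => (U.unram q hq A hA σ hσ).2, fun c hc σ τ e => (U.anti c hc σ τ e).2⟩

theorem good_comp_img {M : Type} [CommGroup M] (κ : Img U →* M) :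
    Good (κ.comp U.π.rangeRestrict) := by
  have h := good_π U
  obtain ⟨L, hL, hl⟩ := h.fin
  exact ⟨⟨L, hL, fun σ hσ => by
      rw [MonoidHom.comp_apply, show U.π.rangeRestrict σ = 1 from Subtype.ext (hl σ hσ), map_one]⟩,
    fun q hq A hA σ hσ => by
      rw [MonoidHom.comp_apply,
        show U.π.rangeRestrict σ = 1 from Subtype.ext (h.unram q hq A hA σ hσ), map_one],
    fun c hc σ τ e => by
      rw [MonoidHom.comp_apply, MonoidHom.comp_apply,
        show U.π.rangeRestrict τ = (U.π.rangeRestrict σ)⁻¹ from Subtype.ext (h.anti c hc σ τ e),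
        map_inv]⟩

/-- Frobenius elements of the ramified primes, in the image. -/
def piFrob (v : ℕ) : Img U :=
  open Classical in
  if h : v.Prime ∧ v ∣ 2 * D.m then
    U.π.rangeRestrict (exists_frobenius_inK D h.1 h.2 (place_spec h.1)).choose
  else 1

theorem piFrob_coe {v : ℕ} (hv : v.Prime) (hvN : v ∣ 2 * D.m) :
    (piFrob U v : U.G) = U.toG (classOf D (place v)) := by
  rw [piFrob, dif_pos ⟨hv, hvN⟩, MonoidHom.coe_rangeRestrict]
  exact (U.frob v hv hvN _ (place_spec hv) _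
    (exists_frobenius_inK D hv hvN (place_spec hv)).choose_spec).2

theorem piFrob_sq {v : ℕ} (hv : v.Prime) (hvN : v ∣ 2 * D.m) : piFrob U v ^ 2 = 1 :=
  Subtype.ext (by
    rw [SubmonoidClass.coe_pow, piFrob_coe U hv hvN, ← map_pow, classOf_sq hv (place_spec hv) hvN,
      map_one, OneMemClass.coe_one])

/-- The genus count. -/
theorem genus :
    (∀ χ : kgrp D →* ℂˣ, Good χ → (∀ σ, χ σ ^ 2 = 1) →
      ∃ κ : Img U →* ℂˣ, χ = κ.comp U.π.rangeRestrict) ∧
    ∀ x : Img U, x ^ 2 = 1 → ∃ Δ : Finset ℕ, Δ ⊆ D.m.primeFactors ∧ x = ∏ v ∈ Δ, piFrob U v := by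
  classical
  haveI : NeZero (Monoid.exponent (Img U)) := ⟨Monoid.exponent_ne_zero_of_finite⟩
  let Z := {Δ : Finset ℕ // Δ ∈ D.m.primeFactors.powerset}
  let T := {x : Img U // x ^ 2 = 1}
  let X := {κ : Img U →* ℂˣ // κ ^ 2 = 1}
  let Y := D.m.primeFactors → rootsOfUnity 2 ℂ
  have hfac : ∀ {Δ : Finset ℕ}, Δ ⊆ D.m.primeFactors → ∀ v ∈ Δ, v.Prime ∧ v ∣ 2 * D.m :=
    fun hΔ v hv => ⟨Nat.prime_of_mem_primeFactors (hΔ hv),
      dvd_mul_of_dvd_right (Nat.dvd_of_mem_primeFactors (hΔ hv)) 2⟩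
  let F : Z → T := fun Δ => ⟨∏ v ∈ Δ.1, piFrob U v, by
    rw [← Finset.prod_pow]
    exact Finset.prod_eq_one fun v hv =>
      piFrob_sq U (hfac (Finset.mem_powerset.1 Δ.2) v hv).1
        (hfac (Finset.mem_powerset.1 Δ.2) v hv).2⟩
  have hF : Function.Injective F := by
    rintro ⟨Δ, hΔ⟩ ⟨Δ', hΔ'⟩ h
    have hΔs := Finset.mem_powerset.1 hΔ
    have hΔs' := Finset.mem_powerset.1 hΔ'
    have h1 : ((∏ v ∈ Δ, piFrob U v : Img U) : U.G) = ((∏ v ∈ Δ', piFrob U v : Img U) : U.G) :=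
      congrArg (fun t : T => ((t.1 : Img U) : U.G)) h
    rw [SubmonoidClass.coe_finsetProd, SubmonoidClass.coe_finsetProd,
      Finset.prod_congr rfl (fun v hv => piFrob_coe U (hfac hΔs v hv).1 (hfac hΔs v hv).2),
      Finset.prod_congr rfl (fun v hv => piFrob_coe U (hfac hΔs' v hv).1 (hfac hΔs' v hv).2),
      ← map_prod, ← map_prod] at h1
    refine Subtype.ext (prod_classOf_injective D hΔs hΔs' ?_)
    refine div_eq_one.1 (U.toG_inj _ ?_ (by rw [map_div, h1, div_self']))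
    have hs : ∀ {s : Finset ℕ}, s ⊆ D.m.primeFactors →
        (∏ v ∈ s, classOf D (place v)) ^ 2 = 1 := fun hs => by
      rw [← Finset.prod_pow]
      exact Finset.prod_eq_one fun v hv => classOf_sq (hfac hs v hv).1
        (place_spec (hfac hs v hv).1) (hfac hs v hv).2
    rw [div_pow, hs hΔs, hs hΔs', div_one]
  obtain ⟨e⟩ := CommGroup.monoidHom_mulEquiv_of_hasEnoughRootsOfUnity (Img U) ℂ
  let eXT : X ≃ T := e.toEquiv.subtypeEquiv fun κ => by
    rw [MulEquiv.toEquiv_eq_coe, MulEquiv.coe_toEquiv, ← map_pow, MulEquiv.map_eq_one_iff]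
  have hmem : ∀ (χ : kgrp D →* ℂˣ), (∀ σ, χ σ ^ 2 = 1) → ∀ v, signs D χ v ∈ rootsOfUnity 2 ℂ :=
    fun χ h v => (mem_rootsOfUnity 2 _).2 (h _)
  have hXsq : ∀ (κ : X) σ, (κ.1.comp U.π.rangeRestrict) σ ^ 2 = 1 := fun κ σ => by
    rw [MonoidHom.comp_apply, ← MonoidHom.pow_apply, κ.2, MonoidHom.one_apply]
  let Φ : X → Y := fun κ v => ⟨_, hmem _ (hXsq κ) v⟩
  have hinjΦ : ∀ χ χ' : kgrp D →* ℂˣ, Good χ → Good χ' → (∀ σ, χ σ ^ 2 = 1) →
      (∀ σ, χ' σ ^ 2 = 1) → (∀ v, signs D χ v = signs D χ' v) → χ = χ' := by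
    intro χ χ' h h' hq hq' he
    refine div_eq_one.1 (eq_one_of_signs D (h.div h') (fun σ => ?_) fun v => ?_)
    · rw [MonoidHom.div_apply, div_pow, hq, hq', div_one]
    · show χ _ / χ' _ = 1
      exact div_eq_one.2 (he v)
  have hΦ : Function.Injective Φ := by
    intro κ κ' h
    have := hinjΦ _ _ (good_comp_img U κ.1) (good_comp_img U κ'.1) (hXsq κ) (hXsq κ')
      fun v => congrArg (fun y : Y => (y v : ℂˣ)) h
    refine Subtype.ext (MonoidHom.ext fun x => ?_)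
    obtain ⟨σ, rfl⟩ := U.π.rangeRestrict_surjective x
    exact DFunLike.congr_fun this σ
  have hY : Nat.card Y = Nat.card Z := by
    rw [Nat.card_fun, Nat.card_eq_fintype_card (α := Z), Fintype.card_coe, Finset.card_powerset,
      HasEnoughRootsOfUnity.natCard_rootsOfUnity ℂ 2, Nat.card_eq_fintype_card, Fintype.card_coe]
  haveI : Finite X := Finite.of_injective Φ hΦ
  have h1 := Nat.card_le_card_of_injective F hF
  have h2 := Nat.card_le_card_of_injective Φ hΦ
  have h3 : Nat.card X = Nat.card T := Nat.card_congr eXT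
  have hΦb : Function.Bijective Φ := hΦ.bijective_of_nat_card_le (by omega)
  have hFb : Function.Bijective F := hF.bijective_of_nat_card_le (by omega)
  refine ⟨fun χ hχ hsq => ?_, fun x hx => ?_⟩
  · obtain ⟨κ, hκ⟩ := hΦb.2 fun v => ⟨_, hmem χ hsq v⟩
    exact ⟨κ.1, hinjΦ _ _ hχ (good_comp_img U κ.1) hsq (hXsq κ)
      fun v => (congrArg (fun y : Y => (y v : ℂˣ)) hκ).symm⟩
  · obtain ⟨Δ, hΔ⟩ := hFb.2 ⟨x, hx⟩
    exact ⟨Δ.1, Finset.mem_powerset.1 Δ.2, (congrArg Subtype.val hΔ).symm⟩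

/-- An unramified anti-invariant character squares to one at the ramified Frobenius elements. -/
theorem Good.sq_frob {M : Type} [CommGroup M] {χ : kgrp D →* M} (hχ : Good χ) {v : ℕ}
    (hv : v.Prime) (hvN : v ∣ 2 * D.m) {A : ValuationSubring ℚ̄} (hA : A.LiesOverPrime v)
    {φ : kgrp D} (hφ : A.IsFrobeniusAt (φ : Gal2) v) : χ φ ^ 2 = 1 := by
  obtain ⟨τ, hτ, hτK⟩ := exists_inertia_not_inK D hv hvN hA
  let φ' : kgrp D := ⟨τ * φ * τ⁻¹, inK_conj D φ.2 τ⟩
  have h1 : A.IsFrobeniusAt (φ' : Gal2) v := by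
    have := GalCommon.isFrobeniusAt_conj hφ τ
    rwa [MulAction.mem_stabilizer_iff.1 (GalCommon.inertiaSubgroupIn_le_decomposition hτ)] at this
  have h2 := hχ.unram v hv A hA (φ * φ'⁻¹) (GalCommon.mul_inv_mem_inertia hφ h1)
  rw [map_mul, map_inv, hχ.anti τ hτK φ φ' rfl, inv_inv] at h2
  rw [sq, h2]

theorem exists_sq_root {P : Type} [CommGroup P] [Finite P] (h : P →* ℂˣ)
    (hk : ∀ x : P, x ^ 2 = 1 → h x = 1) : ∃ h₁ : P →* ℂˣ, ∀ x, h x = h₁ x ^ 2 := by
  haveI : NeZero (Monoid.exponent P) := ⟨Monoid.exponent_ne_zero_of_finite⟩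
  let s : P →* P := powMonoidHom 2
  let h' : s.range →* ℂˣ := s.rangeRestrict.liftOfSurjective s.rangeRestrict_surjective
    ⟨h, fun x hx => by
      rw [MonoidHom.ker_rangeRestrict] at hx
      exact hk x hx⟩
  obtain ⟨h₁, hh₁⟩ := MonoidHom.domRestrict_surjective (M := ℂ) s.range h'
  refine ⟨h₁, fun x => ?_⟩
  rw [← map_pow]
  have : h' (s.rangeRestrict x) = h x := MonoidHom.liftOfRightInverse_comp_apply _ _ _ _ x
  rw [← this, ← hh₁]
  rfl

/-- Characters of `2`-power order factor. -/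
theorem exists_comp_complex (j : ℕ) :
    ∀ χ : kgrp D →* ℂˣ, Good χ → (∀ σ, χ σ ^ 2 ^ j = 1) →
      ∃ κ : Img U →* ℂˣ, χ = κ.comp U.π.rangeRestrict := by
  induction j with
  | zero =>
    intro χ _ h
    exact ⟨1, MonoidHom.ext fun σ => by simpa using h σ⟩
  | succ j ih =>
    intro χ hχ h
    obtain ⟨κ, hκ⟩ := ih ((powMonoidHom 2).comp χ) (hχ.comp _) fun σ => by
      rw [MonoidHom.comp_apply, powMonoidHom_apply, ← pow_mul, ← pow_succ', h σ]
    obtain ⟨hquad, htwo⟩ := genus U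
    obtain ⟨κ₁, hκ₁⟩ := exists_sq_root κ fun x hx => by
      obtain ⟨Δ, hΔ, rfl⟩ := htwo x hx
      rw [map_prod]
      refine Finset.prod_eq_one fun v hv => ?_
      have hvp := Nat.prime_of_mem_primeFactors (hΔ hv)
      have hvN := dvd_mul_of_dvd_right (Nat.dvd_of_mem_primeFactors (hΔ hv)) 2
      rw [piFrob, dif_pos ⟨hvp, hvN⟩, ← MonoidHom.comp_apply κ, ← hκ, MonoidHom.comp_apply,
        powMonoidHom_apply]
      exact hχ.sq_frob hvp hvN (place_spec hvp)
        (exists_frobenius_inK D hvp hvN (place_spec hvp)).choose_spec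
    obtain ⟨κ₂, hκ₂⟩ := hquad (χ / κ₁.comp U.π.rangeRestrict) (hχ.div (good_comp_img U κ₁))
      fun σ => by
        rw [MonoidHom.div_apply, div_pow, MonoidHom.comp_apply, ← hκ₁, ← MonoidHom.comp_apply κ,
          ← hκ, MonoidHom.comp_apply, powMonoidHom_apply, div_self']
    refine ⟨κ₂ * κ₁, ?_⟩
    rw [MonoidHom.mul_comp, ← hκ₂, div_mul_cancel]

/-- Good characters of `2`-power order with values in any finite group factor through `π`. -/
theorem exists_lift {M : Type} [CommGroup M] [Finite M] (χ : kgrp D →* M) (hχ : Good χ) (j : ℕ)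
    (hpow : ∀ σ, χ σ ^ 2 ^ j = 1) : ∃ h : Img U →* M, χ = h.comp U.π.rangeRestrict := by
  haveI : NeZero (Monoid.exponent M) := ⟨Monoid.exponent_ne_zero_of_finite⟩
  have hker : U.π.rangeRestrict.ker ≤ χ.ker := by
    intro σ hσ
    rw [MonoidHom.mem_ker] at hσ ⊢
    by_contra hne
    obtain ⟨κ, hκ⟩ := CommGroup.exists_apply_ne_one_of_hasEnoughRootsOfUnity M ℂ hne
    obtain ⟨κ', hκ'⟩ := exists_comp_complex U j (κ.comp χ) (hχ.comp κ) fun τ => by
      rw [MonoidHom.comp_apply, ← map_pow, hpow, map_one]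
    refine hκ ?_
    rw [← MonoidHom.comp_apply, hκ', MonoidHom.comp_apply, hσ, map_one]
  refine ⟨U.π.rangeRestrict.liftOfSurjective U.π.rangeRestrict_surjective ⟨χ, hker⟩, ?_⟩
  refine MonoidHom.ext fun σ => ?_
  rw [MonoidHom.comp_apply]
  exact (MonoidHom.liftOfRightInverse_comp_apply _ _ (Function.rightInverse_surjInv _) ⟨χ, hker⟩ σ).symm

end FLTAgent.Mod2.Dih
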