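import Fermat.Agent.Mod2.RT.Basic
import Fermat.Agent.Mod2.ThetaHom

/-!
# The field `ℚ(√(-2m))` inside `ℚ̄` and its primes

`field D` is generated by a square root of `-2m`, with integral basis `intBasis` and discriminant
`-8m` (`discr_field`). A place `A` of `ℚ̄` cuts out the prime `primeOf D A`; its norm is read off
from whether Frobenius lies in `InK`. `classOf D A` is its class, and the theta coefficient
`ringCoeff χ l` is computed from it in the split, inert and ramified cases.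
-/

set_option autoImplicit false
set_option linter.style.haveILetI false

noncomputable section

open NumberField Module IntermediateField
open scoped Pointwise

namespace FLTAgent.Mod2.Dih

local notation "ℚ̄" => AlgebraicClosure ℚ

theorem mat_cube_mul : ∀ M N : Mat2 (ZMod 2), M ^ 3 = 1 → N ^ 3 = 1 → (M * N) ^ 3 = 1 := by decide

theorem mat_cube_mul_of_ne : ∀ M N : Mat2 (ZMod 2), M.det = 1 → N.det = 1 → M ^ 3 ≠ 1 →
    N ^ 3 ≠ 1 → (M * N) ^ 3 = 1 := by decide

theorem mat_trace_zero : ∀ M : Mat2 (ZMod 2), M.det = 1 → (M.trace = 0 ↔ M * M = 1) := by decide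

theorem mat_trace_one : ∀ M : Mat2 (ZMod 2), M.det = 1 → M ^ 3 = 1 → M ≠ 1 → M.trace = 1 := by
  decide

theorem mat_eq_one : ∀ M : Mat2 (ZMod 2), M ^ 3 = 1 → M * M = 1 → M = 1 := by decide

theorem mat_sq_of_cube_ne : ∀ M : Mat2 (ZMod 2), M.det = 1 → M ^ 3 ≠ 1 → M * M = 1 := by decide

theorem mat_order_three : ∀ M N : Mat2 (ZMod 2), M.det = 1 → N.det = 1 → M ^ 3 = 1 → M ≠ 1 →
    N ^ 3 = 1 → N = 1 ∨ N = M ∨ N = M * M := by decide

theorem eq_one_or_of_zmod_two : ∀ x : ZMod 2, x = 0 ∨ x = 1 := by decide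

variable (D : Setup)

theorem det_rho (σ : Gal2) : (D.rho σ).det = 1 := by
  refine (eq_one_or_of_zmod_two _).resolve_left fun h => zero_ne_one (α := ZMod 2) ?_
  calc (0 : ZMod 2) = (D.rho σ).det * (D.rho σ⁻¹).det := by rw [h, zero_mul]
    _ = 1 := by rw [← Matrix.det_mul, ← map_mul, mul_inv_cancel, map_one, Matrix.det_one]

/-- A square root of `-2m`. -/
def root : ℚ̄ := (IsAlgClosed.exists_pow_nat_eq (-(2 * D.m : ℕ) : ℚ̄) two_pos).choose

theorem root_sq : root D ^ 2 = -(2 * D.m : ℕ) :=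
  (IsAlgClosed.exists_pow_nat_eq (-(2 * D.m : ℕ) : ℚ̄) two_pos).choose_spec

theorem root_ne_zero : root D ≠ 0 := fun h => by
  have := root_sq D
  rw [h, zero_pow two_ne_zero, eq_comm, neg_eq_zero, Nat.cast_eq_zero] at this
  have := D.odd_m.pos
  omega

theorem map_root (σ : Gal2) : σ (root D) = root D ∨ σ (root D) = -root D := by
  refine sq_eq_sq_iff_eq_or_eq_neg.1 ?_
  rw [← map_pow, root_sq, map_neg, map_natCast]

theorem inK_iff (σ : Gal2) : D.InK σ ↔ σ (root D) = root D :=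
  (D.sign_field σ _ (root_sq D)).symm

theorem map_root_of_not {σ : Gal2} (h : ¬ D.InK σ) : σ (root D) = -root D :=
  (map_root D σ).resolve_left (mt (inK_iff D σ).2 h)

/-- The subgroup fixing `ℚ(√(-2m))`. -/
def kgrp : Subgroup Gal2 where
  carrier := {σ | D.InK σ}
  one_mem' := by simp [Setup.InK]
  mul_mem' {a b} ha hb := by
    simp only [Set.mem_ofPred_eq, Setup.InK, map_mul] at ha hb ⊢
    exact mat_cube_mul _ _ ha hb
  inv_mem' {a} ha := by
    simp only [Set.mem_ofPred_eq, inK_iff] at ha ⊢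
    conv_lhs => rw [← ha]
    rw [← AlgEquiv.mul_apply, inv_mul_cancel, AlgEquiv.one_apply]

theorem mem_kgrp {σ : Gal2} : σ ∈ kgrp D ↔ D.InK σ := Iff.rfl

theorem inK_mul_of_not {σ τ : Gal2} (hσ : ¬ D.InK σ) (hτ : ¬ D.InK τ) : D.InK (σ * τ) := by
  rw [Setup.InK, map_mul]
  exact mat_cube_mul_of_ne _ _ (det_rho D σ) (det_rho D τ) hσ hτ

theorem inK_conj {σ : Gal2} (h : D.InK σ) (τ : Gal2) : D.InK (τ * σ * τ⁻¹) := by
  by_cases hτ : D.InK τ
  · exact (kgrp D).mul_mem ((kgrp D).mul_mem hτ h) ((kgrp D).inv_mem hτ)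
  · refine inK_mul_of_not D (fun hh => hτ ?_) (mt (fun hh => inv_inv τ ▸ (kgrp D).inv_mem hh) hτ)
    have := (kgrp D).mul_mem hh ((kgrp D).inv_mem h)
    rwa [mem_kgrp, mul_inv_cancel_right] at this

theorem inK_pow {σ : Gal2} (h : D.InK σ) (k : ℕ) : D.InK (σ ^ k) := (kgrp D).pow_mem h k

theorem exists_not_inK : ∃ σ : Gal2, ¬ D.InK σ := by
  obtain ⟨σ, hσ⟩ := D.surj !![1, 1; 0, 1] (by decide)
  exact ⟨σ, by rw [Setup.InK, hσ]; decide⟩

theorem exists_order_three : ∃ σ : Gal2, D.InK σ ∧ D.rho σ ≠ 1 := by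
  obtain ⟨σ, hσ⟩ := D.surj !![1, 1; 1, 0] (by decide)
  exact ⟨σ, by rw [Setup.InK, hσ]; decide, by rw [hσ]; decide⟩

/-! ### The field -/

/-- `ℚ(√(-2m))`. -/
def field : IntermediateField ℚ ℚ̄ := ℚ⟮root D⟯

theorem isIntegral_root : IsIntegral ℤ (root D) := by
  refine IsIntegral.of_pow two_pos ?_
  rw [root_sq, ← map_natCast (algebraMap ℤ ℚ̄), ← map_neg]
  exact isIntegral_algebraMap

theorem root_not_rat (q : ℚ) : algebraMap ℚ ℚ̄ q ≠ root D := fun h => by
  have h2 : algebraMap ℚ ℚ̄ (q ^ 2) = algebraMap ℚ ℚ̄ (-(2 * D.m : ℕ)) := by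
    rw [map_pow, h, root_sq, map_neg, map_natCast]
  have h3 := (algebraMap ℚ ℚ̄).injective h2
  have : (0 : ℚ) < (2 * D.m : ℕ) := by exact_mod_cast Nat.pos_of_ne_zero (NeZero.ne (2 * D.m))
  nlinarith [sq_nonneg q]

theorem root_mem : root D ∈ field D := mem_adjoin_simple_self ℚ _

theorem finrank_field : finrank ℚ (field D) = 2 := by
  have hint : IsIntegral ℚ (root D) := (isIntegral_root D).tower_top
  rw [field, adjoin.finrank hint]
  refine le_antisymm ?_ ((minpoly.two_le_natDegree_iff hint).2 ?_)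
  · have hmon : (Polynomial.X ^ 2 + Polynomial.C ((2 * D.m : ℕ) : ℚ)).Monic := by monicity!
    have hroot : Polynomial.aeval (root D)
        (Polynomial.X ^ 2 + Polynomial.C ((2 * D.m : ℕ) : ℚ)) = 0 := by
      rw [map_add, map_pow, Polynomial.aeval_X, Polynomial.aeval_C, root_sq, map_natCast,
        neg_add_cancel]
    refine (Polynomial.natDegree_le_of_dvd (minpoly.dvd ℚ _ hroot) hmon.ne_zero).trans ?_
    compute_degree
  · rintro ⟨q, hq⟩
    exact root_not_rat D q hq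

instance finite_field : FiniteDimensional ℚ (field D) :=
  Module.finite_of_finrank_eq_succ (finrank_field D)

instance numberField_field : NumberField (field D) := ⟨⟩

theorem fixes_field {σ : Gal2} (h : D.InK σ) {y : ℚ̄} (hy : y ∈ field D) : σ y = y := by
  induction hy using adjoin_induction ℚ with
  | mem x hx => rw [Set.mem_singleton_iff.1 hx]; exact (inK_iff D σ).1 h
  | algebraMap q => exact σ.commutes q
  | add x y _ _ hx hy => rw [map_add, hx, hy]
  | inv x _ hx => rw [map_inv₀, hx]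
  | mul x y _ _ hx hy => rw [map_mul, hx, hy]

/-- The square root as an algebraic integer of the field. -/
def gen : 𝓞 (field D) :=
  ⟨⟨root D, root_mem D⟩, (isIntegral_algHom_iff ((field D).val.restrictScalars ℤ)
    Subtype.val_injective).1 (isIntegral_root D)⟩

theorem coe_gen : (((gen D : 𝓞 (field D)) : field D) : ℚ̄) = root D := rfl

theorem gen_sq : gen D ^ 2 = -(2 * D.m : ℕ) := by
  apply RingOfIntegers.ext
  apply Subtype.val_injective
  simp only [map_pow, map_neg, map_natCast, coe_gen, root_sq, SubmonoidClass.coe_pow,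
    NegMemClass.coe_neg]
  rfl

theorem linearIndependent_gen :
    LinearIndependent ℚ ![(1 : field D), ((gen D : 𝓞 (field D)) : field D)] := by
  refine LinearIndependent.pair_iff.2 fun s t h => ?_
  have h' : algebraMap ℚ ℚ̄ s + algebraMap ℚ ℚ̄ t * root D = 0 := by
    have := congrArg (fun x : field D => (x : ℚ̄)) h
    simpa [Algebra.smul_def, coe_gen] using this
  by_cases ht : t = 0
  · exact ⟨by simpa [ht] using h', ht⟩
  · refine absurd ?_ (root_not_rat D (-s / t))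
    rw [map_div₀, map_neg, div_eq_iff (by simpa using ht)]
    linear_combination -h'

theorem exists_coords (y : field D) :
    ∃ a b : ℚ, (y : ℚ̄) = algebraMap ℚ ℚ̄ a + algebraMap ℚ ℚ̄ b * root D := by
  set B := basisOfLinearIndependentOfCardEqFinrank (linearIndependent_gen D)
    (by rw [finrank_field, Fintype.card_fin]) with hB
  refine ⟨B.repr y 0, B.repr y 1, ?_⟩
  conv_lhs => rw [← B.sum_repr y]
  rw [Fin.sum_univ_two, coe_basisOfLinearIndependentOfCardEqFinrank]
  simp [Algebra.smul_def, coe_gen]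

theorem exists_int_of_isIntegral {q : ℚ} (h : IsIntegral ℤ (algebraMap ℚ ℚ̄ q)) :
    ∃ z : ℤ, (z : ℚ) = q := by
  obtain ⟨z, hz⟩ := IsIntegrallyClosed.isIntegral_iff.1
    ((isIntegral_algebraMap_iff (algebraMap ℚ ℚ̄).injective).1 h)
  exact ⟨z, by simpa using hz⟩

theorem exists_int_coords (y : 𝓞 (field D)) :
    ∃ a b : ℤ, ((y : field D) : ℚ̄) = (a : ℚ̄) + (b : ℚ̄) * root D := by
  obtain ⟨a, b, hab⟩ := exists_coords D y
  obtain ⟨c, hc⟩ := exists_not_inK D
  have hy : IsIntegral ℤ ((y : field D) : ℚ̄) := Density.isIntegral_coe _ y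
  have hy' : IsIntegral ℤ (c ((y : field D) : ℚ̄)) := map_isIntegral_int c hy
  rw [hab, map_add, map_mul, AlgEquiv.commutes, AlgEquiv.commutes, map_root_of_not D hc] at hy'
  rw [hab] at hy
  have hsum : algebraMap ℚ ℚ̄ (2 * a) = algebraMap ℚ ℚ̄ a + algebraMap ℚ ℚ̄ b * root D +
      (algebraMap ℚ ℚ̄ a + algebraMap ℚ ℚ̄ b * -root D) := by
    rw [map_mul, map_ofNat]; ring
  have hprod : algebraMap ℚ ℚ̄ (a ^ 2 + (2 * D.m : ℕ) * b ^ 2) =
      (algebraMap ℚ ℚ̄ a + algebraMap ℚ ℚ̄ b * root D) *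
        (algebraMap ℚ ℚ̄ a + algebraMap ℚ ℚ̄ b * -root D) := by
    rw [map_add, map_mul, map_pow, map_pow, map_natCast]
    linear_combination (algebraMap ℚ ℚ̄ b) ^ 2 * root_sq D
  obtain ⟨A, hA⟩ := exists_int_of_isIntegral (q := 2 * a) (hsum ▸ hy.add hy')
  obtain ⟨N, hN⟩ := exists_int_of_isIntegral (q := a ^ 2 + (2 * D.m : ℕ) * b ^ 2)
    (hprod ▸ hy.mul hy')
  obtain ⟨B, hB⟩ : ∃ B : ℤ, (B : ℚ) = 2 * b := by
    set q := 2 * b with hq
    have hk : ((2 * D.m : ℕ) : ℚ) * q ^ 2 = ((4 * N - A ^ 2 : ℤ) : ℚ) := by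
      push_cast at hN ⊢
      rw [hA, hN, hq]; ring
    refine ⟨q.num, ?_⟩
    have hden : q.den = 1 := by
      have h1 : ((2 * D.m : ℕ) : ℤ) * q.num ^ 2 = (4 * N - A ^ 2) * (q.den : ℤ) ^ 2 := by
        have e : q = (q.num : ℚ) / q.den := (Rat.num_div_den q).symm
        have hd : (q.den : ℚ) ≠ 0 := by exact_mod_cast q.den_ne_zero
        rw [e, div_pow, mul_div_assoc', div_eq_iff (pow_ne_zero 2 hd)] at hk
        exact_mod_cast hk
      have h2 : q.den ^ 2 ∣ (2 * D.m) * q.num.natAbs ^ 2 := by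
        have := congrArg Int.natAbs h1
        rw [Int.natAbs_mul, Int.natAbs_pow, Int.natAbs_mul, Int.natAbs_pow, Int.natAbs_natCast,
          Int.natAbs_natCast] at this
        rw [this]
        exact dvd_mul_left _ _
      have h3 : q.den ^ 2 ∣ 2 * D.m :=
        (Nat.Coprime.pow 2 2 q.reduced.symm).dvd_of_dvd_mul_right h2
      exact Nat.isUnit_iff.1 ((squarefree_two_mul' D) q.den (by rwa [← sq]))
    exact Rat.coe_int_num_of_den_eq_one hden
  have h4 : (A : ℤ) ^ 2 + 2 * D.m * B ^ 2 = 4 * N := by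
    have : ((A : ℤ) ^ 2 + 2 * D.m * B ^ 2 : ℚ) = 4 * N := by
      rw [hA, hB, hN]; push_cast; ring
    exact_mod_cast this
  obtain ⟨a', rfl⟩ : Even A := by
    have : Even (A ^ 2) := ⟨2 * N - D.m * B ^ 2, by linarith⟩
    exact (Int.even_pow.1 this).1
  obtain ⟨b', rfl⟩ : Even B := by
    have h5 : Even ((D.m : ℤ) * B ^ 2) := ⟨N - a' ^ 2, by linarith⟩
    rcases Int.even_mul.1 h5 with h | h
    · exact absurd (Int.even_coe_nat _ |>.1 h) (Nat.not_even_iff_odd.2 D.odd_m)
    · exact (Int.even_pow.1 h).1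
  refine ⟨a', b', ?_⟩
  rw [hab, show a = (a' : ℚ) by push_cast at hA; linarith,
    show b = (b' : ℚ) by push_cast at hB; linarith, map_intCast, map_intCast]
where
  squarefree_two_mul' (D : Setup) : Squarefree (2 * D.m) :=
    (Nat.squarefree_mul (Nat.coprime_two_left.2 D.odd_m)).2
      ⟨Nat.squarefree_two, D.sqf_m⟩

/-- The integral basis `1, √(-2m)`. -/
def intBasis : Basis (Fin 2) ℤ (𝓞 (field D)) :=
  Basis.mk (v := ![1, gen D])
    (LinearIndependent.pair_iff.2 fun s t h => by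
      have h' : (s : ℚ) • (1 : field D) + (t : ℚ) • ((gen D : 𝓞 (field D)) : field D) = 0 := by
        have := congrArg (fun x : 𝓞 (field D) => (x : field D)) h
        simpa [Int.cast_smul_eq_zsmul] using this
      simpa using LinearIndependent.pair_iff.1 (linearIndependent_gen D) _ _ h')
    (fun y _ => by
      obtain ⟨a, b, hab⟩ := exists_int_coords D y
      rw [Matrix.range_cons, Matrix.range_cons, Matrix.range_empty, Set.union_empty,
        Set.singleton_union]
      refine Submodule.mem_span_pair.2 ⟨a, b, ?_⟩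
      apply RingOfIntegers.ext
      apply Subtype.val_injective
      rw [hab]
      simp [coe_gen])

theorem discr_field : NumberField.discr (field D) = -(8 * D.m : ℕ) := by
  set ω := intBasis D
  have h1 : ω 0 = 1 := by simp [ω, intBasis]
  have hg : ω 1 = gen D := by simp [ω, intBasis]
  have ht : Algebra.trace ℤ (𝓞 (field D)) (gen D) = 0 := by
    rw [Algebra.trace_eq_matrix_trace ω, Matrix.trace_fin_two, Algebra.leftMulMatrix_eq_repr_mul,
      Algebra.leftMulMatrix_eq_repr_mul, h1, mul_one, hg, ← sq, gen_sq]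
    have e0 : (ω.repr (gen D)) 0 = 0 := by rw [← hg]; simp
    have e1 : (-(2 * D.m : ℕ) : 𝓞 (field D)) = (-(2 * D.m : ℕ) : ℤ) • ω 0 := by
      rw [h1, zsmul_one]; push_cast; ring
    rw [e0, e1, map_zsmul, Basis.repr_self]
    simp
  have hgg : Algebra.trace ℤ (𝓞 (field D)) (gen D * gen D) = -(4 * D.m : ℕ) := by
    rw [← sq, gen_sq]
    have e1 : (-(2 * D.m : ℕ) : 𝓞 (field D)) = (-(2 * D.m : ℕ) : ℤ) • 1 := by
      rw [zsmul_one]; push_cast; ring
    rw [e1, map_zsmul, trace_one_of_two ω, smul_eq_mul]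
    push_cast; ring
  rw [← NumberField.discr_eq_discr _ ω, Algebra.discr_def, Matrix.det_fin_two]
  simp only [Algebra.traceMatrix_apply, Algebra.traceForm_apply, h1, hg, one_mul, mul_one,
    trace_one_of_two ω, ht, hgg]
  push_cast; ring

theorem discr_neg : NumberField.discr (field D) < 0 := by
  have := D.odd_m.pos
  rw [discr_field]; omega

theorem two_dvd_discr : (2 : ℤ) ∣ NumberField.discr (field D) := by
  rw [discr_field, Int.dvd_neg]; exact ⟨4 * D.m, by push_cast; ring⟩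

theorem discr_ne : NumberField.discr (field D) ≠ -4 := by
  have := D.odd_m.pos
  rw [discr_field]; omega

theorem oddPart_discr : oddPart (NumberField.discr (field D)) = D.m := by
  rw [discr_field, oddPart, Int.natAbs_neg, Int.natAbs_natCast]
  have h : (8 * D.m).factorization 2 = 3 := by
    rw [Nat.factorization_mul (by norm_num) D.odd_m.pos.ne', Finsupp.add_apply,
      show (8 : ℕ) = 2 ^ 3 by norm_num, Nat.Prime.factorization_pow Nat.prime_two,
      Finsupp.single_eq_same,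
      Nat.factorization_eq_zero_of_not_dvd (Nat.two_dvd_ne_zero.2 (Nat.odd_iff.1 D.odd_m))]
  rw [h]
  omega

theorem dvd_discr_iff {l : ℕ} (hl : l.Prime) :
    (l : ℤ) ∣ NumberField.discr (field D) ↔ l ∣ 2 * D.m := by
  rw [discr_field, Int.dvd_neg, Int.natCast_dvd_natCast, show 8 * D.m = 2 ^ 2 * (2 * D.m) by ring]
  refine ⟨fun h => ?_, fun h => dvd_mul_of_dvd_right h _⟩
  rcases hl.dvd_mul.1 h with h | h
  · exact dvd_mul_of_dvd_left (hl.dvd_of_dvd_pow h) _
  · exact h

/-! ### Places and primes -/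

/-- The prime of the field cut out by a place. -/
def primeOf (A : ValuationSubring ℚ̄) : Ideal (𝓞 (field D)) := Density.placePrime (field D) A

variable {D}

theorem primeOf_isMaximal {A : ValuationSubring ℚ̄} {l : ℕ} (hl : l.Prime)
    (hA : A.LiesOverPrime l) : (primeOf D A).IsMaximal :=
  Density.placePrime_isMaximal _ hl hA

theorem natCast_mem_primeOf {A : ValuationSubring ℚ̄} {l : ℕ} (hA : A.LiesOverPrime l) :
    (l : 𝓞 (field D)) ∈ primeOf D A :=
  Density.natCast_mem_placePrime hA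

theorem mem_primeOf {A : ValuationSubring ℚ̄} {y : 𝓞 (field D)} :
    y ∈ primeOf D A ↔ ((y : field D) : ℚ̄) ∈ A.nonunits := Density.mem_placePrime_iff

theorem root_not_mem {A : ValuationSubring ℚ̄} {l : ℕ} (hl : l.Prime) (hA : A.LiesOverPrime l)
    (hl2 : ¬ l ∣ 2 * D.m) : gen D + gen D ∉ primeOf D A := by
  intro h
  have h2 := (primeOf D A).mul_mem_left (gen D + gen D) h
  have e : (gen D + gen D) * (gen D + gen D) = ((-(4 * (2 * D.m)) : ℤ) : 𝓞 (field D)) := by
    rw [← two_mul, mul_mul_mul_comm, ← sq (gen D), gen_sq]; push_cast; ring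
  rw [e, mem_primeOf] at h2
  have h3 := (GalCommon.intCast_mem_nonunits_iff hl hA (-(4 * (2 * D.m)) : ℤ)).1 (by
    rw [← map_intCast (algebraMap (𝓞 (field D)) ℚ̄)]
    exact h2)
  rw [Int.dvd_neg] at h3
  norm_cast at h3
  rcases hl.dvd_mul.1 h3 with h4 | h4
  · exact hl2 (dvd_mul_of_dvd_left (hl.dvd_of_dvd_pow (show l ∣ 2 ^ 2 from h4)) _)
  · exact hl2 h4

theorem exists_sub_natCast_mem {P : Ideal (𝓞 (field D))} (hP : P.IsMaximal) {l : ℕ} (hl : l.Prime)
    (hPn : Ideal.absNorm P = l) (y : 𝓞 (field D)) : ∃ n : ℕ, y - (n : 𝓞 (field D)) ∈ P := by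
  haveI : Fact l.Prime := ⟨hl⟩
  have hcard : Nat.card (𝓞 (field D) ⧸ P) = l := hPn
  haveI : Finite (𝓞 (field D) ⧸ P) := Nat.finite_of_card_ne_zero (hcard ▸ hl.ne_zero)
  letI := Fintype.ofFinite (𝓞 (field D) ⧸ P)
  haveI := hP
  haveI : CharP (𝓞 (field D) ⧸ P) l := by
    refine (CharP.charP_iff_prime_eq_zero hl).2 ?_
    rw [← map_natCast (Ideal.Quotient.mk P), Ideal.Quotient.eq_zero_iff_mem, ← hPn]
    exact Ideal.absNorm_mem P
  obtain ⟨z, hz⟩ := (ZMod.castHom_bijective (𝓞 (field D) ⧸ P)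
    (by rw [← Nat.card_eq_fintype_card, hcard])).2 (Ideal.Quotient.mk P y)
  refine ⟨z.val, ?_⟩
  rw [← Ideal.Quotient.eq_zero_iff_mem, map_sub, ← hz, map_natCast, sub_eq_zero]
  conv_lhs => rw [← ZMod.natCast_zmod_val z, map_natCast]

theorem absNorm_primeOf_cases {A : ValuationSubring ℚ̄} {l : ℕ} (hl : l.Prime)
    (hA : A.LiesOverPrime l) : Ideal.absNorm (primeOf D A) = l ∨
      (Ideal.absNorm (primeOf D A) = l ^ 2 ∧ Ideal.span {(l : 𝓞 (field D))} = primeOf D A) := by
  have hmax := primeOf_isMaximal (D := D) hl hA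
  have hle : Ideal.span {(l : 𝓞 (field D))} ≤ primeOf D A :=
    (Ideal.span_singleton_le_iff_mem _).2 (natCast_mem_primeOf hA)
  rcases prime_decomposition (finrank_field D) hl with ⟨P, hP, hPn, hLP⟩ |
    ⟨P, R, hP, hR, hPn, hRn, hLP⟩
  · rw [hLP] at hle
    obtain rfl := hP.eq_of_le hmax.ne_top hle
    exact Or.inr ⟨hPn, hLP⟩
  · rw [hLP] at hle
    rcases hmax.isPrime.mul_le.1 hle with h | h
    · obtain rfl := hP.eq_of_le hmax.ne_top h
      exact Or.inl hPn
    · obtain rfl := hR.eq_of_le hmax.ne_top h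
      exact Or.inl hRn

theorem inK_of_absNorm {A : ValuationSubring ℚ̄} {l : ℕ} (hl : l.Prime) (hA : A.LiesOverPrime l)
    (hl2 : ¬ l ∣ 2 * D.m) (hn : Ideal.absNorm (primeOf D A) = l) {φ : Gal2}
    (hφ : φ ∈ A.decompositionSubgroup ℚ) : D.InK φ := by
  rw [inK_iff]
  refine (map_root D φ).resolve_right fun hneg => root_not_mem hl hA hl2 ?_
  obtain ⟨n, hn⟩ := exists_sub_natCast_mem (primeOf_isMaximal hl hA) hl hn (gen D)
  have h2 : φ (root D - (n : ℚ̄)) ∈ A.nonunits := by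
    have := mem_primeOf.1 hn
    have h := GalCommon.map_mem_nonunits_iff (σ := φ) (A := A) (x := root D - (n : ℚ̄)) |>.2
      (by simpa [coe_gen] using this)
    rwa [MulAction.mem_stabilizer_iff.1 hφ] at h
  rw [map_sub, map_natCast, hneg] at h2
  have h3 : -gen D - (n : 𝓞 (field D)) ∈ primeOf D A := by
    rw [mem_primeOf]
    simpa [coe_gen] using h2
  have := (primeOf D A).sub_mem hn h3
  rwa [show gen D - (n : 𝓞 (field D)) - (-gen D - n) = gen D + gen D by ring] at this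

theorem absNorm_of_inK {A : ValuationSubring ℚ̄} {l : ℕ} (hl : l.Prime) (hA : A.LiesOverPrime l)
    {φ : Gal2} (hφ : A.IsFrobeniusAt φ l) (hK : D.InK φ) :
    Ideal.absNorm (primeOf D A) = l := by
  refine (absNorm_primeOf_cases hl hA).resolve_right fun h => ?_
  haveI := primeOf_isMaximal (D := D) hl hA
  have hc : Nat.card (𝓞 (field D) ⧸ primeOf D A) = l ^ 2 := h.1
  haveI : Finite (𝓞 (field D) ⧸ primeOf D A) :=
    Nat.finite_of_card_ne_zero (hc ▸ pow_ne_zero 2 hl.ne_zero)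
  letI := Ideal.Quotient.field (primeOf D A)
  have key : ∀ z : 𝓞 (field D) ⧸ primeOf D A, z ^ l = z := by
    intro z
    obtain ⟨y, rfl⟩ := Ideal.Quotient.mk_surjective z
    rw [← map_pow, eq_comm, Ideal.Quotient.eq, mem_primeOf]
    have := (GalCommon.isFrobeniusAt_iff.1 hφ).2 _
      (GalCommon.mem_of_isIntegral A (Density.isIntegral_coe (field D) y))
    rw [fixes_field D hK (SetLike.coe_mem _)] at this
    simpa using this
  letI := Fintype.ofFinite (𝓞 (field D) ⧸ primeOf D A)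
  classical
  open Polynomial in
  have hle := Finset.card_le_card (s := Finset.univ)
    (t := (X ^ l - X : (𝓞 (field D) ⧸ primeOf D A)[X]).roots.toFinset) (fun z _ => by
      rw [Multiset.mem_toFinset, mem_roots (FiniteField.X_pow_card_sub_X_ne_zero _ hl.one_lt)]
      simp [key z])
  rw [Finset.card_univ, ← Nat.card_eq_fintype_card, hc] at hle
  have := (hle.trans (Multiset.toFinset_card_le _)).trans
    ((Polynomial.card_roots' _).trans (FiniteField.X_pow_card_sub_X_natDegree_eq _ hl.one_lt).le)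
  nlinarith [hl.two_le]

theorem smul_primeOf_ne {A : ValuationSubring ℚ̄} {l : ℕ} (hl : l.Prime) (hA : A.LiesOverPrime l)
    (hl2 : ¬ l ∣ 2 * D.m) (hn : Ideal.absNorm (primeOf D A) = l) {τ : Gal2} (hτ : ¬ D.InK τ) :
    primeOf D (τ • A) ≠ primeOf D A := by
  intro e
  refine root_not_mem hl hA hl2 ?_
  obtain ⟨n, hn⟩ := exists_sub_natCast_mem (primeOf_isMaximal hl hA) hl hn (gen D)
  have h1 : τ (root D - (n : ℚ̄)) ∈ (τ • A).nonunits :=
    GalCommon.map_mem_nonunits_iff.2 (by simpa [coe_gen] using mem_primeOf.1 hn)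
  rw [map_sub, map_natCast, map_root_of_not D hτ] at h1
  have h2 : -gen D - (n : 𝓞 (field D)) ∈ primeOf D A := by
    rw [← e, mem_primeOf]
    simpa [coe_gen] using h1
  have := (primeOf D A).sub_mem hn h2
  rwa [show gen D - (n : 𝓞 (field D)) - (-gen D - n) = gen D + gen D by ring] at this

/-- A split prime: the two primes above it. -/
theorem split_spec {A : ValuationSubring ℚ̄} {l : ℕ} (hl : l.Prime) (hA : A.LiesOverPrime l)
    (hl2 : ¬ l ∣ 2 * D.m) (hn : Ideal.absNorm (primeOf D A) = l) {τ : Gal2} (hτ : ¬ D.InK τ) :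
    Ideal.absNorm (primeOf D (τ • A)) = l ∧
      Ideal.span {(l : 𝓞 (field D))} = primeOf D A * primeOf D (τ • A) := by
  have hA' : (τ • A).LiesOverPrime l := GalCommon.liesOverPrime_smul hA
  have hP := primeOf_isMaximal (D := D) hl hA
  have hQ := primeOf_isMaximal (D := D) hl hA'
  have hne := smul_primeOf_ne hl hA hl2 hn hτ
  have hdvd : primeOf D A * primeOf D (τ • A) ∣ Ideal.span {(l : 𝓞 (field D))} :=
    (Ideal.isCoprime_iff_sup_eq.2 (hP.coprime_of_ne hQ hne.symm)).mul_dvd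
      (Ideal.dvd_span_singleton.2 (natCast_mem_primeOf hA))
      (Ideal.dvd_span_singleton.2 (natCast_mem_primeOf hA'))
  obtain ⟨J, hJ⟩ := hdvd
  have hJn := congrArg Ideal.absNorm hJ
  rw [map_mul, map_mul, absNorm_natCast_span (finrank_field D), hn] at hJn
  have hQn : Ideal.absNorm (primeOf D (τ • A)) = l := by
    refine (absNorm_primeOf_cases hl hA').resolve_right fun h => ?_
    rw [h.1] at hJn
    have h2 : l ^ 2 * (l * Ideal.absNorm J) = l ^ 2 * 1 := by rw [mul_one]; linarith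
    exact hl.ne_one (Nat.eq_one_of_mul_eq_one_right
      (mul_left_cancel₀ (pow_ne_zero 2 hl.ne_zero) h2))
  refine ⟨hQn, ?_⟩
  rw [hQn] at hJn
  have hJ1 : Ideal.absNorm J = 1 := by
    refine mul_left_cancel₀ (pow_ne_zero 2 hl.ne_zero) ?_
    rw [mul_one, sq] ; linarith
  rw [hJ, Ideal.absNorm_eq_one_iff.1 hJ1, Ideal.mul_top]

/-- Every prime above a rational prime comes from a place. -/
theorem exists_place {l : ℕ} (hl : l.Prime) (hl2 : ¬ l ∣ 2 * D.m) {P : Ideal (𝓞 (field D))}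
    (hP : P.IsMaximal) (hlP : (l : 𝓞 (field D)) ∈ P) :
    ∃ A : ValuationSubring ℚ̄, A.LiesOverPrime l ∧ primeOf D A = P := by
  obtain ⟨A, hA⟩ := GalCommon.exists_liesOverPrime (ℓ := l) hl
  obtain ⟨τ, hτ⟩ := exists_not_inK D
  have hle : Ideal.span {(l : 𝓞 (field D))} ≤ P := (Ideal.span_singleton_le_iff_mem _).2 hlP
  rcases absNorm_primeOf_cases (D := D) hl hA with h | ⟨-, h⟩
  · rw [(split_spec hl hA hl2 h hτ).2] at hle
    rcases hP.isPrime.mul_le.1 hle with h' | h'
    · exact ⟨A, hA, (primeOf_isMaximal hl hA).eq_of_le hP.ne_top h'⟩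
    · exact ⟨τ • A, GalCommon.liesOverPrime_smul hA,
        (primeOf_isMaximal hl (GalCommon.liesOverPrime_smul hA)).eq_of_le hP.ne_top h'⟩
  · rw [h] at hle
    exact ⟨A, hA, (primeOf_isMaximal hl hA).eq_of_le hP.ne_top hle⟩

theorem exists_ramified {A : ValuationSubring ℚ̄} {v : ℕ} (hv : v.Prime) (hA : A.LiesOverPrime v)
    (hvN : v ∣ 2 * D.m) : Ideal.absNorm (primeOf D A) = v ∧
      Ideal.span {(v : 𝓞 (field D))} = primeOf D A * primeOf D A := by
  have hd := (dvd_discr_iff D hv).2 hvN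
  rcases prime_decomposition (finrank_field D) hv with ⟨P, hP, -, hLP⟩ | ⟨P, R, hP, hR, hPn, -, hLP⟩
  · exact absurd hd (not_dvd_discr_of_inert (finrank_field D) hv hP hLP)
  obtain rfl := (eq_of_dvd_discr_iff (finrank_field D) hv hP hR hPn hLP).1 hd
  have hle : Ideal.span {(v : 𝓞 (field D))} ≤ primeOf D A :=
    (Ideal.span_singleton_le_iff_mem _).2 (natCast_mem_primeOf hA)
  rw [hLP] at hle
  have e : P = primeOf D A := hP.eq_of_le (primeOf_isMaximal hv hA).ne_top
    ((primeOf_isMaximal hv hA).isPrime.mul_le.1 hle |>.elim id id)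
  exact e ▸ ⟨hPn, hLP⟩

/-! ### Theta coefficients -/

variable {B : Type} [CommRing B] (χ : ClassGroup (𝓞 (field D)) →* Bˣ)

/-- The class of the prime of a place. -/
def classOf (D : Setup) (A : ValuationSubring ℚ̄) : ClassGroup (𝓞 (field D)) :=
  idealClass (primeOf D A)

theorem ne_bot_of_absNorm {I : Ideal (𝓞 (field D))} {n : ℕ} (h : Ideal.absNorm I = n)
    (hn : n ≠ 0) : I ≠ ⊥ := fun e => hn (by rw [← h, e, Ideal.absNorm_bot])

theorem classOf_smul {A : ValuationSubring ℚ̄} {l : ℕ} (hl : l.Prime) (hA : A.LiesOverPrime l)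
    (hl2 : ¬ l ∣ 2 * D.m) (hn : Ideal.absNorm (primeOf D A) = l) {τ : Gal2} (hτ : ¬ D.InK τ) :
    classOf D (τ • A) = (classOf D A)⁻¹ := by
  obtain ⟨hQ, hprod⟩ := split_spec hl hA hl2 hn hτ
  refine eq_inv_of_mul_eq_one_right ?_
  rw [classOf, classOf, ← idealClass_mul (ne_bot_of_absNorm hn hl.ne_zero)
    (ne_bot_of_absNorm hQ hl.ne_zero), ← hprod, idealClass_principal]

theorem classOf_sq {A : ValuationSubring ℚ̄} {v : ℕ} (hv : v.Prime) (hA : A.LiesOverPrime v)
    (hvN : v ∣ 2 * D.m) : classOf D A ^ 2 = 1 := by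
  obtain ⟨hn, hprod⟩ := exists_ramified hv hA hvN
  rw [sq, classOf, ← idealClass_mul (ne_bot_of_absNorm hn hv.ne_zero)
    (ne_bot_of_absNorm hn hv.ne_zero), ← hprod, idealClass_principal]

theorem ringCoeff_of_inK {A : ValuationSubring ℚ̄} {l : ℕ} (hl : l.Prime) (hA : A.LiesOverPrime l)
    (hl2 : ¬ l ∣ 2 * D.m) {φ : Gal2} (hφ : A.IsFrobeniusAt φ l) (hK : D.InK φ) :
    ringCoeff χ l = (χ (classOf D A) : B) + ((χ (classOf D A))⁻¹ : Bˣ) := by
  have hn := absNorm_of_inK hl hA hφ hK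
  obtain ⟨τ, hτ⟩ := exists_not_inK D
  obtain ⟨hQ, hprod⟩ := split_spec hl hA hl2 hn hτ
  rw [(ringCoeff_split χ (finrank_field D) hl (primeOf_isMaximal hl hA)
    (primeOf_isMaximal hl (GalCommon.liesOverPrime_smul hA)) hn hQ hprod
    (smul_primeOf_ne hl hA hl2 hn hτ).symm).2.1, ← map_inv, ← classOf_smul hl hA hl2 hn hτ]
  rfl

theorem ringCoeff_of_not_inK {A : ValuationSubring ℚ̄} {l : ℕ} (hl : l.Prime)
    (hA : A.LiesOverPrime l) (hl2 : ¬ l ∣ 2 * D.m) {φ : Gal2} (hφ : A.IsFrobeniusAt φ l)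
    (hK : ¬ D.InK φ) : ringCoeff χ l = 0 := by
  obtain ⟨-, h⟩ := (absNorm_primeOf_cases (D := D) hl hA).resolve_left
    fun hn => hK (inK_of_absNorm hl hA hl2 hn hφ.mem_decompositionSubgroup)
  exact ringCoeff_inert_self χ (finrank_field D) hl (primeOf_isMaximal hl hA) h

theorem ringCoeff_of_dvd {A : ValuationSubring ℚ̄} {v : ℕ} (hv : v.Prime) (hA : A.LiesOverPrime v)
    (hvN : v ∣ 2 * D.m) : ringCoeff χ v = (χ (classOf D A) : B) := by
  obtain ⟨hn, hprod⟩ := exists_ramified hv hA hvN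
  obtain ⟨P, hP, -, hP2, hc⟩ :=
    (ringCoeff_ramified χ (finrank_field D) hv ((dvd_discr_iff D hv).2 hvN)).1
  have hle : P * P ≤ primeOf D A := by
    rw [← hP2]; exact (Ideal.span_singleton_le_iff_mem _).2 (natCast_mem_primeOf hA)
  rw [hc, hP.eq_of_le (primeOf_isMaximal hv hA).ne_top
    ((primeOf_isMaximal hv hA).isPrime.mul_le.1 hle |>.elim id id)]
  rfl

end FLTAgent.Mod2.Dih
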