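import Fermat.Agent.Mod2.Dihedral.Char2
import Fermat.Agent.Mod2.Dihedral.Cubic
import Fermat.Agent.Mod2.Theta
import Fermat.Agent.S29

/-!
# The residual eigensystem: `ρ̄` is the theta series of the cubic character

The residual representation of the eigenform congruent to the theta series has trace zero where
`ρ̄` has; a commutator identity makes its trace constant on the elements of order three, where it
is therefore `1`, as otherwise the cubic character would be trivial.

Main declarations: `exists_cubic_iff`.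
-/

set_option autoImplicit false
set_option linter.style.haveILetI false

noncomputable section

open NumberField Module Matrix
open scoped nonZeroDivisors

namespace FLTAgent.Mod2.Dih

local notation "ℚ̄" => AlgebraicClosure ℚ

variable {A : Type} [CommRing A]

/-- Factoring through a finite level. -/
def FinLevel {M : Type} [MulOneClass M] (r : Gal2 →* M) : Prop :=
  ∃ L : IntermediateField ℚ ℚ̄, FiniteDimensional ℚ L ∧ ∀ σ : Gal2, (∀ x ∈ L, σ x = x) → r σ = 1

theorem FinLevel.isOpen_ker {M : Type} [MulOneClass M] {r : Gal2 →* M} (h : FinLevel r) :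
    IsOpen (r.ker : Set Gal2) := by
  obtain ⟨L, hL, h⟩ := h
  exact Subgroup.isOpen_mono (fun σ hσ => MonoidHom.mem_ker.2
    (h σ fun x hx => (IntermediateField.mem_fixingSubgroup_iff L σ).1 hσ x hx))
    L.fixingSubgroup_isOpen

theorem eq_mul_of_pow {M : Type} [Monoid M] (r : Gal2 →* M) {g : Gal2} {k : ℕ} {U : Subgroup Gal2}
    [U.Normal] (hk : k.Coprime (orderOf (g : Gal2 ⧸ U))) (hU : U ≤ r.ker) :
    ∃ j : ℕ, r g = r (g ^ k) ^ j := by
  obtain ⟨j, hj⟩ := exists_pow_eq_self_of_coprime hk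
  refine ⟨j, ?_⟩
  rw [← QuotientGroup.mk_pow, ← QuotientGroup.mk_pow, QuotientGroup.eq] at hj
  have h1 := MonoidHom.mem_ker.1 (hU hj)
  conv_lhs => rw [show g = (g ^ k) ^ j * (((g ^ k) ^ j)⁻¹ * g) by group]
  rw [map_mul, h1, mul_one, map_pow]

variable (D : Setup)

/-- A representation whose Frobenius elements have trace zero where `ρ̄` has, has trace zero
where `ρ̄` has. -/
theorem trace_eq_zero_of_frobenius (h2 : (2 : A) = 0) (r : Gal2 →* Mat2 A) (hr : FinLevel r)
    (hd : ∀ σ, (r σ).det = 1) (S : Finset ℕ)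
    (hfrob : ∀ l : ℕ, l.Prime → l ∉ S → ∀ P : ValuationSubring ℚ̄, P.LiesOverPrime l →
      ∀ φ : Gal2, P.IsFrobeniusAt φ l → (D.rho φ).trace = 0 → (r φ).trace = 0)
    (σ : Gal2) : (D.rho σ).trace = 0 → (r σ).trace = 0 := by
  refine Density.forall_of_forall_isFrobeniusAt_coprime
    (P := fun g => (D.rho g).trace = 0 → (r g).trace = 0) (r.ker ⊓ D.rho.ker)
    (hr.isOpen_ker.inter (isOpen_ker_rho D)) S (fun g u hu h h0 => ?_) (fun g k hk h h0 => ?_)
    (fun l hl hS _ P hP φ hφ => hfrob l hl hS P hP φ hφ) σ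
  · rw [map_mul, MonoidHom.mem_ker.1 hu.2, mul_one] at h0
    rw [map_mul, MonoidHom.mem_ker.1 hu.1, mul_one]
    exact h h0
  · obtain ⟨j, hj⟩ := eq_mul_of_pow r hk inf_le_left
    refine Char2.trace_eq_zero_of_mul_self h2 (hd g) ?_
    have hz : (D.rho (g ^ k)).trace = 0 := by
      rw [mat_trace_zero _ (det_rho D _), map_pow, ← sq, ← pow_mul, mul_comm k 2, pow_mul, sq,
        (mat_trace_zero _ (det_rho D g)).1 h0, one_pow]
    rw [hj, ← sq, ← pow_mul, mul_comm, pow_mul, sq, Char2.mul_self_eq_one h2 (hd _) (h hz),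
      one_pow]

/-- In characteristic two a trace vanishing where that of `ρ̄` does is constant on the elements of
order three. -/
theorem trace_eq_of_order_three {k : Type} [Field k] (h2 : (2 : k) = 0) (r : Gal2 →* Mat2 k)
    (hd : ∀ σ, (r σ).det = 1) (h0 : ∀ σ, (D.rho σ).trace = 0 → (r σ).trace = 0) :
    ∃ t : k, (t = 0 ∨ t = 1) ∧ ∀ σ, D.InK σ → D.rho σ ≠ 1 → (r σ).trace = t := by
  have hker : ∀ σ, D.rho σ = 1 → (r σ).trace = 0 := fun σ h => h0 σ (by rw [h]; decide)
  have hmul : ∀ x u : Gal2, D.rho u = 1 → (r (x * u)).trace = (r x).trace := fun x u hu => by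
    have hc := hker (x * u * x⁻¹ * u⁻¹) (by
      have hu' : D.rho u⁻¹ = 1 := by
        calc D.rho u⁻¹ = D.rho u * D.rho u⁻¹ := by rw [hu, one_mul]
          _ = 1 := by rw [← map_mul, mul_inv_cancel, map_one]
      rw [map_mul, map_mul, map_mul, hu, hu', mul_one, mul_one, ← map_mul, mul_inv_cancel,
        map_one])
    rw [map_mul, map_mul, map_mul, Char2.map_inv_eq_adjugate r x (hd x),
      Char2.map_inv_eq_adjugate r u (hd u), Char2.trace_commutator, hker u hu, hd, hd] at hc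
    rw [map_mul]
    refine sub_eq_zero.1 (mul_self_eq_zero.1 ?_)
    linear_combination hc + (1 - (r x).trace * (r x * r u).trace) * h2
  obtain ⟨x, hxK, hx⟩ := exists_order_three D
  set t := (r x).trace with ht
  have hsq : (r (x * x)).trace = t ^ 2 := by
    rw [map_mul, Char2.mul_self_of_det h2 (hd x), Matrix.trace_add, Matrix.trace_smul,
      Matrix.trace_one, Fintype.card_fin, Nat.cast_ofNat, h2, add_zero, smul_eq_mul, ← ht, sq]
  have hcube : (r (x * x * x)).trace = t * (t + 1) ^ 2 := by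
    rw [map_mul, map_mul, Char2.mul_self_of_det h2 (hd x), add_mul, one_mul, smul_mul_assoc,
      Char2.mul_self_of_det h2 (hd x), Matrix.trace_add, Matrix.trace_smul, Matrix.trace_add,
      Matrix.trace_smul, Matrix.trace_one, Fintype.card_fin, Nat.cast_ofNat, smul_eq_mul,
      smul_eq_mul, ← ht]
    linear_combination (t - t ^ 2) * h2
  have h01 : t = 0 ∨ t = 1 := by
    have h := hker (x * x * x) (by rw [map_mul, map_mul, ← pow_two, ← pow_succ]; exact hxK)
    rw [hcube] at h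
    rcases mul_eq_zero.1 h with h | h
    · exact Or.inl h
    · exact Or.inr (by linear_combination (pow_eq_zero_iff two_ne_zero).1 h - h2)
  refine ⟨t, h01, fun σ hσK hσ => ?_⟩
  rcases mat_order_three _ _ (det_rho D x) (det_rho D σ) hxK hx hσK with h | h | h
  · exact absurd h hσ
  · have e := hmul x (x⁻¹ * σ) (by rw [map_mul, h, ← map_mul, inv_mul_cancel, map_one])
    rwa [mul_inv_cancel_left] at e
  · have e := hmul (x * x) ((x * x)⁻¹ * σ) (by
      rw [map_mul, h, ← map_mul D.rho x x, ← map_mul, inv_mul_cancel, map_one])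
    rw [mul_inv_cancel_left, hsq] at e
    rcases h01 with h' | h' <;> rw [e, h'] <;> simp

theorem thetaCoeff_eq_ringCoeff {K : Type} [Field K] [NumberField K]
    (ψ : ClassGroup (𝓞 K) →* ℂˣ) (n : ℕ) : thetaCoeff ψ n = ringCoeff ψ n := by
  rcases eq_or_ne n 0 with rfl | hn
  · rw [thetaCoeff_zero, ringCoeff_zero]
  · rw [thetaCoeff_eq_sum _ hn, ringCoeff_eq _ hn]
    rfl

theorem cube_root_add_inv {z : ℂˣ} (hz : z ^ 3 = 1) (h1 : z ≠ 1) :
    (z : ℂ) + ((z⁻¹ : ℂˣ) : ℂ) = -1 := by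
  have h : ((z : ℂ) - 1) * ((z : ℂ) ^ 2 + z + 1) = 0 := by
    have : (z : ℂ) ^ 3 = 1 := by rw [← Units.val_pow_eq_pow_val, hz, Units.val_one]
    linear_combination this
  rcases mul_eq_zero.1 h with h | h
  · exact absurd (Units.ext (sub_eq_zero.1 h)) h1
  · rw [show z⁻¹ = z ^ 2 from inv_eq_of_mul_eq_one_right (by rw [← pow_succ', hz]),
      Units.val_pow_eq_pow_val]
    linear_combination h

/-- A character trivial on the classes of the split primes prime to `2m` is trivial. -/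
theorem character_eq_one {M : Type} [CommMonoid M] (ψ : ClassGroup (𝓞 (field D)) →* M)
    (hsplit : ∀ (l : ℕ) (P : ValuationSubring ℚ̄), l.Prime → ¬ l ∣ 2 * D.m → P.LiesOverPrime l →
      Ideal.absNorm (primeOf D P) = l → ψ (classOf D P) = 1) : ψ = 1 := by
  refine MonoidHom.ext fun C => ?_
  obtain ⟨⟨e, he⟩, rfl, hcop⟩ := exists_rep_coprime (finrank_field D) (2 * D.m) C
  have key : ∀ I : Ideal (𝓞 (field D)), I ≠ ⊥ → (Ideal.absNorm I).Coprime (2 * D.m) →
      ψ (idealClass I) = 1 := by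
    intro I
    induction I using UniqueFactorizationMonoid.induction_on_prime with
    | h₁ => exact fun h => absurd rfl h
    | h₂ I hI =>
      intro _ _
      rw [Ideal.isUnit_iff.1 hI, ← Ideal.span_singleton_one, idealClass_principal, map_one]
    | h₃ I P hI hP ih =>
      intro hIP hc
      rw [map_mul] at hc
      have hP0 : P ≠ ⊥ := hP.ne_zero
      rw [idealClass_mul hP0 hI, map_mul, ih hI (Nat.Coprime.coprime_mul_left hc), mul_one]
      haveI hPmax : P.IsMaximal := (Ideal.isPrime_of_prime hP).isMaximal hP0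
      obtain ⟨l, i, hl, hi, hli⟩ := (isPrimePow_nat_iff _).1
        (show IsPrimePow (Ideal.absNorm P) by
          haveI : Finite (𝓞 (field D) ⧸ P) := Ring.HasFiniteQuotients.finiteQuotient hP0
          letI := Fintype.ofFinite (𝓞 (field D) ⧸ P)
          letI := Ideal.Quotient.field P
          show IsPrimePow (Nat.card (𝓞 (field D) ⧸ P))
          rw [Nat.card_eq_fintype_card]
          exact FiniteField.isPrimePow_card _)
      have hlP : (l : 𝓞 (field D)) ∈ P := by
        refine hPmax.isPrime.mem_of_pow_mem i ?_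
        rw [← Nat.cast_pow, hli]
        exact Ideal.absNorm_mem P
      have hlc : ¬ l ∣ 2 * D.m := fun h =>
        hl.ne_one (Nat.eq_one_of_dvd_coprimes (Nat.Coprime.coprime_mul_right hc)
          ((dvd_pow_self l hi.ne').trans hli.dvd) h)
      obtain ⟨A', hA', hA'P⟩ := exists_place hl hlc hPmax hlP
      rcases absNorm_primeOf_cases (D := D) hl hA' with h | ⟨-, h⟩
      · rw [← hA'P]; exact hsplit l A' hl hlc hA' h
      · rw [← hA'P, ← h, idealClass_principal, map_one]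
  rw [← idealClass_mk0 ⟨e, he⟩, MonoidHom.one_apply]
  exact key e (nonZeroDivisors.ne_zero he) hcop

/-- The cubic character matches `ρ̄` prime by prime. -/
theorem exists_cubic_iff :
    ∃ ψ : ClassGroup (𝓞 (field D)) →* ℂˣ, ψ ^ 3 = 1 ∧ ψ ≠ 1 ∧
      ∀ (l : ℕ) (A : ValuationSubring ℚ̄), l.Prime → ¬ l ∣ 2 * D.m → A.LiesOverPrime l →
        ∀ φ : Gal2, A.IsFrobeniusAt φ l → D.InK φ → (ψ (classOf D A) = 1 ↔ D.rho φ = 1) := by
  obtain ⟨ψ, h3, h1, hL⟩ := exists_cubic D
  refine ⟨ψ, h3, h1, fun l P hl hl2 hP φ hφ hK => ⟨fun hψ1 => ?_, hL l P hl hl2 hP φ hφ⟩⟩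
  obtain ⟨g, hg, 𝔪, hmax, h2m, hcong, -⟩ :=
    exists_eigenform_congr_theta (finrank_field D) (discr_neg D) (two_dvd_discr D) ψ h3 h1
  haveI := hmax
  letI := Ideal.Quotient.field 𝔪
  let k : Type := integralClosure ℤ ℂ ⧸ 𝔪
  haveI : Fact (Nat.Prime 2) := ⟨Nat.prime_two⟩
  haveI : CharP (integralClosure ℤ ℂ ⧸ 𝔪) 2 := by
    refine (CharP.charP_iff_prime_eq_zero Nat.prime_two).2 ?_
    rw [← map_natCast (Ideal.Quotient.mk 𝔪), Ideal.Quotient.eq_zero_iff_mem]
    exact h2m
  have h2 : (2 : integralClosure ℤ ℂ ⧸ 𝔪) = 0 := CharTwo.two_eq_zero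
  obtain ⟨ρ, hatt, -⟩ := Fermat.Agent.S29.result hg Nat.prime_two (Ideal.Quotient.mk 𝔪)
  let b := Module.finBasisOfFinrankEq (integralClosure ℤ ℂ ⧸ 𝔪) ρ.V ρ.finrank_eq
  let r : Gal2 →* Mat2 (integralClosure ℤ ℂ ⧸ 𝔪) :=
    (LinearMap.toMatrixAlgEquiv b).toMonoidHom.comp ρ.ρ
  have hr : FinLevel r := by
    obtain ⟨L, hL', h⟩ := ρ.factorsThroughFiniteLevel
    exact ⟨L, hL', fun σ hσ => by simp [r, h σ hσ]⟩
  have hatt' : ∀ (l' : ℕ), l'.Prime → ¬ l' ∣ 2 * D.m → ∀ P' : ValuationSubring ℚ̄,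
      P'.LiesOverPrime l' → ∀ φ' : Gal2, P'.IsFrobeniusAt φ' l' → ∀ a : ℤ,
        (a : ℂ) = ringCoeff ψ l' →
          (r φ').trace = (a : integralClosure ℤ ℂ ⧸ 𝔪) ∧ (r φ').det = 1 := by
    intro l' hl' hl'2 P' hP' φ' hφ' a ha
    have hodd : Odd l' := hl'.odd_of_ne_two fun e => hl'2 (e ▸ dvd_mul_right _ _)
    have hl1 : (l' : integralClosure ℤ ℂ ⧸ 𝔪) = 1 := by
      obtain ⟨j, rfl⟩ := hodd
      push_cast
      rw [h2, zero_mul, zero_add]
    obtain ⟨c, hc, hcp⟩ := hatt l' hl' (by rwa [oddPart_discr]) (by rw [hl1]; exact one_ne_zero)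
      P' hP' φ' hφ'
    obtain ⟨c', a', hc', ha', hca⟩ := hcong l' hl'
    have hcc : c = c' := Subtype.ext (hc.trans hc'.symm)
    have haa : a' = a := Int.cast_injective (α := ℂ) (by rw [ha', ha, thetaCoeff_eq_ringCoeff])
    subst hcc haa
    rw [← sub_eq_zero.1 ((map_sub _ _ _).symm.trans (Ideal.Quotient.eq_zero_iff_mem.2 hca)) |>.trans
      (map_intCast (Ideal.Quotient.mk 𝔪) a')]
    rw [← LinearMap.charpoly_toMatrix (ρ.ρ φ') b, Matrix.charpoly_fin_two] at hcp
    have e1 := congrArg (fun p => Polynomial.coeff p 1) hcp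
    have e0 := congrArg (fun p => Polynomial.coeff p 0) hcp
    simp [Polynomial.coeff_X_pow] at e1 e0
    refine ⟨?_, ?_⟩
    · rw [show (r φ') = LinearMap.toMatrix b b (ρ.ρ φ') from rfl]
      exact e1
    · rw [show (r φ') = LinearMap.toMatrix b b (ρ.ρ φ') from rfl, LinearMap.det_toMatrix, e0, hl1]
  have hint : ∀ (l' : ℕ) (P' : ValuationSubring ℚ̄), l'.Prime → ¬ l' ∣ 2 * D.m →
      P'.LiesOverPrime l' → ∀ φ' : Gal2, P'.IsFrobeniusAt φ' l' →
        (r φ').det = 1 ∧ (¬ D.InK φ' → (r φ').trace = 0) ∧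
        (D.InK φ' → (ψ (classOf D P') = 1 → (r φ').trace = 0) ∧
          (ψ (classOf D P') ≠ 1 → (r φ').trace = 1)) := by
    intro l' P' hl' hl'2 hP' φ' hφ'
    by_cases hK' : D.InK φ'
    · have hc := ringCoeff_of_inK ψ hl' hP' hl'2 hφ' hK'
      by_cases hone : ψ (classOf D P') = 1
      · obtain ⟨ht, hdet⟩ := hatt' l' hl' hl'2 P' hP' φ' hφ' 2
          (by rw [hc, hone]; norm_num)
        refine ⟨hdet, fun h => absurd hK' h, fun _ => ⟨fun _ => ?_, fun h => absurd hone h⟩⟩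
        rw [ht, Int.cast_ofNat, h2]
      · obtain ⟨ht, hdet⟩ := hatt' l' hl' hl'2 P' hP' φ' hφ' (-1) (by
          rw [hc, cube_root_add_inv (by rw [← MonoidHom.pow_apply, h3, MonoidHom.one_apply]) hone]
          norm_num)
        refine ⟨hdet, fun h => absurd hK' h, fun _ => ⟨fun h => absurd h hone, fun _ => ?_⟩⟩
        rw [ht, Int.cast_neg, Int.cast_one, Char2.neg_self h2]
    · obtain ⟨ht, hdet⟩ := hatt' l' hl' hl'2 P' hP' φ' hφ' 0
        (by rw [ringCoeff_of_not_inK ψ hl' hP' hl'2 hφ' hK', Int.cast_zero])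
      exact ⟨hdet, fun _ => by rw [ht, Int.cast_zero], fun h => absurd h hK'⟩
  let S : Finset ℕ := (2 * D.m).primeFactors
  have hS : ∀ l' : ℕ, l'.Prime → l' ∉ S → ¬ l' ∣ 2 * D.m := fun l' hl' h hd =>
    h (Nat.mem_primeFactors.2 ⟨hl', hd, NeZero.ne _⟩)
  have hd : ∀ σ, (r σ).det = 1 := fun σ =>
    Density.forall_of_forall_isFrobeniusAt (P := fun x => (r x).det = 1) r.ker hr.isOpen_ker S
      (fun x u hu h => by rw [map_mul, MonoidHom.mem_ker.1 hu, mul_one, h])
      (fun x j h => by rw [map_pow, Matrix.det_pow, h, one_pow])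
      (fun l' hl' h P' hP' φ' hφ' => (hint l' P' hl' (hS l' hl' h) hP' φ' hφ').1) σ
  have h0 := trace_eq_zero_of_frobenius D h2 r hr hd S fun l' hl' h P' hP' φ' hφ' htr => by
    obtain ⟨-, hout, hin⟩ := hint l' P' hl' (hS l' hl' h) hP' φ' hφ'
    by_cases hK' : D.InK φ'
    · refine (hin hK').1 (hL l' P' hl' (hS l' hl' h) hP' φ' hφ'
        (mat_eq_one _ hK' ((mat_trace_zero _ (det_rho D _)).1 htr)))
    · exact hout hK'
  obtain ⟨t, ht01, ht⟩ := trace_eq_of_order_three D h2 r hd h0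
  by_contra hne
  have ht0 : t = 0 := by
    rw [← ht φ hK hne]
    exact ((hint l P hl hl2 hP φ hφ).2.2 hK).1 hψ1
  refine h1 (character_eq_one D ψ fun l' P' hl' hl'2 hP' hn' => ?_)
  obtain ⟨φ', hφ'⟩ := GalCommon.exists_isFrobeniusAt hl' hP'
  have hK' := inK_of_absNorm hl' hP' hl'2 hn' hφ'.mem_decompositionSubgroup
  by_contra hne'
  have e := ((hint l' P' hl' hl'2 hP' φ' hφ').2.2 hK').2 hne'
  by_cases h1' : D.rho φ' = 1
  · exact hne' (hL l' P' hl' hl'2 hP' φ' hφ' h1')
  · rw [ht φ' hK' h1', ht0] at e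
    exact zero_ne_one e

end FLTAgent.Mod2.Dih
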