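import Fermat.Agent.Mod2.Dihedral.Eigensystem

/-!
# The universal dihedral system with values in `F₄[Cl₂]`

The theta series with values in the group algebra of the `2`-part of the class group lifts to the
localised Hecke algebra; the resulting representation is dihedral and its character on `G_K` gives
a map `π : G_K → Cl₂` sending Frobenius elements to the classes of their primes.

Main declarations: `Universal`, `nonempty_universal`.
-/

set_option autoImplicit false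
set_option linter.style.haveILetI false
set_option linter.unusedSectionVars false

noncomputable section

open NumberField Module Matrix
open scoped nonZeroDivisors

namespace FLTAgent.Mod2.Dih

local notation "ℚ̄" => AlgebraicClosure ℚ

/-- A universal dihedral system of level `2m`. -/
structure Universal (D : Setup) : Type 1 where
  /-- the `2`-group -/
  G : Type
  [instGroup : CommGroup G]
  [instFinite : Finite G]
  /-- an exponent -/
  k : ℕ
  pow_eq_one : ∀ g : G, g ^ 2 ^ k = 1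
  /-- the projection from the class group -/
  toG : ClassGroup (𝓞 (field D)) →* G
  toG_inj : ∀ c, c ^ 2 = 1 → toG c = 1 → c = 1
  /-- the residual character -/
  ξ : kgrp D →* Char2.Fourˣ
  /-- the `2`-power character -/
  π : kgrp D →* G
  cont : ∃ L : IntermediateField ℚ ℚ̄, FiniteDimensional ℚ L ∧
    ∀ σ : kgrp D, (∀ x ∈ L, (σ : Gal2) x = x) → ξ σ = 1 ∧ π σ = 1
  unram : ∀ q : ℕ, q.Prime → ∀ A : ValuationSubring ℚ̄, A.LiesOverPrime q → ∀ σ : kgrp D,
    (σ : Gal2) ∈ A.inertiaSubgroupIn ℚ → ξ σ = 1 ∧ π σ = 1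
  anti : ∀ c : Gal2, ¬ D.InK c → ∀ σ τ : kgrp D, (τ : Gal2) = c * σ * c⁻¹ →
    ξ τ = (ξ σ)⁻¹ ∧ π τ = (π σ)⁻¹
  ξ_eq_one : ∀ σ : kgrp D, ξ σ = 1 ↔ D.rho σ = 1
  frob : ∀ v : ℕ, v.Prime → v ∣ 2 * D.m → ∀ A : ValuationSubring ℚ̄, A.LiesOverPrime v →
    ∀ φ : kgrp D, A.IsFrobeniusAt (φ : Gal2) v → ξ φ = 1 ∧ π φ = toG (classOf D A)
  /-- the eigensystem -/
  f : Hecke2 D →+* MonoidAlgebra Char2.Four G
  f_T_in : ∀ (l : ℕ) (hl : l.Prime) (hlN : ¬ l ∣ 2 * D.m) (A : ValuationSubring ℚ̄),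
    A.LiesOverPrime l → ∀ φ : kgrp D, A.IsFrobeniusAt (φ : Gal2) l →
      f (CuspForm.heckeAlgebra.T hl hlN (Set.notMem_empty l)) =
        MonoidAlgebra.single (π φ) (ξ φ : Char2.Four) +
          MonoidAlgebra.single (π φ)⁻¹ (((ξ φ)⁻¹ : Char2.Fourˣ) : Char2.Four)
  f_T_out : ∀ (l : ℕ) (hl : l.Prime) (hlN : ¬ l ∣ 2 * D.m) (A : ValuationSubring ℚ̄),
    A.LiesOverPrime l → ∀ φ : Gal2, A.IsFrobeniusAt φ l → ¬ D.InK φ →
      f (CuspForm.heckeAlgebra.T hl hlN (Set.notMem_empty l)) = 0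
  f_U : ∀ (v : ℕ) (hv : v.Prime) (hvN : v ∣ 2 * D.m) (A : ValuationSubring ℚ̄),
    A.LiesOverPrime v → ∀ φ : kgrp D, A.IsFrobeniusAt (φ : Gal2) v →
      f (CuspForm.heckeAlgebra.U hv hvN (Set.notMem_empty v)) =
        MonoidAlgebra.single (π φ) 1

attribute [instance] Universal.instGroup Universal.instFinite

theorem exists_inertia_not_inK (D : Setup) {v : ℕ} (hv : v.Prime) (hvN : v ∣ 2 * D.m)
    {A : ValuationSubring ℚ̄} (hA : A.LiesOverPrime v) :
    ∃ τ ∈ A.inertiaSubgroupIn ℚ, ¬ D.InK τ := by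
  obtain ⟨hsq, τ, hτ, hne⟩ := D.ram v hv hvN A hA
  exact ⟨τ, hτ, fun h => hne (mat_eq_one _ h (hsq τ hτ))⟩

/-- A Frobenius element in `G_K` at a ramified place. -/
theorem exists_frobenius_inK (D : Setup) {v : ℕ} (hv : v.Prime) (hvN : v ∣ 2 * D.m)
    {A : ValuationSubring ℚ̄} (hA : A.LiesOverPrime v) :
    ∃ φ : kgrp D, A.IsFrobeniusAt (φ : Gal2) v := by
  obtain ⟨φ, hφ⟩ := GalCommon.exists_isFrobeniusAt hv hA
  by_cases hK : D.InK φ
  · exact ⟨⟨φ, hK⟩, hφ⟩
  · obtain ⟨τ, hτ, hτK⟩ := exists_inertia_not_inK D hv hvN hA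
    exact ⟨⟨φ * τ, inK_mul_of_not D hK hτK⟩, GalCommon.isFrobeniusAt_mul_inertia hφ hτ⟩

section Rep

variable (D : Setup) {G : Type} [CommGroup G] [Finite G] {k : ℕ} (hG : ∀ g : G, g ^ 2 ^ k = 1)

theorem two_groupAlgebra : (2 : (MonoidAlgebra Char2.Four G)) = 0 := by
  rw [← map_ofNat (algebraMap Char2.Four (MonoidAlgebra Char2.Four G)) 2, Char2.two_four, map_zero]

/-- Monomials as units. -/
def mono : Char2.Fourˣ × G →* (MonoidAlgebra Char2.Four G)ˣ :=
  MonoidHom.toHomUnits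
    { toFun := fun p => MonoidAlgebra.single p.2 (p.1 : Char2.Four)
      map_one' := rfl
      map_mul' := fun p q => by rw [MonoidAlgebra.single_mul_single, Prod.fst_mul, Prod.snd_mul,
        Units.val_mul] }

theorem val_mono (p : Char2.Fourˣ × G) :
    ((mono p : (MonoidAlgebra Char2.Four G)ˣ) : (MonoidAlgebra Char2.Four G)) = MonoidAlgebra.single p.2 (p.1 : Char2.Four) := rfl

theorem aug_mono (p : Char2.Fourˣ × G) :
    Char2.aug Char2.Four G ((mono p : (MonoidAlgebra Char2.Four G)ˣ) : (MonoidAlgebra Char2.Four G)) = p.1 := by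
  rw [val_mono, ← MonoidAlgebra.smul_of, map_smul, Char2.aug_of, smul_eq_mul, mul_one]

theorem mono_injective : Function.Injective (mono : Char2.Fourˣ × G →* (MonoidAlgebra Char2.Four G)ˣ) := by
  intro p q h
  have h' : MonoidAlgebra.single p.2 (p.1 : Char2.Four) =
      MonoidAlgebra.single q.2 (q.1 : Char2.Four) := congrArg Units.val h
  have h2 : p.1 = q.1 := Units.ext (by rw [← aug_mono p, ← aug_mono q, h])
  rw [← h2] at h'
  exact Prod.ext h2 (MonoidAlgebra.single_left_injective p.1.ne_zero h')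

variable {D}

theorem mem_range_mono_of_root {χ p : (MonoidAlgebra Char2.Four G)ˣ} (hG : ∀ g : G, g ^ 2 ^ k = 1)
    (hp : p ∈ (mono : Char2.Fourˣ × G →* (MonoidAlgebra Char2.Four G)ˣ).range)
    (h3 : Char2.aug Char2.Four G (p : (MonoidAlgebra Char2.Four G)) ≠ Char2.aug Char2.Four G ((p⁻¹ : (MonoidAlgebra Char2.Four G)ˣ) : (MonoidAlgebra Char2.Four G)))
    (h : (χ : (MonoidAlgebra Char2.Four G)) + ((χ⁻¹ : (MonoidAlgebra Char2.Four G)ˣ) : (MonoidAlgebra Char2.Four G)) = (p : (MonoidAlgebra Char2.Four G)) + ((p⁻¹ : (MonoidAlgebra Char2.Four G)ˣ) : (MonoidAlgebra Char2.Four G))) :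
    χ = p ∨ χ = p⁻¹ := by
  have h2 := two_groupAlgebra (G := G)
  have hprod : ((χ : (MonoidAlgebra Char2.Four G)) - (p : (MonoidAlgebra Char2.Four G))) * ((χ : (MonoidAlgebra Char2.Four G)) - ((p⁻¹ : (MonoidAlgebra Char2.Four G)ˣ) : (MonoidAlgebra Char2.Four G))) = 0 := by
    linear_combination (χ : (MonoidAlgebra Char2.Four G)) * h + Units.mul_inv p - Units.mul_inv χ
  by_cases hu : IsUnit ((χ : (MonoidAlgebra Char2.Four G)) - (p : (MonoidAlgebra Char2.Four G)))
  · exact Or.inr (Units.ext (sub_eq_zero.1 (hu.mul_right_eq_zero.1 hprod)))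
  · refine Or.inl (Units.ext (sub_eq_zero.1 (IsUnit.mul_left_eq_zero ?_ |>.1 hprod)))
    rw [Char2.isUnit_iff_aug Char2.two_four hG, not_not, map_sub, sub_eq_zero] at hu
    rw [Char2.isUnit_iff_aug Char2.two_four hG, map_sub, sub_ne_zero, hu]
    exact h3

variable (D) in
/-- The hypotheses on a representation of `G_ℚ` over the group algebra. -/
structure DihRep (φA : ClassGroup (𝓞 (field D)) →* (MonoidAlgebra Char2.Four G)ˣ) (r : Gal2 →* Mat2 (MonoidAlgebra Char2.Four G)) : Prop where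
  fin : FinLevel r
  det : ∀ σ, (r σ).det = 1
  residual : ∀ σ, Char2.aug Char2.Four G (r σ).trace = AdjoinRoot.of Char2.fourPoly (D.rho σ).trace
  frob : ∀ (l : ℕ), l.Prime → ¬ l ∣ 2 * D.m → ∀ A : ValuationSubring ℚ̄, A.LiesOverPrime l →
    ∀ φ : Gal2, A.IsFrobeniusAt φ l → (r φ).trace = ringCoeff φA l
  unram : ∀ q : ℕ, q.Prime → ¬ q ∣ 2 * D.m → ∀ A : ValuationSubring ℚ̄, A.LiesOverPrime q →
    ∀ σ ∈ A.inertiaSubgroupIn ℚ, r σ = 1
  inertia : ∀ v : ℕ, v.Prime → v ∣ 2 * D.m → ∀ A : ValuationSubring ℚ̄, A.LiesOverPrime v →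
    ∀ σ ∈ A.inertiaSubgroupIn ℚ, ∀ τ ∈ A.inertiaSubgroupIn ℚ, (r σ - 1) * (r τ - 1) = 0
  line : ∀ v : ℕ, v.Prime → v ∣ 2 * D.m → ∀ A : ValuationSubring ℚ̄, A.LiesOverPrime v →
    ∀ σ ∈ A.inertiaSubgroupIn ℚ, ∀ φ : Gal2, A.IsFrobeniusAt φ v →
      (r φ - ringCoeff φA v • 1) * (r σ - 1) = 0

variable {φA : ClassGroup (𝓞 (field D)) →* (MonoidAlgebra Char2.Four G)ˣ} {r : Gal2 →* Mat2 (MonoidAlgebra Char2.Four G)}

theorem DihRep.trace_not_inK (hr : DihRep D φA r) {σ : Gal2} (hσ : ¬ D.InK σ) :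
    (r σ).trace = 0 ∧ r σ * r σ = 1 := by
  have h : ∀ x : Gal2, ¬ D.InK x → (r x).trace = 0 := by
    intro x
    refine Density.forall_of_forall_isFrobeniusAt_coprime
      (P := fun g => ¬ D.InK g → (r g).trace = 0) (r.ker ⊓ D.rho.ker)
      (hr.fin.isOpen_ker.inter (isOpen_ker_rho D)) (2 * D.m).primeFactors
      (fun g u hu h h0 => ?_) (fun g j hj h h0 => ?_)
      (fun l hl hS _ A hA φ hφ hK => ?_) x
    · rw [map_mul, MonoidHom.mem_ker.1 hu.1, mul_one]
      refine h fun hg => h0 ((kgrp D).mul_mem hg ?_)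
      show D.rho u ^ 3 = 1
      rw [MonoidHom.mem_ker.1 hu.2, one_pow]
    · obtain ⟨i, hi⟩ := eq_mul_of_pow D.rho hj inf_le_right
      obtain ⟨i', hi'⟩ := eq_mul_of_pow r hj inf_le_left
      have hk : ¬ D.InK (g ^ j) := fun hgj => h0 (by
        show D.rho g ^ 3 = 1
        rw [hi, ← pow_mul, mul_comm, pow_mul, hgj, one_pow])
      refine Char2.trace_eq_zero_of_mul_self (two_groupAlgebra) (hr.det g) ?_
      rw [hi', ← sq, ← pow_mul, mul_comm, pow_mul, sq,
        Char2.mul_self_eq_one two_groupAlgebra (hr.det _) (h hk), one_pow]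
    · have hl2 : ¬ l ∣ 2 * D.m := fun hd => hS (Nat.mem_primeFactors.2 ⟨hl, hd, NeZero.ne _⟩)
      rw [hr.frob l hl hl2 A hA φ hφ, ringCoeff_of_not_inK φA hl hA hl2 hφ hK]
  exact ⟨h σ hσ, Char2.mul_self_eq_one two_groupAlgebra (hr.det σ) (h σ hσ)⟩

theorem DihRep.conj_eq (hr : DihRep D φA r) {c h : Gal2} (hc : ¬ D.InK c) (hh : D.InK h) :
    r c * r h * r c = r h⁻¹ ∧ r c⁻¹ = r c := by
  have hch : ¬ D.InK (c * h) := fun hK => hc (by
    have := (kgrp D).mul_mem hK ((kgrp D).inv_mem hh)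
    rwa [mem_kgrp, mul_inv_cancel_right] at this)
  have h1 := (hr.trace_not_inK hch).2
  rw [map_mul] at h1
  refine ⟨?_, ?_⟩
  · calc r c * r h * r c = r c * r h * r c * (r h * r h⁻¹) := by
          rw [← map_mul r h h⁻¹, mul_inv_cancel, map_one, mul_one]
      _ = r h⁻¹ := by rw [← mul_assoc, mul_assoc (r c * r h), h1, one_mul]
  · calc r c⁻¹ = r c⁻¹ * (r c * r c) := by rw [(hr.trace_not_inK hc).2, mul_one]
      _ = r c := by rw [← mul_assoc, ← map_mul, inv_mul_cancel, map_one, one_mul]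

theorem DihRep.commute (hr : DihRep D φA r) {a b : Gal2} (ha : D.InK a) (hb : D.InK b) :
    r a * r b = r b * r a := by
  obtain ⟨c, hc⟩ := exists_not_inK D
  obtain ⟨ea, -⟩ := hr.conj_eq hc ((kgrp D).inv_mem ha)
  obtain ⟨eb, -⟩ := hr.conj_eq hc ((kgrp D).inv_mem hb)
  obtain ⟨eab, -⟩ := hr.conj_eq hc ((kgrp D).mul_mem ((kgrp D).inv_mem ha) ((kgrp D).inv_mem hb))
  have hcc := (hr.trace_not_inK hc).2
  rw [inv_inv] at ea eb
  rw [_root_.mul_inv_rev, inv_inv, inv_inv, map_mul, map_mul] at eab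
  calc r a * r b = r c * r a⁻¹ * r c * (r c * r b⁻¹ * r c) := by rw [ea, eb]
    _ = r c * r a⁻¹ * (r c * r c) * r b⁻¹ * r c := by simp only [mul_assoc]
    _ = r b * r a := by rw [hcc, mul_one, mul_assoc (r c) (r a⁻¹), eab]

/-- The character of `G_K` cut out by the projection, with its properties. -/
theorem DihRep.exists_char (hr : DihRep D φA r) (hG : ∀ g : G, g ^ 2 ^ k = 1) :
    ∃ χ : kgrp D →* (MonoidAlgebra Char2.Four G)ˣ,
      (∀ σ : kgrp D, (χ σ : (MonoidAlgebra Char2.Four G)) + (((χ σ)⁻¹ : (MonoidAlgebra Char2.Four G)ˣ) : (MonoidAlgebra Char2.Four G)) = (r σ).trace) ∧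
      (∀ σ τ : kgrp D, r (σ : Gal2) = r (τ : Gal2) → χ σ = χ τ) ∧
      (∀ c : Gal2, ¬ D.InK c → ∀ σ τ : kgrp D, (τ : Gal2) = c * σ * c⁻¹ → χ τ = (χ σ)⁻¹) ∧
      (∀ q : ℕ, q.Prime → ∀ A : ValuationSubring ℚ̄, A.LiesOverPrime q → ∀ σ : kgrp D,
        (σ : Gal2) ∈ A.inertiaSubgroupIn ℚ → χ σ = 1) ∧
      ∀ v : ℕ, v.Prime → v ∣ 2 * D.m → ∀ A : ValuationSubring ℚ̄, A.LiesOverPrime v →
        ∀ φ : kgrp D, A.IsFrobeniusAt (φ : Gal2) v → (χ φ : (MonoidAlgebra Char2.Four G)) = ringCoeff φA v := by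
  have h2 := two_groupAlgebra (G := G)
  obtain ⟨h0, h0K, h0ne⟩ := exists_order_three D
  set M := r h0 with hM
  have haug : Char2.aug Char2.Four G M.trace = 1 := by
    rw [hM, hr.residual, mat_trace_one _ (det_rho D h0) h0K h0ne, map_one]
  obtain ⟨w, hw⟩ : ∃ w, M.trace * w = 1 :=
    ((Char2.isUnit_iff_aug Char2.two_four hG _).2 (by rw [haug]; exact one_ne_zero)).exists_right_inv
  obtain ⟨e, he, -⟩ := Char2.exists_artinSchreier h2 (ε := w ^ 2 + 1)
    ((Char2.isNilpotent_iff_aug Char2.two_four hG _).2 (by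
      have : Char2.aug Char2.Four G w = 1 := by
        have := congrArg (Char2.aug Char2.Four G) hw
        rwa [map_mul, haug, one_mul, map_one] at this
      rw [map_add, map_pow, this, map_one, one_pow]
      linear_combination Char2.two_four))
  have hω : (algebraMap Char2.Four (MonoidAlgebra Char2.Four G) Char2.omega) ^ 2 +
      algebraMap Char2.Four (MonoidAlgebra Char2.Four G) Char2.omega + 1 = 0 := by
    rw [← map_pow, ← map_add, ← map_one (algebraMap Char2.Four (MonoidAlgebra Char2.Four G)), ← map_add,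
      Char2.omega_eq, map_zero]
  set y := algebraMap Char2.Four (MonoidAlgebra Char2.Four G) Char2.omega + e
  obtain ⟨P, hPP, hPt, hPd, -, hPcomm, hPconj⟩ := Char2.exists_proj h2 (hr.det h0) hw
    (z := M.trace * y) (by
      linear_combination M.trace ^ 2 * hω + M.trace ^ 2 * he + (M.trace * w + 1) * hw +
        (M.trace ^ 2 * algebraMap Char2.Four (MonoidAlgebra Char2.Four G) Char2.omega * e + 1) * h2)
  have hcomm : ∀ σ : kgrp D, r (σ : Gal2) * P = P * r (σ : Gal2) := fun σ =>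
    hPcomm _ (hr.commute σ.2 h0K)
  have hconj : ∀ c, ¬ D.InK c → r c * P * r c = 1 + P := fun c hc =>
    hPconj _ (hr.trace_not_inK hc).2
      ((hr.conj_eq hc h0K).1.trans (Char2.map_inv_eq_adjugate r h0 (hr.det h0)))
  let χ0 : kgrp D →* (MonoidAlgebra Char2.Four G) :=
    { toFun := fun σ => (r (σ : Gal2) * P).trace
      map_one' := by rw [OneMemClass.coe_one, map_one, one_mul, hPt]
      map_mul' := fun σ τ => by
        rw [Subgroup.coe_mul, map_mul, Char2.trace_mul_proj h2 hPP hPt hPd (hcomm σ) (hcomm τ)] }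
  have hinv : ∀ σ : kgrp D, (((χ0.toHomUnits σ)⁻¹ : (MonoidAlgebra Char2.Four G)ˣ) : (MonoidAlgebra Char2.Four G)) =
      ((r (σ : Gal2)).adjugate * P).trace := fun σ => by
    rw [← map_inv, MonoidHom.coe_toHomUnits, ← Char2.map_inv_eq_adjugate r _ (hr.det _)]
    rfl
  refine ⟨χ0.toHomUnits, fun σ => ?_, fun σ τ h => Units.ext ?_, fun c hc σ τ h => Units.ext ?_,
    fun q hq A hA σ hσ => Units.ext ?_, fun v hv hvN A hA φ hφ => ?_⟩
  · rw [hinv]
    exact Char2.trace_proj_add_adjugate h2 hPP hPt hPd _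
  · show (r (σ : Gal2) * P).trace = (r (τ : Gal2) * P).trace
    rw [h]
  · rw [hinv]
    show (r (τ : Gal2) * P).trace = _
    rw [h, map_mul, map_mul, (hr.conj_eq hc σ.2).2]
    exact Char2.trace_conj_proj h2 hPP hPt hPd (hconj c hc) _
  · show (r (σ : Gal2) * P).trace = 1
    by_cases hq2 : q ∣ 2 * D.m
    · obtain ⟨τ, hτ, hτK⟩ := exists_inertia_not_inK D hq hq2 hA
      refine Char2.trace_proj_eq_of_kill h2 hPP hPt hPd (hr.trace_not_inK hτK).2 (hconj τ hτK)
        (hcomm σ) ?_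
      rw [one_smul]
      exact hr.inertia q hq hq2 A hA σ hσ τ hτ
    · rw [hr.unram q hq hq2 A hA σ hσ, one_mul, hPt]
  · show (r (φ : Gal2) * P).trace = _
    obtain ⟨τ, hτ, hτK⟩ := exists_inertia_not_inK D hv hvN hA
    exact Char2.trace_proj_eq_of_kill h2 hPP hPt hPd (hr.trace_not_inK hτK).2 (hconj τ hτK)
      (hcomm φ) (hr.line v hv hvN A hA τ hτ φ hφ)

theorem DihRep.exists_pi (hr : DihRep D φA r) (hG : ∀ g : G, g ^ 2 ^ k = 1)
    (hmono : ∀ c, φA c ∈ (mono : Char2.Fourˣ × G →* (MonoidAlgebra Char2.Four G)ˣ).range)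
    (hφA : ∀ (l : ℕ) (A : ValuationSubring ℚ̄), l.Prime → ¬ l ∣ 2 * D.m → A.LiesOverPrime l →
      ∀ φ : Gal2, A.IsFrobeniusAt φ l → D.InK φ → D.rho φ ≠ 1 →
        Char2.aug Char2.Four G (φA (classOf D A) : (MonoidAlgebra Char2.Four G)) ≠
          Char2.aug Char2.Four G (((φA (classOf D A))⁻¹ : (MonoidAlgebra Char2.Four G)ˣ) : (MonoidAlgebra Char2.Four G))) :
    ∃ (ξ : kgrp D →* Char2.Fourˣ) (π : kgrp D →* G),
      (∃ L : IntermediateField ℚ ℚ̄, FiniteDimensional ℚ L ∧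
        ∀ σ : kgrp D, (∀ x ∈ L, (σ : Gal2) x = x) → ξ σ = 1 ∧ π σ = 1) ∧
      (∀ q : ℕ, q.Prime → ∀ A : ValuationSubring ℚ̄, A.LiesOverPrime q → ∀ σ : kgrp D,
        (σ : Gal2) ∈ A.inertiaSubgroupIn ℚ → ξ σ = 1 ∧ π σ = 1) ∧
      (∀ c : Gal2, ¬ D.InK c → ∀ σ τ : kgrp D, (τ : Gal2) = c * σ * c⁻¹ →
        ξ τ = (ξ σ)⁻¹ ∧ π τ = (π σ)⁻¹) ∧
      (∀ σ : kgrp D, ξ σ = 1 ↔ D.rho σ = 1) ∧
      (∀ v : ℕ, v.Prime → v ∣ 2 * D.m → ∀ A : ValuationSubring ℚ̄, A.LiesOverPrime v →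
        ∀ φ : kgrp D, A.IsFrobeniusAt (φ : Gal2) v →
          ((mono (ξ φ, π φ) : (MonoidAlgebra Char2.Four G)ˣ) : (MonoidAlgebra Char2.Four G)) = ringCoeff φA v) ∧
      ∀ σ : kgrp D, ((mono (ξ σ, π σ) : (MonoidAlgebra Char2.Four G)ˣ) : (MonoidAlgebra Char2.Four G)) +
        (((mono (ξ σ, π σ))⁻¹ : (MonoidAlgebra Char2.Four G)ˣ) : (MonoidAlgebra Char2.Four G)) = (r σ).trace := by
  obtain ⟨χ, hsum, hdep, hanti, hunr, hfrob⟩ := hr.exists_char hG
  have haugχ : ∀ σ : kgrp D, Char2.aug Char2.Four G (χ σ : (MonoidAlgebra Char2.Four G)) = 1 ↔ D.rho σ = 1 := by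
    intro σ
    have h := congrArg (Char2.aug Char2.Four G) (hsum σ)
    rw [map_add, hr.residual] at h
    set a := Char2.aug Char2.Four G (χ σ : (MonoidAlgebra Char2.Four G))
    set b := Char2.aug Char2.Four G (((χ σ)⁻¹ : (MonoidAlgebra Char2.Four G)ˣ) : (MonoidAlgebra Char2.Four G))
    have hab : a * b = 1 := by rw [← map_mul, Units.mul_inv, map_one]
    constructor
    · intro ha
      by_contra hne
      rw [mat_trace_one _ (det_rho D σ) σ.2 hne, map_one, ha] at h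
      rw [ha, one_mul] at hab
      rw [hab] at h
      exact one_ne_zero (show (1 : Char2.Four) = 0 by linear_combination Char2.two_four - h)
    · intro h1
      rw [h1, Matrix.trace_one, Fintype.card_fin, show ((2 : ℕ) : ZMod 2) = 0 by decide,
        map_zero] at h
      have : (a + 1) ^ 2 = 0 := by linear_combination a * h - hab + a * Char2.two_four
      linear_combination (pow_eq_zero_iff two_ne_zero).1 this - Char2.two_four
  have hord3 : ∀ σ : kgrp D, D.rho σ ≠ 1 → χ σ ∈ (mono : Char2.Fourˣ × G →* (MonoidAlgebra Char2.Four G)ˣ).range := by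
    intro σ
    have key : ∀ g : Gal2, ∀ hg : D.InK g, D.rho g ≠ 1 →
        χ ⟨g, hg⟩ ∈ (mono : Char2.Fourˣ × G →* (MonoidAlgebra Char2.Four G)ˣ).range := by
      intro g
      refine Density.forall_of_forall_isFrobeniusAt_coprime
        (P := fun g => ∀ hg : D.InK g, D.rho g ≠ 1 →
          χ ⟨g, hg⟩ ∈ (mono : Char2.Fourˣ × G →* (MonoidAlgebra Char2.Four G)ˣ).range)
        (r.ker ⊓ D.rho.ker) (hr.fin.isOpen_ker.inter (isOpen_ker_rho D))
        (2 * D.m).primeFactors (fun g u hu h hgu hne => ?_) (fun g j hj h hg hne => ?_)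
        (fun l hl hS _ A hA φ hφ hK hne => ?_) g
      · rw [map_mul, MonoidHom.mem_ker.1 hu.2, mul_one] at hne
        have hgK : D.InK g := by
          have := hgu
          rwa [Setup.InK, map_mul, MonoidHom.mem_ker.1 hu.2, mul_one] at this
        rw [hdep ⟨g * u, hgu⟩ ⟨g, hgK⟩ (by
          rw [map_mul, MonoidHom.mem_ker.1 hu.1, mul_one])]
        exact h hgK hne
      · obtain ⟨i, hi⟩ := eq_mul_of_pow D.rho hj inf_le_right
        obtain ⟨i', hi'⟩ := eq_mul_of_pow r hj inf_le_left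
        have hgj : D.InK (g ^ j) := inK_pow D hg j
        have hne' : D.rho (g ^ j) ≠ 1 := fun e => hne (by rw [hi, e, one_pow])
        rw [hdep ⟨g, hg⟩ (⟨g ^ j, hgj⟩ ^ i') (by
          rw [SubmonoidClass.coe_pow, map_pow r (g ^ j) i']; exact hi'), map_pow]
        exact pow_mem (h hgj hne') i'
      · have hl2 : ¬ l ∣ 2 * D.m := fun hd => hS (Nat.mem_primeFactors.2 ⟨hl, hd, NeZero.ne _⟩)
        have e := hsum ⟨φ, hK⟩
        rw [hr.frob l hl hl2 A hA φ hφ, ringCoeff_of_inK φA hl hA hl2 hφ hK] at e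
        rcases mem_range_mono_of_root hG (hmono _) (hφA l A hl hl2 hA φ hφ hK hne) e with h | h
        · rw [h]; exact hmono _
        · rw [h]; exact inv_mem (hmono _)
    exact key σ σ.2
  obtain ⟨g0, hg0, hg0ne⟩ := exists_order_three D
  have hall : ∀ σ : kgrp D, χ σ ∈ (mono : Char2.Fourˣ × G →* (MonoidAlgebra Char2.Four G)ˣ).range := by
    intro σ
    by_cases h1 : D.rho σ = 1
    · have e : χ σ = χ (σ * ⟨g0, hg0⟩) * (χ ⟨g0, hg0⟩)⁻¹ := by rw [map_mul, mul_inv_cancel_right]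
      rw [e]
      refine mul_mem (hord3 _ ?_) (inv_mem (hord3 _ hg0ne))
      rw [Subgroup.coe_mul, map_mul, h1, one_mul]
      exact hg0ne
    · exact hord3 σ h1
  let ρ' : kgrp D →* Char2.Fourˣ × G :=
    (MonoidHom.ofInjective mono_injective).symm.toMonoidHom.comp (χ.codRestrict _ hall)
  have hρ : ∀ σ, mono (ρ' σ) = χ σ := fun σ =>
    MonoidHom.apply_ofInjective_symm mono_injective _
  have hone : ∀ σ, χ σ = 1 → ρ' σ = 1 := fun σ h => mono_injective (by rw [hρ, h, map_one])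
  refine ⟨(MonoidHom.fst _ _).comp ρ', (MonoidHom.snd _ _).comp ρ', ?_,
    fun q hq A hA σ hσ => ?_, fun c hc σ τ h => ?_, fun σ => ?_, fun v hv hvN A hA φ hφ => ?_,
    fun σ => ?_⟩
  · obtain ⟨L, hL, h⟩ := hr.fin
    refine ⟨L, hL, fun σ hσ => Prod.ext_iff.1 (hone σ ?_)⟩
    rw [hdep σ 1 (by rw [h _ hσ, OneMemClass.coe_one, map_one]), map_one]
  · exact Prod.ext_iff.1 (hone σ (hunr q hq A hA σ hσ))
  · have : ρ' τ = (ρ' σ)⁻¹ := mono_injective (by rw [map_inv, hρ, hρ, hanti c hc σ τ h])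
    exact Prod.ext_iff.1 this
  · rw [← haugχ, ← hρ, aug_mono]
    exact ⟨fun h => congrArg Units.val h, fun h => Units.ext h⟩
  · show ((mono (ρ' φ) : (MonoidAlgebra Char2.Four G)ˣ) : (MonoidAlgebra Char2.Four G)) = _
    rw [hρ]
    exact hfrob v hv hvN A hA φ hφ
  · show ((mono (ρ' σ) : (MonoidAlgebra Char2.Four G)ˣ) : (MonoidAlgebra Char2.Four G)) + (((mono (ρ' σ))⁻¹ : (MonoidAlgebra Char2.Four G)ˣ) : (MonoidAlgebra Char2.Four G)) = _
    rw [hρ]
    exact hsum σ

end Rep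

theorem padic_toZMod_isUnit {x : ℤ_[2]} (hx : IsUnit x) : PadicInt.toZMod x = 1 :=
  (eq_one_or_of_zmod_two _).resolve_left (hx.map PadicInt.toZMod).ne_zero

theorem nonempty_universal (D : Setup) (W : Tower D) : Nonempty (Universal D) := by
  classical
  obtain ⟨ψ, E, h3, hE, hiff⟩ := exists_four D
  set h := Nat.card (ClassGroup (𝓞 (field D))) with hh
  have hh0 : h ≠ 0 := Nat.card_pos.ne'
  set k := h.factorization 2
  set n := h / 2 ^ k
  have hkn : 2 ^ k * n = h := Nat.ordProj_mul_ordCompl_eq_self h 2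
  have hodd : Odd (3 * n) := Nat.odd_mul.2 ⟨by decide,
    Nat.odd_iff.2 (Nat.two_dvd_ne_zero.1 (Nat.not_dvd_ordCompl Nat.prime_two hh0))⟩
  have hcop : (2 ^ (k + 1)).Coprime (3 * n) :=
    Nat.Coprime.pow_left _ (Nat.coprime_two_left.2 hodd)
  obtain ⟨e, he1, he0⟩ := Nat.chineseRemainder hcop 1 0
  obtain ⟨j, hj⟩ : 3 * n ∣ e := Nat.modEq_zero_iff_dvd.1 he0
  have heodd : e % 2 = 1 := by
    have := he1.of_dvd (dvd_pow_self 2 k.succ_ne_zero)
    exact this
  let G : Subgroup (ClassGroup (𝓞 (field D))) :=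
    (powMonoidHom (3 * n) : ClassGroup (𝓞 (field D)) →* _).range
  have hcard : ∀ c : ClassGroup (𝓞 (field D)), c ^ h = 1 := fun c => pow_card_eq_one'
  have hG : ∀ g : G, g ^ 2 ^ k = 1 := by
    rintro ⟨_, c, rfl⟩
    refine Subtype.ext ?_
    rw [SubmonoidClass.coe_pow, OneMemClass.coe_one]
    show (c ^ (3 * n)) ^ 2 ^ k = 1
    rw [← pow_mul, show 3 * n * 2 ^ k = h * 3 by rw [← hkn]; ring, pow_mul, hcard, one_pow]
  let toG : ClassGroup (𝓞 (field D)) →* G :=
    (powMonoidHom e).codRestrict G fun c => ⟨c ^ j, by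
      show (c ^ j) ^ (3 * n) = c ^ e
      rw [← pow_mul, hj, mul_comm j]⟩
  have htoG2 : ∀ c, c ^ 2 = 1 → (toG c : ClassGroup (𝓞 (field D))) = c := fun c hc => by
    show c ^ e = c
    rw [← Nat.div_add_mod e 2, pow_add, pow_mul, hc, one_pow, one_mul, heodd, pow_one]
  let φA : ClassGroup (𝓞 (field D)) →* (MonoidAlgebra Char2.Four G)ˣ :=
    mono.comp (ψ.prod toG)
  have haug : ∀ c, Char2.aug Char2.Four G (φA c : MonoidAlgebra Char2.Four G) = ψ c :=
    fun c => aug_mono (ψ c, toG c)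
  have h2 := two_groupAlgebra (G := G)
  haveI := Char2.isLocalRing_groupAlgebra (F := Char2.Four) (G := G) Char2.two_four hG
  obtain ⟨f, hfT, hfU⟩ := exists_hom D h2 φA E (by
    rw [Char2.isUnit_iff_aug Char2.two_four hG, map_sub, map_one, haug, sub_ne_zero]
    exact fun h => hE (Units.ext h))
  let ι : ZMod 2 →+* Char2.Four := AdjoinRoot.of Char2.fourPoly
  let ιA : ZMod 2 →+* MonoidAlgebra Char2.Four G := (algebraMap _ _).comp ι
  letI : Algebra ℤ_[2] (MonoidAlgebra Char2.Four G) := (ιA.comp PadicInt.toZMod).toAlgebra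
  haveI : Finite (MonoidAlgebra Char2.Four G) := Module.finite_of_finite Char2.Four
  haveI : Module.Finite ℤ_[2] (MonoidAlgebra Char2.Four G) := Module.Finite.of_finite
  let augR : MonoidAlgebra Char2.Four G →+* Char2.Four := (Char2.aug Char2.Four G).toRingHom
  have hsp : ∀ q, D.IsSpecial ∅ q ↔ (q.Prime ∧ q ∣ 2 * D.m) := fun q => by
    simp [Setup.IsSpecial]
  have hredT : ∀ (l : ℕ) (hl : l.Prime) (hlN : ¬ l ∣ 2 * D.m) (A : ValuationSubring ℚ̄),
      A.LiesOverPrime l → ∀ φ : Gal2, A.IsFrobeniusAt φ l →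
        W.red ∅ (W.t ∅ l) = (D.rho φ).trace := fun l hl hlN A hA φ hφ => by
    rw [← W.trace_frob ∅ l hl (fun h => hlN ((hsp l).1 h).2) A hA φ hφ, ← W.lifts ∅ φ]
    exact (trace_map _ _).symm
  have hres : ∀ x, augR (f x) = ι (W.red ∅ (W.hecke x)) := by
    intro x
    have := hom_mem_subring D ((augR.comp f).prod (ι.comp ((W.red ∅).comp W.hecke)))
      (RingHom.eqLocus (RingHom.fst Char2.Four Char2.Four) (RingHom.snd Char2.Four Char2.Four))
      (fun l hl hlN => ?_) (fun v hv hvN => ?_) x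
    · exact this
    · obtain ⟨A, hA, φ, hφ⟩ := GalCommon.exists_place_frobenius hl
      show augR (f _) = ι (W.red ∅ (W.hecke _))
      rw [W.hecke_T, hfT, hredT l hl hlN A hA φ hφ]
      by_cases hK : D.InK φ
      · rw [ringCoeff_of_inK φA hl hA hlN hφ hK, map_add, ← map_inv]
        show Char2.aug Char2.Four G (φA _ : MonoidAlgebra Char2.Four G) +
          Char2.aug Char2.Four G (φA _ : MonoidAlgebra Char2.Four G) = _
        rw [haug, haug, map_inv]
        have h3' : ψ (classOf D A) ^ 3 = 1 := by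
          rw [← MonoidHom.pow_apply, h3, MonoidHom.one_apply]
        by_cases h1 : D.rho φ = 1
        · rw [(hiff l A hl hlN hA φ hφ hK).2 h1, inv_one, Units.val_one, ← two_mul,
            Char2.two_four, zero_mul, h1, Matrix.trace_one, Fintype.card_fin,
            show ((2 : ℕ) : ZMod 2) = 0 by decide, map_zero]
        · rw [four_add_inv h3' (mt (hiff l A hl hlN hA φ hφ hK).1 h1),
            mat_trace_one _ (det_rho D φ) hK h1, map_one]
      · rw [ringCoeff_of_not_inK φA hl hA hlN hφ hK, map_zero,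
          (mat_trace_zero _ (det_rho D φ)).2 (mat_sq_of_cube_ne _ (det_rho D φ) hK), map_zero]
    · obtain ⟨A, hA⟩ := GalCommon.exists_liesOverPrime (ℓ := v) hv
      show augR (f _) = ι (W.red ∅ (W.hecke _))
      rw [W.hecke_U, hfU, W.red_t ∅ v ((hsp v).2 ⟨hv, hvN⟩), map_one,
        ringCoeff_of_dvd φA hv hA hvN]
      have h1 : ψ (classOf D A) = 1 :=
        four_eq_one_of_sq (by rw [← MonoidHom.pow_apply, h3, MonoidHom.one_apply])
          (by rw [← map_pow, classOf_sq hv hA hvN, map_one])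
      exact (haug _).trans (by rw [h1, Units.val_one])
  obtain ⟨g, hg⟩ := W.hecke_lift (MonoidAlgebra Char2.Four G) f (fun x => by
    rw [IsLocalRing.mem_maximalIdeal, mem_nonunits_iff, Char2.isUnit_iff_aug Char2.two_four hG,
      not_not, map_sub, map_natCast, ← map_natCast ι, ZMod.natCast_zmod_val, ← hres x]
    exact sub_self _)
  have haug_g : ∀ y : W.T ∅, augR (g y) = ι (W.red ∅ y) := by
    have hsurj : Function.Surjective (W.red ∅) := ZMod.ringHom_surjective _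
    haveI : (RingHom.ker (augR.comp g.toRingHom)).IsPrime := RingHom.ker_isPrime _
    have hk1 : RingHom.ker (augR.comp g.toRingHom) = IsLocalRing.maximalIdeal (W.T ∅) := by
      refine IsLocalRing.eq_maximalIdeal ?_
      refine Ideal.Quotient.maximal_of_isField _ ?_
      haveI : Finite (W.T ∅ ⧸ RingHom.ker (augR.comp g.toRingHom)) :=
        Finite.of_injective _ (RingHom.kerLift_injective (augR.comp g.toRingHom))
      exact Finite.isField_of_domain _
    have hk2 : RingHom.ker (W.red ∅) = IsLocalRing.maximalIdeal (W.T ∅) :=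
      IsLocalRing.eq_maximalIdeal (RingHom.ker_isMaximal_of_surjective _ hsurj)
    intro y
    have hy : y - ((W.red ∅ y).val : W.T ∅) ∈ RingHom.ker (W.red ∅) := by
      rw [RingHom.mem_ker, map_sub, map_natCast, ZMod.natCast_zmod_val, sub_self]
    rw [hk2, ← hk1, RingHom.mem_ker, map_sub, map_natCast, sub_eq_zero] at hy
    rw [show augR (g y) = _ from hy, ← map_natCast ι, ZMod.natCast_zmod_val]
  have hchi : ∀ σ, algebraMap ℤ_[2] (MonoidAlgebra Char2.Four G) (chi2 σ) = 1 := fun σ => by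
    show ιA (PadicInt.toZMod (chi2 σ)) = 1
    rw [padic_toZMod_isUnit (IsUnit.map chi2 (Group.isUnit σ)), map_one]
  let r : Gal2 →* Mat2 (MonoidAlgebra Char2.Four G) := mapRep g.toRingHom (W.r ∅)
  have hTl : ∀ (l : ℕ) (hl : l.Prime) (hlN : ¬ l ∣ 2 * D.m), g (W.t ∅ l) = ringCoeff φA l :=
    fun l hl hlN => by rw [← W.hecke_T l hl hlN, hg, hfT]
  have hTv : ∀ (v : ℕ) (hv : v.Prime) (hvN : v ∣ 2 * D.m), g (W.t ∅ v) = ringCoeff φA v :=
    fun v hv hvN => by rw [← W.hecke_U v hv hvN, hg, hfU]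
  have hmap : ∀ (σ : Gal2) (c : W.T ∅),
      (W.r ∅ σ - c • (1 : Mat2 (W.T ∅))).map g.toRingHom = r σ - g c • 1 := fun σ c => by
    refine Matrix.ext fun i j => ?_
    rcases eq_or_ne i j with rfl | hij
    · simp [r]
    · simp [r, hij]
  have hr : DihRep D φA r := by
    refine ⟨?_, fun σ => ?_, fun σ => ?_, fun l hl hlN A hA φ hφ => ?_,
      fun q hq hq2 A hA σ hσ => ?_, fun v hv hvN A hA σ hσ τ hτ => ?_,
      fun v hv hvN A hA σ hσ φ hφ => ?_⟩
    · obtain ⟨L, hL, h⟩ := W.cont ∅ 1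
      refine ⟨L, hL, fun σ hσ => ?_⟩
      refine Matrix.ext fun i j => sub_eq_zero.1 ?_
      obtain ⟨c, hc⟩ := h σ hσ i j
      have := congrArg g hc
      rw [map_mul, map_pow, map_ofNat, h2, zero_pow one_ne_zero, zero_mul, Matrix.sub_apply,
        map_sub] at this
      rw [← this, Matrix.one_apply, Matrix.one_apply]
      split <;> simp [r]
    · show ((W.r ∅ σ).map g.toRingHom).det = 1
      rw [det_map, W.det]
      exact (g.commutes _).trans (hchi σ)
    · show augR ((W.r ∅ σ).map g.toRingHom).trace = _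
      rw [trace_map]
      refine (haug_g _).trans ?_
      rw [← W.lifts ∅ σ, trace_map]
    · show ((W.r ∅ φ).map g.toRingHom).trace = _
      rw [trace_map, W.trace_frob ∅ l hl (fun h => hlN ((hsp l).1 h).2) A hA φ hφ]
      exact hTl l hl hlN
    · show (W.r ∅ σ).map g.toRingHom = 1
      rw [W.unram ∅ q hq (fun h => hq2 ((hsp q).1 h).2) A hA σ hσ]
      exact Matrix.map_one _ (map_zero _) (map_one _)
    · have e := congrArg (g.toRingHom.mapMatrix (m := Fin 2))
        ((W.special ∅ v hv hvN).inertia A hA σ hσ τ hτ)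
      rw [map_mul, map_zero] at e
      rw [← one_smul (W.T ∅) (W.r ∅ τ - 1)] at e
      rw [one_smul] at e
      rw [← e, RingHom.mapMatrix_apply, RingHom.mapMatrix_apply, hmap, AlgHom.commutes, hchi,
        one_smul, ← one_smul (W.T ∅) (1 : Mat2 (W.T ∅)), hmap, map_one, one_smul]
    · have e := congrArg (g.toRingHom.mapMatrix (m := Fin 2))
        ((W.special ∅ v hv hvN).line A hA σ hσ φ hφ)
      rw [map_mul, map_zero] at e
      rw [← e, RingHom.mapMatrix_apply, RingHom.mapMatrix_apply, hmap, map_mul, AlgHom.commutes,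
        hchi, one_mul, hTv v hv hvN, ← one_smul (W.T ∅) (1 : Mat2 (W.T ∅)), hmap, map_one,
        one_smul]
  obtain ⟨ξ, π, hcont, hunr, hanti, hξ1, hfrobv, hsum⟩ :=
    hr.exists_pi hG (fun c => ⟨(ψ c, toG c), rfl⟩) (fun l A hl hl2 hA φ hφ hK hne => by
      rw [← map_inv, haug, haug, map_inv]
      intro heq
      have h3' : ψ (classOf D A) ^ 3 = 1 := by
        rw [← MonoidHom.pow_apply, h3, MonoidHom.one_apply]
      refine hne ((hiff l A hl hl2 hA φ hφ hK).1 (four_eq_one_of_sq h3' ?_))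
      rw [sq]
      nth_rw 2 [show ψ (classOf D A) = (ψ (classOf D A))⁻¹ from Units.ext heq]
      exact mul_inv_cancel _)
  have hv' : ∀ v : ℕ, v.Prime → v ∣ 2 * D.m → ∀ A : ValuationSubring ℚ̄, A.LiesOverPrime v →
      ∀ φ : kgrp D, A.IsFrobeniusAt (φ : Gal2) v → ξ φ = 1 ∧ π φ = toG (classOf D A) := by
    intro v hv hvN A hA φ hφ
    have e := hfrobv v hv hvN A hA φ hφ
    rw [ringCoeff_of_dvd φA hv hA hvN] at e
    have e' := Prod.ext_iff.1 (mono_injective (Units.ext e) : (ξ φ, π φ) =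
      (ψ (classOf D A), toG (classOf D A)))
    refine ⟨e'.1.trans ?_, e'.2⟩
    exact four_eq_one_of_sq (by rw [← MonoidHom.pow_apply, h3, MonoidHom.one_apply])
      (by rw [← map_pow, classOf_sq hv hA hvN, map_one])
  exact ⟨
    { G := G
      k := k
      pow_eq_one := hG
      toG := toG
      toG_inj := fun c hc h => (htoG2 c hc).symm.trans (congrArg Subtype.val h)
      ξ := ξ
      π := π
      cont := hcont
      unram := hunr
      anti := hanti
      ξ_eq_one := hξ1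
      frob := hv'
      f := f
      f_T_in := fun l hl hlN A hA φ hφ => by
        rw [hfT, ← hr.frob l hl hlN A hA φ hφ, ← hsum, val_mono, ← map_inv, val_mono]
        rfl
      f_T_out := fun l hl hlN A hA φ hφ hK => by
        rw [hfT, ringCoeff_of_not_inK φA hl hA hlN hφ hK]
      f_U := fun v hv hvN A hA φ hφ => by
        rw [hfU, ← hfrobv v hv hvN A hA φ hφ, val_mono, (hv' v hv hvN A hA φ hφ).1]
        rfl }⟩

end FLTAgent.Mod2.Dih
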